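import Fermat.Agent.GalRep.Limit

/-!
# Pseudo-representations with general determinant from Hecke modules
-/

set_option autoImplicit false
set_option linter.style.haveILetI false
set_option linter.unusedSectionVars false

namespace Fermat.Agent.KumG

open Fermat.Agent.GalRep Fermat.Agent.Places Fermat.Agent.Cheb

section

variable {R : Type*} [CommRing R] {X : Type*} [AddCommGroup X] [Module R X]
  {ρ : GQ →* Module.End R X} {D : GQ → R} {a : ℕ → R} {S : Set ℕ} {I : Ideal R}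

theorem exists_trace_abs (hS : S.Finite)
    (hD1 : ∀ x : X, D 1 • x = x) (hDmul : ∀ g h (x : X), D (g * h) • x = D g • D h • x)
    (hlev : ∃ L : IntermediateField ℚ (AlgebraicClosure ℚ), FiniteDimensional ℚ L ∧
      ∀ σ : GQ, (∀ x ∈ L, σ x = x) → ρ σ = 1 ∧ ∀ x : X, D σ • x = x)
    (hfrob : ∀ (ℓ : ℕ), ℓ.Prime → ℓ ∉ S → ∀ A : ValuationSubring (AlgebraicClosure ℚ),
      A.LiesOverPrime ℓ → ∀ τ : GQ, A.IsFrobeniusAt τ ℓ →
        ∀ x : X, ρ τ (ρ τ x) - a ℓ • ρ τ x + D τ • x = 0) (g : GQ) :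
    ∃ r : R, ∀ x : X, ρ g x + D g • ρ g⁻¹ x = r • x := by
  obtain ⟨L, hL, hL'⟩ := hlev
  haveI := hL
  have hM : ∀ u ∈ L.fixingSubgroup, ρ u = 1 ∧ ∀ x : X, D u • x = x := fun u hu => hL' u fun x hx =>
    (IntermediateField.mem_fixingSubgroup_iff L u).mp hu x hx
  refine frobenius_induction S hS L.fixingSubgroup (isOpen_fixing L)
    (fun g => ∃ r : R, ∀ x : X, ρ g x + D g • ρ g⁻¹ x = r • x) ?_ ?_ g
  · rintro g u hu ⟨r, hr⟩
    refine ⟨r, fun x => ?_⟩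
    rw [mul_inv_rev, map_mul, map_mul, (hM u hu).1, (hM u⁻¹ (inv_mem hu)).1, mul_one,
      one_mul, hDmul, (hM u hu).2]
    exact hr x
  · intro ℓ hℓ hℓS A hA τ hτ k
    have hinv : ∀ x : X, ρ τ (ρ τ⁻¹ x) = x := fun x => by
      rw [← Module.End.mul_apply, ← map_mul, mul_inv_cancel, map_one, Module.End.one_apply]
    have hinv' : ∀ x : X, ρ τ⁻¹ (ρ τ x) = x := fun x => by
      rw [← Module.End.mul_apply, ← map_mul, inv_mul_cancel, map_one, Module.End.one_apply]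
    have hT : ∀ x : X, a ℓ • x = ρ τ x + D τ • ρ τ⁻¹ x := by
      intro x
      have h3 := hfrob ℓ hℓ hℓS A hA τ hτ (ρ τ⁻¹ x)
      rw [hinv] at h3
      rw [← sub_eq_zero, ← neg_eq_zero, ← h3]
      abel
    have hDs : ∀ (k : ℕ) (x : X), D (τ ^ (k + 1)) • x = D τ • D (τ ^ k) • x := fun k x => by
      rw [pow_succ', hDmul]
    have key : ∀ k : ℕ, ∃ r r' : R, (∀ x : X, ρ (τ ^ k) x + D (τ ^ k) • ρ (τ ^ k)⁻¹ x = r • x) ∧
        (∀ x : X, ρ (τ ^ (k + 1)) x + D (τ ^ (k + 1)) • ρ (τ ^ (k + 1))⁻¹ x = r' • x) := by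
      intro k
      induction k with
      | zero =>
        refine ⟨2, a ℓ, fun x => ?_, fun x => ?_⟩
        · rw [pow_zero, inv_one, map_one, hD1, Module.End.one_apply, two_smul]
        · rw [zero_add, pow_one, hT]
      | succ k ih =>
        obtain ⟨r, r', hr, hr'⟩ := ih
        refine ⟨r', a ℓ * r' - D τ * r, hr', fun x => ?_⟩
        rw [sub_smul, mul_smul, ← hr', mul_smul, ← hr, hT]
        have e1 : ρ (τ ^ (k + 1 + 1)) x = ρ τ (ρ (τ ^ (k + 1)) x) := by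
          rw [pow_succ' τ (k + 1), map_mul, Module.End.mul_apply]
        have e2 : ρ τ⁻¹ (ρ (τ ^ (k + 1)) x) = ρ (τ ^ k) x := by
          rw [pow_succ' τ k, map_mul, Module.End.mul_apply, hinv']
        have e3 : ρ τ (ρ (τ ^ (k + 1))⁻¹ x) = ρ (τ ^ k)⁻¹ x := by
          rw [pow_succ τ k, mul_inv_rev, map_mul, Module.End.mul_apply, hinv]
        have e4 : ρ (τ ^ (k + 1 + 1))⁻¹ x = ρ τ⁻¹ (ρ (τ ^ (k + 1))⁻¹ x) := by
          rw [pow_succ τ (k + 1), mul_inv_rev, map_mul, Module.End.mul_apply]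
        rw [map_add, map_add, map_smul, map_smul, e1, e2, e3, e4, hDs (k + 1), smul_add, smul_add]
        rw [hDs k (ρ (τ ^ k)⁻¹ x)]
        abel
    obtain ⟨r, -, hr, -⟩ := key k
    exact ⟨r, fun x => by rw [hr]⟩

/-- **The pseudo-representation attached to a Hecke module with the Eichler-Shimura relation**,
with general determinant. -/
theorem exists_pseudoRep_abs (hS : S.Finite) (hI : ∀ r : R, (∀ x : X, r • x = 0) → r ∈ I)
    (hD1 : ∀ x : X, D 1 • x = x) (hDmul : ∀ g h (x : X), D (g * h) • x = D g • D h • x)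
    (hlev : ∃ L : IntermediateField ℚ (AlgebraicClosure ℚ), FiniteDimensional ℚ L ∧
      ∀ σ : GQ, (∀ x ∈ L, σ x = x) → ρ σ = 1 ∧ ∀ x : X, D σ • x = x)
    (hfrob : ∀ (ℓ : ℕ), ℓ.Prime → ℓ ∉ S → ∀ A : ValuationSubring (AlgebraicClosure ℚ),
      A.LiesOverPrime ℓ → ∀ τ : GQ, A.IsFrobeniusAt τ ℓ →
        ∀ x : X, ρ τ (ρ τ x) - a ℓ • ρ τ x + D τ • x = 0) :
    ∃ t : GQ → R ⧸ I,
      IsPseudoRep t (fun g => Ideal.Quotient.mk I (D g)) ∧ IsLocConst t ∧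
      (∀ ℓ : ℕ, ℓ.Prime → ℓ ∉ S → ∀ A : ValuationSubring (AlgebraicClosure ℚ),
        A.LiesOverPrime ℓ → ∀ τ : GQ, A.IsFrobeniusAt τ ℓ → t τ = Ideal.Quotient.mk _ (a ℓ)) ∧
      (∀ σ : GQ, ρ σ = 1 → (∀ x : X, D σ • x = x) → ∀ g, t (g * σ) = t g) ∧
      ∀ g, ∃ r : R, t g = Ideal.Quotient.mk _ r ∧ ∀ x : X, ρ g x + D g • ρ g⁻¹ x = r • x := by
  choose r hr using exists_trace_abs hS hD1 hDmul hlev hfrob
  have huniq : ∀ b b' : R, (∀ x : X, b • x = b' • x) →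
      Ideal.Quotient.mk I b = Ideal.Quotient.mk _ b' := by
    intro b b' hb
    rw [Ideal.Quotient.eq]
    exact hI (b - b') fun x => by rw [sub_smul, hb, sub_self]
  have hcomm : ∀ (g : GQ) (r : R) (x : X), ρ g (r • x) = r • ρ g x := fun g r x =>
    map_smul (ρ g) r x
  refine ⟨fun g => Ideal.Quotient.mk _ (r g), ⟨?_, ?_, ?_, ?_⟩, ?_, ?_, ?_,
    fun g => ⟨r g, rfl, hr g⟩⟩
  · -- t 1 = 2
    rw [← map_ofNat (Ideal.Quotient.mk I) 2]
    apply huniq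
    intro x
    rw [← hr 1 x, inv_one, map_one, Module.End.one_apply, hD1, two_smul]
  · -- D 1 = 1
    change Ideal.Quotient.mk I (D 1) = 1
    rw [← map_one (Ideal.Quotient.mk I)]
    exact huniq _ _ fun x => by rw [hD1, one_smul]
  · -- D mul
    intro g g'
    change Ideal.Quotient.mk I (D (g * g')) = Ideal.Quotient.mk I (D g) * Ideal.Quotient.mk I (D g')
    rw [← map_mul]
    exact huniq _ _ fun x => by rw [mul_smul, hDmul]
  · -- the relation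
    intro g g'
    change Ideal.Quotient.mk I (r (g * g')) + Ideal.Quotient.mk I (D g') *
      Ideal.Quotient.mk I (r (g * g'⁻¹)) = Ideal.Quotient.mk I (r g) * Ideal.Quotient.mk I (r g')
    rw [← map_mul, ← map_mul, ← map_add]
    apply huniq
    intro x
    have e1 : r g • ρ g' x = ρ g (ρ g' x) + D g • ρ g⁻¹ (ρ g' x) := (hr g _).symm
    have e2 : r g • ρ g'⁻¹ x = ρ g (ρ g'⁻¹ x) + D g • ρ g⁻¹ (ρ g'⁻¹ x) := (hr g _).symm
    -- commutation of `r g'` with `g⁻¹`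
    have e3 : ρ g⁻¹ (ρ g' x) + D g' • ρ g⁻¹ (ρ g'⁻¹ x) =
        ρ g' (ρ g⁻¹ x) + D g' • ρ g'⁻¹ (ρ g⁻¹ x) := by
      have h1 : ρ g⁻¹ (ρ g' x + D g' • ρ g'⁻¹ x) = ρ g⁻¹ (ρ g' x) + D g' • ρ g⁻¹ (ρ g'⁻¹ x) := by
        rw [map_add, map_smul]
      rw [← h1, hr g' x, hcomm, hr g' (ρ g⁻¹ x)]
    have e4 : (g * g')⁻¹ = g'⁻¹ * g⁻¹ := mul_inv_rev g g'
    have e5 : (g * g'⁻¹)⁻¹ = g' * g⁻¹ := by rw [mul_inv_rev, inv_inv]
    have e6 : D g' • D (g * g'⁻¹) • ρ g' (ρ g⁻¹ x) = D g • ρ g' (ρ g⁻¹ x) := by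
      rw [smul_comm, ← hDmul, inv_mul_cancel_right]
    have hR : (r g * r g') • x = ρ g (ρ g' x) + D g' • ρ g (ρ g'⁻¹ x) +
        D g • (ρ g⁻¹ (ρ g' x) + D g' • ρ g⁻¹ (ρ g'⁻¹ x)) := by
      rw [mul_smul, ← hr g' x, smul_add, smul_comm (r g) (D g'), e1, e2]
      simp only [smul_add, smul_comm (D g') (D g)]
      abel
    have hL : (r (g * g') + D g' * r (g * g'⁻¹)) • x =
        (ρ g (ρ g' x) + D g • D g' • ρ g'⁻¹ (ρ g⁻¹ x)) +
        (D g' • ρ g (ρ g'⁻¹ x) + D g • ρ g' (ρ g⁻¹ x)) := by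
      rw [add_smul, mul_smul, ← hr (g * g'), ← hr (g * g'⁻¹), e4, e5, hDmul]
      simp only [map_mul ρ, Module.End.mul_apply, smul_add]
      rw [e6]
    rw [hL, hR, e3]
    simp only [smul_add]
    abel
  · -- locally constant
    obtain ⟨L, hL, h1⟩ := hlev
    refine ⟨L, hL, fun σ hσ g => huniq _ _ fun x => ?_⟩
    obtain ⟨hσ1, hσ2⟩ := h1 σ hσ
    have hσ3 : ρ σ⁻¹ = 1 := by
      have := map_mul ρ σ⁻¹ σ
      rw [inv_mul_cancel, map_one, hσ1, mul_one] at this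
      exact this.symm
    rw [← hr (g * σ), ← hr g, mul_inv_rev, map_mul, map_mul, hσ1, hσ3, mul_one, one_mul, hDmul,
      hσ2]
  · -- Frobenius
    intro ℓ hℓ hℓS A hA τ hτ
    apply huniq
    intro x
    have h3 := hfrob ℓ hℓ hℓS A hA τ hτ (ρ τ⁻¹ x)
    have hinv : ρ τ (ρ τ⁻¹ x) = x := by
      rw [← Module.End.mul_apply, ← map_mul, mul_inv_cancel, map_one, Module.End.one_apply]
    rw [hinv] at h3
    rw [← hr τ x, ← sub_eq_zero, ← h3]
    abel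
  · -- inertia
    intro σ hσ1 hσ2 g
    apply huniq
    intro x
    have hσ3 : ρ σ⁻¹ = 1 := by
      have := map_mul ρ σ⁻¹ σ
      rw [inv_mul_cancel, map_one, hσ1, mul_one] at this
      exact this.symm
    rw [← hr (g * σ), ← hr g, mul_inv_rev, map_mul, map_mul, hσ1, hσ3, mul_one, one_mul, hDmul,
      hσ2]

/-! ### determinant = cyclotomic character times a character with values in `R` -/

theorem val_smul_eq {X : Type*} [AddCommGroup X] {M : ℕ} (hX : ∀ x : X, M • x = 0) {a b : ℕ}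
    (h : (a : ZMod M) = b) (x : X) : a • x = b • x := by
  rw [ZMod.natCast_eq_natCast_iff] at h
  obtain h5 | h5 := le_total a b
  · obtain ⟨c, hc⟩ := (Nat.modEq_iff_dvd' h5).mp h
    have h6 : b = a + c * M := by rw [mul_comm]; omega
    rw [h6, add_smul, mul_smul, hX, smul_zero, add_zero]
  · obtain ⟨c, hc⟩ := (Nat.modEq_iff_dvd' h5).mp h.symm
    have h6 : a = b + c * M := by rw [mul_comm]; omega
    rw [h6, add_smul, mul_smul, hX, smul_zero, add_zero]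

theorem exists_pseudoRep_eps {ε : GQ →* R} {M : ℕ} [NeZero M] (hS : S.Finite)
    (hX : ∀ x : X, M • x = 0) (hI : ∀ r : R, (∀ x : X, r • x = 0) → r ∈ I)
    (hlev : ∃ L : IntermediateField ℚ (AlgebraicClosure ℚ), FiniteDimensional ℚ L ∧
      ∀ σ : GQ, (∀ x ∈ L, σ x = x) → ρ σ = 1)
    (hlevε : ∃ L : IntermediateField ℚ (AlgebraicClosure ℚ), FiniteDimensional ℚ L ∧
      ∀ σ : GQ, (∀ x ∈ L, σ x = x) → ε σ = 1)
    (hcop : ∀ ℓ : ℕ, ℓ.Prime → ℓ ∉ S → Nat.Coprime ℓ M)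
    (hfrob : ∀ (ℓ : ℕ), ℓ.Prime → ℓ ∉ S → ∀ A : ValuationSubring (AlgebraicClosure ℚ),
      A.LiesOverPrime ℓ → ∀ τ : GQ, A.IsFrobeniusAt τ ℓ →
        ∀ x : X, ρ τ (ρ τ x) - a ℓ • ρ τ x + ℓ • (ε τ • x) = 0) :
    ∃ t : GQ → R ⧸ I,
      IsPseudoRep t (fun g => Ideal.Quotient.mk I ((((cyc M g).val : ℕ) : R) * ε g)) ∧
      IsLocConst t ∧
      (∀ ℓ : ℕ, ℓ.Prime → ℓ ∉ S → ∀ A : ValuationSubring (AlgebraicClosure ℚ),
        A.LiesOverPrime ℓ → ∀ τ : GQ, A.IsFrobeniusAt τ ℓ → t τ = Ideal.Quotient.mk _ (a ℓ)) ∧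
      (∀ σ : GQ, ρ σ = 1 → cyc M σ = 1 → ε σ = 1 → ∀ g, t (g * σ) = t g) ∧
      ∀ g, ∃ r : R, t g = Ideal.Quotient.mk _ r ∧
        ∀ x : X, ρ g x + (cyc M g).val • (ε g • ρ g⁻¹ x) = r • x := by
  have hsm : ∀ (k : ℕ) (T : R) (x : X), ((k : R) * T) • x = k • (T • x) := fun k T x => by
    rw [mul_smul, Nat.cast_smul_eq_nsmul]
  have h1 : ∀ x : X, (1 : ZMod M).val • x = x := fun x => by
    have := val_smul_eq (a := (1 : ZMod M).val) (b := 1) hX (by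
      rw [ZMod.natCast_zmod_val, Nat.cast_one]) x
    rw [this, one_smul]
  obtain ⟨t, ht1, ht2, ht3, ht4, ht5⟩ := exists_pseudoRep_abs (ρ := ρ)
    (D := fun g => (((cyc M g).val : ℕ) : R) * ε g) (a := a) (I := I) hS hI
    (fun x => by rw [hsm, map_one, map_one, one_smul, h1])
    (fun g h x => by
      rw [hsm, hsm, hsm, map_mul ε, mul_smul, smul_comm (ε g) (cyc M h).val,
        ← mul_smul (cyc M g).val]
      refine val_smul_eq hX ?_ _
      push_cast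
      rw [ZMod.natCast_zmod_val, ZMod.natCast_zmod_val, ZMod.natCast_zmod_val, map_mul])
    (by
      obtain ⟨L, hL, h⟩ := hlev
      obtain ⟨L', hL', h'⟩ := exists_level_cyc M
      obtain ⟨L'', hL'', h''⟩ := hlevε
      haveI := hL
      haveI := hL'
      haveI := hL''
      refine ⟨L ⊔ (L' ⊔ L''), inferInstance, fun σ hσ => ⟨
        h σ (fun x hx => hσ x ((le_sup_left : L ≤ _) hx)), fun x => ?_⟩⟩
      have e1 := h' σ fun x hx => hσ x ((le_sup_left.trans le_sup_right : L' ≤ L ⊔ (L' ⊔ L'')) hx)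
      have e2 := h'' σ fun x hx =>
        hσ x ((le_sup_right.trans le_sup_right : L'' ≤ L ⊔ (L' ⊔ L'')) hx)
      rw [hsm, e1, e2, one_smul, h1])
    (fun ℓ hℓ hℓS A hA τ hτ x => by
      rw [hsm, val_smul_eq (b := ℓ) hX (by
        rw [ZMod.natCast_zmod_val, cyc_frobenius (hcop ℓ hℓ hℓS) hA hτ])]
      exact hfrob ℓ hℓ hℓS A hA τ hτ x)
  refine ⟨t, ht1, ht2, ht3, fun σ hσ1 hσ2 hσ3 => ht4 σ hσ1 fun x => by
    rw [hsm, hσ2, hσ3, one_smul, h1], fun g => ?_⟩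
  obtain ⟨r, hr, hr'⟩ := ht5 g
  exact ⟨r, hr, fun x => by rw [← hr' x, hsm]⟩

end

end Fermat.Agent.KumG
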