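import Fermat.Agent.KumG.HeckeAlg
import Fermat.Agent.KumG.PseudoD
import Fermat.Agent.GalRep.Faithful
import Fermat.Agent.Places.Instances

/-!
# Pseudo-representations attached to characters of the Hecke algebra of level `Γ_H(N)`
-/

set_option autoImplicit false
set_option linter.unusedSectionVars false
set_option linter.style.haveILetI false

open Matrix.SpecialLinearGroup
open scoped MatrixGroups

namespace Fermat.Agent.KumG

open Fermat.Agent.GalRep Fermat.Agent.Places Fermat.Agent.Cheb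

noncomputable section

/-! ### limits of pseudo-representations -/

section limit

variable {B : Type*} [CommRing B] {I : Ideal B} [IsAdicComplete I B] {S : Set ℕ}

theorem exists_limit_pseudoRep (hS : S.Finite) {t D : ∀ n : ℕ, GQ → B ⧸ I ^ n} {b : ℕ → B}
    (h1 : ∀ n, IsPseudoRep (t n) (D n)) (h2 : ∀ n, IsLocConst (t n))
    (hD : ∀ {m n : ℕ} (h : m ≤ n) (g : GQ),
      Ideal.Quotient.factor (Ideal.pow_le_pow_right h) (D n g) = D m g)
    (hf : ∀ n, ∀ ℓ : ℕ, ℓ.Prime → ℓ ∉ S → ∀ A : ValuationSubring (AlgebraicClosure ℚ),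
        A.LiesOverPrime ℓ → ∀ τ : GQ, A.IsFrobeniusAt τ ℓ → t n τ = Ideal.Quotient.mk _ (b ℓ)) :
    ∃ T D' : GQ → B, IsPseudoRep T D' ∧ (∀ n g, Ideal.Quotient.mk (I ^ n) (T g) = t n g) ∧
      ∀ n g, Ideal.Quotient.mk (I ^ n) (D' g) = D n g := by
  have hcompat : ∀ {m n : ℕ} (h : m ≤ n) (g : GQ),
      Ideal.Quotient.factor (Ideal.pow_le_pow_right h) (t n g) = t m g := by
    intro m n h g
    have h3 := (h1 n).comp (Ideal.Quotient.factor (Ideal.pow_le_pow_right h : I ^ n ≤ I ^ m))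
    refine congrFun (IsPseudoRep.t_eq_of_frobenius h3 (h1 m) ((h2 n).comp _) (h2 m) hS ?_) g
    intro ℓ hℓ hℓS A hA τ hτ
    constructor
    · rw [hf n ℓ hℓ hℓS A hA τ hτ, hf m ℓ hℓ hℓS A hA τ hτ, Ideal.Quotient.factor_mk]
    · rw [hD h]
  choose T hT using fun g => exists_of_compat I (fun n => t n g) (fun {m n} h => hcompat h g)
  choose D' hD' using fun g : GQ => exists_of_compat I (fun n => D n g) (fun {m n} h => hD h g)
  refine ⟨T, D', ⟨?_, ?_, ?_, ?_⟩, fun n g => hT g n, fun n g => hD' g n⟩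
  · refine eq_of_forall_mk_eq I fun n => ?_
    rw [hT, (h1 n).t_one, map_ofNat]
  · refine eq_of_forall_mk_eq I fun n => ?_
    rw [hD', (h1 n).D_one, map_one]
  · intro g g'
    refine eq_of_forall_mk_eq I fun n => ?_
    rw [map_mul, hD', hD', hD']
    exact (h1 n).D_mul g g'
  · intro g g'
    refine eq_of_forall_mk_eq I fun n => ?_
    rw [map_add, map_mul, map_mul, hT, hT, hT, hT, hD']
    exact (h1 n).rel g g'

end limit

/-! ### the cyclotomic character with values in `(ℤ/N)ˣ` -/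

section cyc

variable (N : ℕ) [NeZero N]

/-- the cyclotomic character modulo `N` -/
def cycU : GQ →* (ZMod N)ˣ := (cyc N).toHomUnits

@[simp] theorem coe_cycU (σ : GQ) : ((cycU N σ : (ZMod N)ˣ) : ZMod N) = cyc N σ := rfl

theorem cycU_complexConjugation : cycU N complexConjugation = -1 := by
  apply Units.ext
  rw [coe_cycU, cyc_complexConjugation]
  rfl

theorem exists_level_cycU : ∃ L : IntermediateField ℚ (AlgebraicClosure ℚ),
    FiniteDimensional ℚ L ∧ ∀ σ : GQ, (∀ x ∈ L, σ x = x) → cycU N σ = 1 := by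
  obtain ⟨L, hL, h⟩ := exists_level_cyc N
  exact ⟨L, hL, fun σ hσ => Units.ext (by rw [coe_cycU, h σ hσ]; rfl)⟩

variable {N}

theorem cycU_frobenius {ℓ : ℕ} (hℓn : Nat.Coprime ℓ N)
    {A : ValuationSubring (AlgebraicClosure ℚ)} (hA : A.LiesOverPrime ℓ) {σ : GQ}
    (hσ : A.IsFrobeniusAt σ ℓ) : ((cycU N σ : (ZMod N)ˣ) : ZMod N) = ℓ := by
  rw [coe_cycU, cyc_frobenius hℓn hA hσ]

theorem cycU_inertia {ℓ : ℕ} (hℓn : Nat.Coprime ℓ N)
    {A : ValuationSubring (AlgebraicClosure ℚ)} (hA : A.LiesOverPrime ℓ) {σ : GQ}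
    (hσ : σ ∈ A.inertiaSubgroupIn ℚ) : cycU N σ = 1 :=
  Units.ext (by rw [coe_cycU, cyc_inertia hℓn hA hσ]; rfl)

end cyc

/-! ### the modules -/

section modules

variable (N : ℕ) [NeZero N] (H : Subgroup (ZMod N)ˣ) [hH : Fact ((-1 : (ZMod N)ˣ) ∈ H)]
  (S : Set ℕ) (m : ℕ) [NeZero m] (ι : AlgebraicClosure ℚ →+* ℂ)

/-- the action of the Hecke ring on `XL` -/
def actTR : TR N H S →+* AddMonoid.End (XL (GH N H) m) :=
  (actE (GH N H) m).comp (TR.val N H S)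

/-- the Hecke module structure -/
abbrev modXH : Module (TR N H S) (XL (GH N H) m) :=
  Module.compHom (XL (GH N H) m) (actTR N H S m)

/-- the Hecke module structure -/
abbrev modLH : Module (TR N H S) (LZ (GH N H)) :=
  Module.compHom (LZ (GH N H)) (TR.val N H S)

/-- the Galois action on `XL` -/
def rhoH : letI := modXH N H S m; GQ →* Module.End (TR N H S) (XL (GH N H) m) :=
  letI := modXH N H S m
  { toFun := fun σ =>
      { toFun := rhoF ι m σ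
        map_add' := rhoF_add ι σ
        map_smul' := fun a ξ => TR.mem_galComm ι a m σ ξ }
    map_one' := LinearMap.ext fun ξ => rhoF_one ι ξ
    map_mul' := fun σ τ => LinearMap.ext fun ξ => rhoF_mul ι σ τ ξ }

/-- good reduction of the modular curves of level `Γ_H(N)` -/
def HasGoodRedH : Prop := ∀ (m ℓ : ℕ) [NeZero m], ℓ.Prime → ¬ ℓ ∣ N → ¬ ℓ ∣ m →
  ∀ A : ValuationSubring (AlgebraicClosure ℚ), A.LiesOverPrime ℓ → GoodRedG (GH N H) m A

end modules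

section main

variable {N : ℕ} [NeZero N] {H : Subgroup (ZMod N)ˣ} [hH : Fact ((-1 : (ZMod N)ˣ) ∈ H)]
  {S : Set ℕ} {p : ℕ} [hp : Fact p.Prime]

open Classical in
variable (N H S) in
/-- the Hecke operators as a function on `ℕ` (zero at the bad indices) -/
def heckeFunH (ℓ : ℕ) : TR N H S :=
  if h : ℓ.Prime ∧ ¬ ℓ ∣ N ∧ ℓ ∉ S then TR.T h.1 h.2.1 h.2.2 else 0

theorem heckeFunH_eq {ℓ : ℕ} (hℓ : ℓ.Prime) (hℓN : ¬ ℓ ∣ N) (hℓS : ℓ ∉ S) :
    heckeFunH N H S ℓ = TR.T hℓ hℓN hℓS := dif_pos ⟨hℓ, hℓN, hℓS⟩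

/-- the faithfulness bound -/
theorem exists_faithful_boundH (p : ℕ) (hp0 : p ≠ 0) : ∃ c : ℕ, ∀ (n M : ℕ) [NeZero M],
    M = p ^ (n + c) → ∀ a : TR N H S, (∀ ξ : XL (GH N H) M, actTR N H S M a ξ = 0) →
      ∃ b : TR N H S, a = p ^ n • b := by
  letI := modLH N H S
  obtain ⟨c, hc⟩ := exists_faithful_bound (T := TR N H S) (L := LZ (GH N H)) (fun a ha =>
    TR.val_injective (by rw [map_zero]; exact LinearMap.ext ha)) p hp0
  refine ⟨c, fun n M _ hM a ha => ?_⟩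
  subst hM
  refine hc n a fun φ => ?_
  have h1 : (mkX (TR.val N H S a φ) : XL (GH N H) (p ^ (n + c))) = mkX 0 := by
    rw [map_zero]
    exact ha (mkX φ)
  rw [mkX_eq_iff, redI_zero, redI_eq_zero] at h1
  obtain ⟨ψ, hψ⟩ := h1
  exact ⟨ψ, hψ⟩

theorem pow_torsion_XL {m : ℕ} [NeZero m] {Γ : Subgroup SL(2, ℤ)} [LvlG Γ] (ξ : XL Γ m) :
    m • ξ = 0 := by
  obtain ⟨φ, rfl⟩ := mkX_surjective ξ
  exact mkX_nsmul φ

variable (N H S) in
/-- the character `⟨cyc⟩` -/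
def epsH : GQ →* TR N H S := (TR.D N H S).comp (cycU N)

/-- the finite levels -/
theorem exists_pseudoRep_level (hG : HasGoodRedH N H) (ι : AlgebraicClosure ℚ →+* ℂ)
    (hS : S.Finite) (hpS : p ∈ S)
    (hNS : ∀ q : ℕ, q.Prime → q ∣ N → q ∈ S) (n : ℕ) :
    ∃ (M : ℕ) (_ : NeZero M) (t : GQ → TR N H S ⧸ Ideal.span {(p : TR N H S) ^ n}),
      (∃ c, M = p ^ (n + c)) ∧
      IsPseudoRep t (fun g => Ideal.Quotient.mk _
        ((((cyc M g).val : ℕ) : TR N H S) * epsH N H S g)) ∧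
      IsLocConst t ∧
      (∀ ℓ : ℕ, ℓ.Prime → ℓ ∉ S → ∀ A : ValuationSubring (AlgebraicClosure ℚ),
        A.LiesOverPrime ℓ → ∀ τ : GQ, A.IsFrobeniusAt τ ℓ →
          t τ = Ideal.Quotient.mk _ (heckeFunH N H S ℓ)) ∧
      (∀ q : ℕ, q.Prime → ¬ q ∣ N * p → ∀ A : ValuationSubring (AlgebraicClosure ℚ),
        A.LiesOverPrime q → ∀ σ ∈ A.inertiaSubgroupIn ℚ, ∀ g, t (g * σ) = t g) ∧
      ∀ g, ∃ r : TR N H S, t g = Ideal.Quotient.mk _ r ∧
        ∀ ξ : XL (GH N H) M, rhoF ι M g ξ +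
          (cyc M g).val • actTR N H S M (epsH N H S g) (rhoF ι M g⁻¹ ξ) =
            actTR N H S M r ξ := by
  have hp0 : p ≠ 0 := hp.out.ne_zero
  obtain ⟨c, hc⟩ := exists_faithful_boundH (N := N) (H := H) (S := S) p hp0
  haveI hM0 : NeZero (p ^ (n + c)) := ⟨pow_ne_zero _ hp0⟩
  obtain ⟨M, hM⟩ : ∃ M, M = p ^ (n + c) := ⟨_, rfl⟩
  haveI : NeZero M := hM ▸ hM0
  have hcop : ∀ ℓ : ℕ, ℓ.Prime → ℓ ≠ p → Nat.Coprime ℓ M := by
    intro ℓ hℓ hℓp
    rw [hM]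
    exact Nat.Coprime.pow_right _ ((Nat.coprime_primes hℓ hp.out).mpr hℓp)
  have hndvd : ∀ ℓ : ℕ, ℓ.Prime → ℓ ≠ p → ¬ ℓ ∣ M := fun ℓ hℓ hℓp =>
    (Nat.Prime.coprime_iff_not_dvd hℓ).1 (hcop ℓ hℓ hℓp)
  letI := modXH N H S M
  obtain ⟨t, ht1, ht2, ht3, ht4, ht5⟩ := exists_pseudoRep_eps (R := TR N H S)
    (X := XL (GH N H) M) (ρ := rhoH N H S M ι)
    (ε := epsH N H S) (M := M) (a := heckeFunH N H S)
    (I := Ideal.span {(p : TR N H S) ^ n}) hS pow_torsion_XL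
    (fun r hr => by
      obtain ⟨b, hb⟩ := hc n M hM r hr
      rw [hb, nsmul_eq_mul, Ideal.mem_span_singleton]
      push_cast
      exact dvd_mul_right _ _)
    (by
      obtain ⟨L, hL, h⟩ := exists_level_rhoF (Γ := GH N H) (m := M)
        (K := AlgebraicClosure ℚ) ι
      exact ⟨L, hL, fun σ hσ => LinearMap.ext fun ξ => h σ hσ ξ⟩)
    (by
      obtain ⟨L, hL, h⟩ := exists_level_cycU N
      exact ⟨L, hL, fun σ hσ => by
        rw [epsH, MonoidHom.comp_apply, h σ hσ, map_one]⟩)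
    (fun ℓ hℓ hℓS => hcop ℓ hℓ (by rintro rfl; exact hℓS hpS))
    (fun ℓ hℓ hℓS A hA τ hτ x => by
      have hℓN : ¬ ℓ ∣ N := fun h => hℓS (hNS ℓ hℓ h)
      rw [heckeFunH_eq hℓ hℓN hℓS]
      exact rhoF_frobH ι (hG M ℓ hℓ hℓN (hndvd ℓ hℓ (by rintro rfl; exact hℓS hpS)) A hA) hℓ hℓN
        (cycU_frobenius ((Nat.Prime.coprime_iff_not_dvd hℓ).2 hℓN) hA hτ) hA hτ x)
  refine ⟨M, inferInstance, t, ⟨c, hM⟩, ht1, ht2, ht3, ?_, ht5⟩
  intro q hq hqN A hA σ hσ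
  have hqN' : ¬ q ∣ N := fun h => hqN (dvd_mul_of_dvd_left h p)
  have hqp : q ≠ p := by rintro rfl; exact hqN (dvd_mul_left _ _)
  refine ht4 σ ?_ (cyc_inertia (hcop q hq hqp) hA hσ) ?_
  · exact LinearMap.ext fun ξ => rhoF_inertia ι (hG M q hq hqN' (hndvd q hq hqp) A hA) hσ ξ
  · rw [epsH, MonoidHom.comp_apply,
      cycU_inertia ((Nat.Prime.coprime_iff_not_dvd hq).2 hqN') hA hσ, map_one]

/-- A pseudo-representation of `GQ` with values in `B`, continuous for the `I`-adic topology,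
attached to a character of the Hecke ring of level `Γ_H(N)`. -/
structure IsHPseudoRep {B : Type*} [CommRing B] (I : Ideal B) (χ : TR N H S →+* B) (p : ℕ)
    [Fact p.Prime] (t D : GQ → B) : Prop where
  isPseudoRep : IsPseudoRep t D
  cont : ∀ n, IsLocConst (fun g => Ideal.Quotient.mk (I ^ n) (t g))
  D_eq : ∀ n g, Ideal.Quotient.mk (I ^ n) (D g) =
    Ideal.Quotient.mk (I ^ n) ((((cyc (p ^ n) g).val : ℕ) : B) * χ (epsH N H S g))
  frobenius : ∀ (ℓ : ℕ) (hℓ : ℓ.Prime) (hℓN : ¬ ℓ ∣ N) (hℓS : ℓ ∉ S),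
    ∀ A : ValuationSubring (AlgebraicClosure ℚ),
    A.LiesOverPrime ℓ → ∀ τ : GQ, A.IsFrobeniusAt τ ℓ → t τ = χ (TR.T hℓ hℓN hℓS) ∧
      ∀ d : (ZMod N)ˣ, (d : ZMod N) = ℓ → D τ = ℓ * χ (TR.D N H S d)
  inertia : ∀ q : ℕ, q.Prime → ¬ q ∣ N * p → ∀ A : ValuationSubring (AlgebraicClosure ℚ),
    A.LiesOverPrime q → ∀ σ ∈ A.inertiaSubgroupIn ℚ, (∀ g, t (g * σ) = t g) ∧ D σ = 1
  complexConj : D complexConjugation = -1

theorem cast_cyc_eq {B : Type*} [CommRing B] {I : Ideal B} (hpI : (p : B) ∈ I)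
    {n M : ℕ} [NeZero M] (hM : p ^ n ∣ M) (g : GQ) : (((cyc M g).val : ℕ) : B ⧸ I ^ n) =
      (((cyc (p ^ n) g).val : ℕ) : B ⧸ I ^ n) := by
  refine natCast_eq_of_modEq (natCast_val_eq_zero_of_dvd hpI) ?_
  rw [← ZMod.natCast_eq_natCast_iff, ZMod.natCast_zmod_val,
    ← castHom_cyc (m := p ^ n) (n := M) hM g]
  simp [ZMod.natCast_val]

/-- **The pseudo-representation attached to a character of the Hecke ring of level `Γ_H(N)`.** -/
theorem exists_isHPseudoRep (hG : HasGoodRedH N H) (hS : S.Finite) (hpS : p ∈ S)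
    (hNS : ∀ q : ℕ, q.Prime → q ∣ N → q ∈ S) {B : Type*} [CommRing B] {I : Ideal B}
    [IsAdicComplete I B] (hpI : (p : B) ∈ I) (χ : TR N H S →+* B) :
    ∃ t D : GQ → B, IsHPseudoRep I χ p t D := by
  obtain ⟨ι⟩ : Nonempty (AlgebraicClosure ℚ →+* ℂ) :=
    ⟨(IsAlgClosed.lift (R := ℚ) : AlgebraicClosure ℚ →ₐ[ℚ] ℂ).toRingHom⟩
  have hlev : ∀ n : ℕ, ∃ t : GQ → B ⧸ I ^ n,
      IsPseudoRep t (fun g => Ideal.Quotient.mk (I ^ n)
        ((((cyc (p ^ n) g).val : ℕ) : B) * χ (epsH N H S g))) ∧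
      IsLocConst t ∧
      (∀ ℓ : ℕ, ℓ.Prime → ℓ ∉ S → ∀ A : ValuationSubring (AlgebraicClosure ℚ),
        A.LiesOverPrime ℓ → ∀ τ : GQ, A.IsFrobeniusAt τ ℓ →
          t τ = Ideal.Quotient.mk _ (χ (heckeFunH N H S ℓ))) ∧
      (∀ q : ℕ, q.Prime → ¬ q ∣ N * p → ∀ A : ValuationSubring (AlgebraicClosure ℚ),
        A.LiesOverPrime q → ∀ σ ∈ A.inertiaSubgroupIn ℚ, ∀ g, t (g * σ) = t g) := by
    intro n
    obtain ⟨M, _, t, ⟨c, hM⟩, ht1, ht2, ht3, ht4, -⟩ := exists_pseudoRep_level (p := p) hG ι hS hpS hNS n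
    have hle : Ideal.span {(p : TR N H S) ^ n} ≤ Ideal.comap χ (I ^ n) := by
      rw [Ideal.span_singleton_le_iff_mem, Ideal.mem_comap, map_pow, map_natCast]
      exact Ideal.pow_mem_pow hpI n
    let φ : TR N H S ⧸ Ideal.span {(p : TR N H S) ^ n} →+* B ⧸ I ^ n :=
      Ideal.quotientMap (I ^ n) χ hle
    have hφ : ∀ r, φ (Ideal.Quotient.mk _ r) = Ideal.Quotient.mk _ (χ r) := fun r => rfl
    refine ⟨fun g => φ (t g), ?_, ht2.comp φ, ?_, ?_⟩
    · have h1 := ht1.comp φ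
      have h2 : (fun g => φ (Ideal.Quotient.mk _ ((((cyc M g).val : ℕ) : TR N H S) *
          epsH N H S g))) = fun g => Ideal.Quotient.mk (I ^ n)
            ((((cyc (p ^ n) g).val : ℕ) : B) * χ (epsH N H S g)) := by
        funext g
        rw [hφ, map_mul, map_mul, map_mul, map_natCast, map_natCast, map_natCast,
          cast_cyc_eq hpI (M := M) (hM ▸ pow_dvd_pow p (Nat.le_add_right n c))]
      rwa [h2] at h1
    · intro ℓ hℓ hℓS A hA τ hτ
      change φ (t τ) = _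
      rw [ht3 ℓ hℓ hℓS A hA τ hτ]
      rfl
    · intro q hq hqN A hA σ hσ g
      exact congrArg φ (ht4 q hq hqN A hA σ hσ g)
  choose t ht1 ht2 ht3 ht4 using hlev
  have hD0 : ∀ {m n : ℕ} (h : m ≤ n) (g : GQ),
      Ideal.Quotient.factor (Ideal.pow_le_pow_right h)
        (Ideal.Quotient.mk (I ^ n) ((((cyc (p ^ n) g).val : ℕ) : B) * χ (epsH N H S g))) =
      Ideal.Quotient.mk (I ^ m) ((((cyc (p ^ m) g).val : ℕ) : B) * χ (epsH N H S g)) := by
    intro m n h g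
    rw [Ideal.Quotient.factor_mk, map_mul, map_mul, map_natCast, map_natCast,
      cast_cyc_eq hpI (pow_dvd_pow p h)]
  obtain ⟨T, D, h1, hT, hD⟩ := exists_limit_pseudoRep (b := fun ℓ => χ (heckeFunH N H S ℓ)) hS ht1
    ht2 hD0 ht3
  have hDeq : ∀ g (b : B), (∀ n, Ideal.Quotient.mk (I ^ n) ((((cyc (p ^ n) g).val : ℕ) : B)) =
      Ideal.Quotient.mk (I ^ n) b) → D g = b * χ (epsH N H S g) := by
    intro g b hb
    refine eq_of_forall_mk_eq I fun n => ?_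
    rw [hD, map_mul, hb, map_mul]
  refine ⟨T, D, h1, fun n => ?_, fun n g => hD n g, ?_, ?_, ?_⟩
  · simp only [hT]
    exact ht2 n
  · intro ℓ hℓ hℓN hℓS A hA τ hτ
    have hcop : ∀ n, Nat.Coprime ℓ (p ^ n) := by
      intro n
      refine Nat.Coprime.pow_right _ ((Nat.coprime_primes hℓ hp.out).mpr ?_)
      rintro rfl
      exact hℓS hpS
    refine ⟨eq_of_forall_mk_eq I fun n => by
      rw [hT, ht3 n ℓ hℓ hℓS A hA τ hτ, heckeFunH_eq hℓ hℓN hℓS], fun d hd => ?_⟩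
    rw [hDeq τ (ℓ : B) fun n => by
      rw [map_natCast, map_natCast]
      refine natCast_eq_of_modEq (natCast_val_eq_zero_of_dvd hpI) ?_
      rw [← ZMod.natCast_eq_natCast_iff, ZMod.natCast_zmod_val, cyc_frobenius (hcop n) hA hτ]]
    have h2 : cycU N τ = d := Units.ext (by
      rw [cycU_frobenius ((Nat.Prime.coprime_iff_not_dvd hℓ).2 hℓN) hA hτ, hd])
    rw [epsH, MonoidHom.comp_apply, h2]
  · intro q hq hqN A hA σ hσ
    have hqN' : ¬ q ∣ N := fun h => hqN (dvd_mul_of_dvd_left h p)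
    have hqp : q ≠ p := by rintro rfl; exact hqN (dvd_mul_left _ _)
    refine ⟨fun g => eq_of_forall_mk_eq I fun n => by
      rw [hT, hT, ht4 n q hq hqN A hA σ hσ g], ?_⟩
    have h3 : epsH N H S σ = 1 := by
      rw [epsH, MonoidHom.comp_apply,
        cycU_inertia ((Nat.Prime.coprime_iff_not_dvd hq).2 hqN') hA hσ, map_one]
    rw [hDeq σ 1, h3, map_one, one_mul]
    intro n
    have hcop : Nat.Coprime q (p ^ n) :=
      Nat.Coprime.pow_right _ ((Nat.coprime_primes hq hp.out).mpr hqp)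
    rw [cyc_inertia hcop hA hσ, map_natCast, map_one]
    have : (((1 : ZMod (p ^ n)).val : ℕ) : B ⧸ I ^ n) = ((1 : ℕ) : B ⧸ I ^ n) := by
      refine natCast_eq_of_modEq (natCast_val_eq_zero_of_dvd hpI) ?_
      rw [← ZMod.natCast_eq_natCast_iff, ZMod.natCast_zmod_val, Nat.cast_one]
    rw [this, Nat.cast_one]
  · have h3 : epsH N H S complexConjugation = 1 := by
      rw [epsH, MonoidHom.comp_apply, cycU_complexConjugation, TR.D_of_mem hH.out]
    rw [hDeq complexConjugation (-1), h3, map_one, mul_one]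
    intro n
    rw [map_natCast, cyc_complexConjugation, map_neg, map_one]
    have h1 : (((-1 : ZMod (p ^ n)).val : ℕ) : B ⧸ I ^ n) = ((p ^ n - 1 : ℕ) : B ⧸ I ^ n) := by
      refine natCast_eq_of_modEq (natCast_val_eq_zero_of_dvd hpI) ?_
      rw [← ZMod.natCast_eq_natCast_iff, ZMod.natCast_zmod_val,
        Nat.cast_sub (Nat.one_le_pow _ _ hp.out.pos)]
      simp
    rw [h1, Nat.cast_sub (Nat.one_le_pow _ _ hp.out.pos), natCast_val_eq_zero_of_dvd hpI]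
    simp

end main

end

end Fermat.Agent.KumG
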