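import Fermat.Agent.KumG.Canon
import Fermat.Agent.Kum.Exist

/-!
# Every parabolic character is the Kummer character of a function with algebraic coefficients
-/

set_option autoImplicit false
set_option linter.unusedSectionVars false
set_option linter.style.haveILetI false

open UpperHalfPlane ModularForm Complex Filter Topology Matrix.SpecialLinearGroup
open scoped MatrixGroups Manifold

namespace Fermat.Agent.KumG

open Fermat.Agent.MFLib Fermat.Agent.Kum Fermat.Agent.KumF ModularCurve Fermat.Agent.X0Genus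
  Fermat.Agent.JFun Fermat.Agent.ModPoly IntermediateField Fermat.Agent.RR AlgebraicCurve
  Fermat.Agent.Curve

noncomputable section

local notation "Δ" => ModularForm.discriminant

variable {Γ : Subgroup SL(2, ℤ)} [LvlG Γ] {m M : ℕ} [NeZero m] [NeZero M] {k : ℤ} {f g u : ℍ → ℂ}

theorem Rep.reduce {x : LaurentSeries ℂ} {φ : Additive Γ →+ ZMod M} (h : m ∣ M)
    (hr : Rep Γ x φ) : Rep Γ x ((redZ h).comp φ) := by
  obtain ⟨k, u, g, hr⟩ := hr
  have hM : M / m * m = M := Nat.div_mul_cancel h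
  refine ⟨((M / m : ℕ) : ℤ) * k, u ^ (M / m), g ^ (M / m), hr.hu.pow _,
    pow_ne_zero'' hr.hu.holo hr.u0 _, fun γ => ?_, hr.hg.pow _, pow_ne_zero'' hr.hg.holo hr.g0 _, ?_⟩
  · rw [pow_slash_SL, hr.hs, smul_pow', AddMonoidHom.comp_apply, ech_redZ]
  · rw [← pow_mul, hM, ql_pow hr.hg.qgG, ← pow_mul, hM]
    exact hr.eq

/-! ### Eisenstein series -/

/-- the multiplicative character -/
def chr (φ : Additive Γ →+ ZMod m) : Γ →* ℂˣ where
  toFun γ := Units.mk0 (ech (φ (Additive.ofMul γ))) (ech_ne_zero _)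
  map_one' := by
    ext
    simp [ech_zero]
  map_mul' γ δ := by
    ext
    simp [ofMul_mul, ech_add]

theorem exists_repU_of_parabolic {φ : Additive Γ →+ ZMod m}
    (hφ : Period.IsParabolicHom Γ φ) :
    ∃ (x : LaurentSeries ℂ) (E : ℍ → ℂ), RepU Γ x φ 12 E Δ := by
  obtain ⟨E, hE, hE0, hEs⟩ := Kum3.exists_form_char (chr φ) (fun γ hγ => by
      ext
      change ech (φ (Additive.ofMul γ)) = 1
      rw [hφ γ hγ, ech_zero]) (fun γ => norm_ech _) (k := 12) (by norm_num) (by decide)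
  have hΔ : IsMF Γ 12 Δ := isMF_disc.mono le_top
  have hΔ0 : (Δ : ℍ → ℂ) ≠ 0 := by
    intro h
    exact discriminant_ne_zero UpperHalfPlane.I (congrFun h _)
  refine ⟨ql (E ^ m) * (ql Δ ^ m)⁻¹, E, hE, hE0, hEs, hΔ, hΔ0, ?_⟩
  rw [mul_assoc, inv_mul_cancel₀, mul_one]
  apply pow_ne_zero
  rwa [ne_eq, ql_eq_zero hΔ.qgG]

section bd

variable {K : Type*} [Field K] [Algebra ℚ K] [IsAlgClosed K] [CharZero K] {ι : K →+* ℂ} [RatG Γ]

/-- quotients by nonvanishing forms of level one have bounded poles -/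
theorem exists_Bd_of_rep {x : FG Γ K} (hx : x ≠ 0) (h : RepK ι x k f g) (hg : ∀ τ, g τ ≠ 0)
    (hg1 : ∀ δ : SL(2, ℤ), g ∣[k] δ = g) : ∃ n, Bd n x := by
  refine ⟨oQ (wd Γ) g, fun v => ?_⟩
  rcases le_or_gt 0 (v.ord (jj Γ K)) with hv | hv
  · obtain ⟨y, τ, e, he, he6, hord⟩ := exists_point_of_place ι v hv
    rw [min_eq_left hv, mul_zero]
    induction y using QuotientGroup.induction_on with
    | H γ =>
      have h3 := hord x hx
      have h4 := thetaM_rep ι hx h γ⁻¹ τ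
      rw [inv_inv, h3, hg1] at h4
      have h5 : oAt τ g = 0 := by
        rw [oAt]
        have : analyticOrderAt (g ∘ ofComplex) (τ : ℂ) = 0 := by
          rw [(analyticAt_ofComplex h.mg.holo τ).analyticOrderAt_eq_zero]
          simpa using hg τ
        rw [this]; rfl
      rw [h5] at h4
      push_cast at h4
      have h6 : 0 ≤ (e : ℤ) * v.ord x := by
        rw [h4]; simp
      have he' : (0 : ℤ) < e := by exact_mod_cast he
      exact nonneg_of_mul_nonneg_right h6 he'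
  · obtain ⟨y, e, he, heN, hord⟩ := exists_cusp_of_place ι v hv
    rw [min_eq_right hv.le]
    induction y using QuotientGroup.induction_on with
    | H γ =>
      have h3 := hord x hx
      have h4 := phiC_rep ι hx h γ⁻¹
      rw [inv_inv, h3, hg1] at h4
      have he' : (1 : ℤ) ≤ e := by exact_mod_cast he
      have h5 : -(oQ (wd Γ) g : ℤ) ≤ (e : ℤ) * v.ord x := by
        rw [h4]
        have : (0 : ℤ) ≤ oQ (wd Γ) (f ∣[k] γ⁻¹) := Int.natCast_nonneg _
        linarith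
      have h6 : -(oQ (wd Γ) g : ℤ) ≤ v.ord x := by
        rcases le_or_gt 0 (v.ord x) with h7 | h7
        · have : (0 : ℤ) ≤ oQ (wd Γ) g := Int.natCast_nonneg _
          linarith
        · nlinarith
      have h8 : (oQ (wd Γ) g : ℤ) * v.ord (jj Γ K) ≤ (oQ (wd Γ) g : ℤ) * (-1) :=
        mul_le_mul_of_nonneg_left (by omega) (Int.natCast_nonneg _)
      linarith

end bd

/-! ### finiteness -/

omit [LvlG Γ] in
theorem fg_of_finiteIndex [Γ.FiniteIndex] : Group.FG Γ := by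
  have := HeckeHom.fg_SL
  infer_instance

instance finite_hom : Finite (Additive Γ →+ ZMod m) := by
  obtain ⟨S, hS⟩ := fg_of_finiteIndex (Γ := Γ)
  refine Finite.of_injective (β := S → ZMod m) (fun φ s => φ (Additive.ofMul (s : Γ))) ?_
  intro φ ψ h
  have h1 : (AddMonoidHom.toMultiplicativeRight φ) = (AddMonoidHom.toMultiplicativeRight ψ) := by
    apply MonoidHom.eq_of_eqOn_dense hS
    intro s hs
    exact congrArg Multiplicative.ofAdd (congrFun h ⟨s, hs⟩)
  exact (AddMonoidHom.toMultiplicativeRight).injective h1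

section alg

variable [RatG Γ] {n : ℕ}

/-- the coefficients of canonical representatives are algebraic -/
theorem IsCan.isAlgebraic_coeff {x : FG Γ ℂ} (hx : IsCan m n x) (i : ℤ) :
    IsAlgebraic ℚ (x.1.coeff i) := by
  have hid : ∀ y : LaurentSeries ℂ, coeffMap (RingHom.id ℂ) y = y := coeffMap_id'
  have hex : ∀ σ : ℂ ≃ₐ[ℚ] ℂ, ∃ φ : Additive Γ →+ ZMod m, Rep Γ (galK σ x).1 φ := by
    intro σ
    obtain ⟨φ, -, h⟩ := (hx.kd.gal σ).exists_rep (RingHom.id ℂ)
    rw [hid] at h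
    exact ⟨φ, h⟩
  choose φ hφ using hex
  have key : ∀ σ τ, φ σ = φ τ → galK σ x = galK τ x := by
    intro σ τ h
    have h1 := (hφ τ).mul (hφ σ).inv
    rw [h, add_neg_cancel] at h1
    obtain ⟨z, hz, h2⟩ := h1.exists_pow
    have hσ0 : (galK σ x).1 ≠ 0 := coe_ne_zero' (galK_ne_zero σ hx.kd.1)
    have hz0 : z ≠ 0 := by
      rintro rfl
      rw [zero_pow (NeZero.ne m)] at h2
      exact h1.ne_zero h2
    let Z : FG Γ ℂ := ⟨z, MFunG_le hz⟩
    have hZ0 : Z ≠ 0 := fun h => hz0 (congrArg Subtype.val h)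
    have h3 : galK τ x = galK σ x * Z ^ m := by
      apply Subtype.ext
      change (galK τ x).1 = (galK σ x).1 * z ^ m
      rw [← h2, mul_comm (galK τ x).1, mul_inv_cancel_left₀ hσ0]
    have h4 := (hx.gal σ).unique hZ0 (by rw [← h3]; exact hx.gal τ)
    rw [h3, h4]
  have hfin : (Set.range fun σ : ℂ ≃ₐ[ℚ] ℂ => galK σ x).Finite := by
    have h1 : (Set.range φ).Finite := Set.toFinite _
    have h2 : ∀ φ₀ ∈ Set.range φ, ∃ y, ∀ σ, φ σ = φ₀ → galK σ x = y := by
      rintro _ ⟨τ, rfl⟩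
      exact ⟨galK τ x, fun σ h => key σ τ h⟩
    choose! y hy using h2
    refine (h1.image y).subset ?_
    rintro _ ⟨σ, rfl⟩
    exact ⟨φ σ, ⟨σ, rfl⟩, (hy _ ⟨σ, rfl⟩ σ rfl).symm⟩
  apply isAlgebraic_of_finite_orbit
  refine (hfin.image fun y : FG Γ ℂ => y.1.coeff i).subset ?_
  rintro _ ⟨σ, rfl⟩
  refine ⟨galK σ x, ⟨σ, rfl⟩, ?_⟩
  change (galK σ x).1.coeff i = σ (x.1.coeff i)
  rw [coe_galK, coeffMap_coeff]
  rfl

end alg

variable {K : Type*} [Field K] [Algebra ℚ K] [IsAlgClosed K] [CharZero K] [RatG Γ] (ι : K →+* ℂ)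

omit [LvlG Γ] [RatG Γ] in
theorem isParabolicHom_comp {A B : Type*} [AddCommGroup A] [AddCommGroup B] (r : A →+ B)
    {φ : Additive Γ →+ A} (hφ : Period.IsParabolicHom Γ φ) :
    Period.IsParabolicHom Γ (r.comp φ) := fun γ hγ => by
  rw [AddMonoidHom.comp_apply, hφ γ hγ, map_zero]

/-- **existence**: every parabolic character is, up to a bounded loss, the Kummer character
of a function with algebraic coefficients. -/
theorem exists_KD_rep (m : ℕ) [NeZero m] {φ : Additive Γ →+ ZMod (6 * wd Γ * (6 * wd Γ * m))}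
    (hφ : Period.IsParabolicHom Γ φ) : ∃ x : FG Γ K, KD m x ∧
      Rep Γ (coeffMap ι x.1) ((redZ (Dvd.intro_left (6 * wd Γ * (6 * wd Γ)) (by ring) :
        m ∣ 6 * wd Γ * (6 * wd Γ * m))).comp φ) := by
  obtain ⟨x₀, E, h₀⟩ := exists_repU_of_parabolic hφ
  have hid : ∀ y : LaurentSeries ℂ, coeffMap (RingHom.id ℂ) y = y := coeffMap_id'
  have hr₀ : Rep Γ x₀ φ := ⟨_, _, _, h₀⟩
  let X : FG Γ ℂ := ⟨x₀, MFunG_le hr₀.mem⟩
  have hX : Rep Γ (coeffMap (RingHom.id ℂ) X.1) φ := by rw [hid]; exact hr₀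
  have hKD : KD (6 * wd Γ * m) X := KD_of_rep (RingHom.id ℂ) hφ hX
  -- bounded poles
  obtain ⟨n, hn⟩ : ∃ n, Bd n X := by
    have h1 : RepK (RingHom.id ℂ) X ((6 * wd Γ * (6 * wd Γ * m) : ℕ) * 12) (E ^ (6 * wd Γ * (6 * wd Γ * m)))
        (Δ ^ (6 * wd Γ * (6 * wd Γ * m))) := by
      rw [RepK, hid]; exact h₀.repF
    refine exists_Bd_of_rep hKD.1 h1 (fun τ => ?_) (fun δ => ?_)
    · rw [Pi.pow_apply]
      exact pow_ne_zero _ (discriminant_ne_zero τ)
    · rw [pow_slash_SL, isMF_disc.slash δ (Subgroup.mem_top _)]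
  obtain ⟨z, hz, hcan⟩ := exists_isCan hKD hn
  set Y := X * z ^ (6 * wd Γ * m) with hY
  -- descent to `K`
  have hYmem : Y.1 ∈ MFunG Γ := mem_MFunG_iff.2 Y.2
  obtain ⟨y, hy⟩ := exists_FG_of_mem_MFunG (K := K) ι hYmem
    (fun i => mem_range_of_isAlgebraic ι (hcan.isAlgebraic_coeff i))
  have hd1 : 6 * wd Γ * m ∣ 6 * wd Γ * (6 * wd Γ * m) := Dvd.intro_left (6 * wd Γ) rfl
  have hYrep : Rep Γ (coeffMap ι y.1) ((redZ hd1).comp φ) := by
    rw [hy]
    have h1 : Rep Γ (z.1 ^ (6 * wd Γ * m)) (0 : Additive Γ →+ ZMod (6 * wd Γ * m)) :=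
      rep_pow (mem_MFunG_iff.2 z.2) (coe_ne_zero' hz)
    have h2 := (hr₀.reduce hd1).mul h1
    rw [add_zero] at h2
    exact h2
  have hd2 : m ∣ 6 * wd Γ * m := Dvd.intro_left (6 * wd Γ) rfl
  refine ⟨y, KD_of_rep ι (isParabolicHom_comp _ hφ) hYrep, ?_⟩
  have h3 := hYrep.reduce hd2
  convert h3 using 1
  refine AddMonoidHom.ext fun γ => ?_
  obtain ⟨j, hj⟩ := ZMod.intCast_surjective (φ γ)
  simp only [AddMonoidHom.comp_apply]
  rw [← hj, redZ_intCast, redZ_intCast, redZ_intCast]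

end

end Fermat.Agent.KumG
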