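import Fermat.Agent.Kum.MFun
import Fermat.Agent.MFLib.LevelOne

/-!
# The field of modular functions of level `Γ` inside `ℂ((q))`, and its rational structure
-/

set_option autoImplicit false

open UpperHalfPlane ModularForm Complex Filter Topology Matrix.SpecialLinearGroup
open scoped MatrixGroups Manifold

/-- Subgroups of finite index containing `T` and `-1`. -/
class Fermat.Agent.KumG.LvlG (Γ : Subgroup SL(2, ℤ)) : Prop where
  T_mem : ModularGroup.T ∈ Γ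
  neg_mem : (-1 : SL(2, ℤ)) ∈ Γ
  fin : Γ.FiniteIndex

namespace Fermat.Agent.KumG

open Fermat.Agent.MFLib Fermat.Agent.Kum

noncomputable section

instance (Γ : Subgroup SL(2, ℤ)) [LvlG Γ] : Γ.FiniteIndex := LvlG.fin

/-- a common width of all cusps -/
def wd (Γ : Subgroup SL(2, ℤ)) : ℕ := Γ.normalCore.index

instance (Γ : Subgroup SL(2, ℤ)) [LvlG Γ] : NeZero (wd Γ) :=
  ⟨Subgroup.FiniteIndex.index_ne_zero⟩

theorem T_wd_mem (Γ : Subgroup SL(2, ℤ)) (δ : SL(2, ℤ)) :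
    δ * ModularGroup.T ^ wd Γ * δ⁻¹ ∈ Γ := by
  have h1 : ModularGroup.T ^ Γ.normalCore.index ∈ Γ.normalCore := Subgroup.pow_index_mem _ _
  exact Γ.normalCore_le ((Subgroup.normalCore_normal Γ).conj_mem _ h1 δ)

variable {Γ : Subgroup SL(2, ℤ)} [LvlG Γ] {k l : ℤ} {f g : ℍ → ℂ}

theorem _root_.Fermat.Agent.MFLib.IsMF.qgG (hf : IsMF Γ k f) : QG f := hf.qg LvlG.T_mem

variable (Γ)

omit [LvlG Γ] in
/-- `x` is represented by the quotient `f / g` of modular forms of weight `k` and level `Γ`. -/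
structure RepF (x : LaurentSeries ℂ) (k : ℤ) (f g : ℍ → ℂ) : Prop where
  mf : IsMF Γ k f
  mg : IsMF Γ k g
  g0 : g ≠ 0
  eq : x * ql g = ql f

variable {Γ}

theorem RepF.f_ne {x : LaurentSeries ℂ} (h : RepF Γ x k f g) (hx : x ≠ 0) : f ≠ 0 := by
  rintro rfl
  have h1 := h.eq
  rw [ql_zero, mul_eq_zero, ql_eq_zero h.mg.qgG] at h1
  exact h1.elim hx h.g0

theorem RepF.mul {x y : LaurentSeries ℂ} {f' g' : ℍ → ℂ} (h : RepF Γ x k f g)
    (h' : RepF Γ y l f' g') : RepF Γ (x * y) (k + l) (f * f') (g * g') where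
  mf := h.mf.mul h'.mf
  mg := h.mg.mul h'.mg
  g0 := by
    intro h0
    rcases (UpperHalfPlane.mul_eq_zero_iff h.mg.holo h'.mg.holo).mp h0 with h1 | h1
    · exact h.g0 h1
    · exact h'.g0 h1
  eq := by
    rw [ql_mul h.mg.qgG h'.mg.qgG, ql_mul h.mf.qgG h'.mf.qgG, ← h.eq, ← h'.eq]
    ring

theorem RepF.add {x y : LaurentSeries ℂ} {f' g' : ℍ → ℂ} (h : RepF Γ x k f g)
    (h' : RepF Γ y l f' g') : RepF Γ (x + y) (k + l) (f * g' + g * f') (g * g') where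
  mf := (h.mf.mul h'.mg).add (h.mg.mul h'.mf)
  mg := h.mg.mul h'.mg
  g0 := Kum.mul_ne_zero' h.mg.holo h'.mg.holo h.g0 h'.g0
  eq := by
    rw [ql_mul h.mg.qgG h'.mg.qgG, ql_add (h.mf.qgG.mul h'.mg.qgG) (h.mg.qgG.mul h'.mf.qgG),
      ql_mul h.mf.qgG h'.mg.qgG, ql_mul h.mg.qgG h'.mf.qgG, ← h.eq, ← h'.eq]
    ring

theorem RepF.inv {x : LaurentSeries ℂ} (h : RepF Γ x k f g) (hx : x ≠ 0) :
    RepF Γ x⁻¹ k g f where
  mf := h.mg
  mg := h.mf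
  g0 := h.f_ne hx
  eq := by
    rw [← h.eq, inv_mul_cancel_left₀ hx]

omit [LvlG Γ] in
theorem RepF.const (c : ℂ) : RepF Γ (HahnSeries.C c) 0 (c • 1) 1 where
  mf := IsMF.one.smul c
  mg := IsMF.one
  g0 := one_ne_zero
  eq := by rw [ql_smul c QG.one]

variable (Γ)

/-- the field of modular functions of level `Γ` as a subfield of `ℂ((q))` -/
def MFunG : Subfield (LaurentSeries ℂ) where
  carrier := {x | ∃ k f g, RepF Γ x k f g}
  mul_mem' := by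
    rintro x y ⟨k, f, g, h⟩ ⟨l, f', g', h'⟩
    exact ⟨_, _, _, h.mul h'⟩
  one_mem' := ⟨0, 1, 1, IsMF.one, IsMF.one, one_ne_zero, by rw [one_mul]⟩
  add_mem' := by
    rintro x y ⟨k, f, g, h⟩ ⟨l, f', g', h'⟩
    exact ⟨_, _, _, h.add h'⟩
  zero_mem' := ⟨0, 0, 1, IsMF.zero, IsMF.one, one_ne_zero, by rw [zero_mul, ql_zero]⟩
  neg_mem' := by
    rintro x ⟨k, f, g, h⟩
    refine ⟨k, _, g, h.mf.neg, h.mg, h.g0, ?_⟩
    have : -f = (-1 : ℂ) • f := by simp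
    rw [this, ql_smul _ h.mf.qgG, ← h.eq, map_neg, map_one]
    ring
  inv_mem' := by
    rintro x ⟨k, f, g, h⟩
    by_cases hx : x = 0
    · subst hx
      exact ⟨0, 0, 1, IsMF.zero, IsMF.one, one_ne_zero, by rw [inv_zero, zero_mul, ql_zero]⟩
    · exact ⟨_, _, _, h.inv hx⟩

variable {Γ}

theorem mem_MFunG {x : LaurentSeries ℂ} : x ∈ MFunG Γ ↔ ∃ k f g, RepF Γ x k f g := Iff.rfl

theorem const_mem_MFunG (c : ℂ) : HahnSeries.C c ∈ MFunG Γ := ⟨_, _, _, RepF.const c⟩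

/-- two representations define the same function -/
theorem RepF.cross {x : LaurentSeries ℂ} {f' g' : ℍ → ℂ} (h : RepF Γ x k f g)
    (h' : RepF Γ x l f' g') : f * g' = f' * g := by
  rw [← ql_inj (h.mf.qgG.mul h'.mg.qgG) (h'.mf.qgG.mul h.mg.qgG), ql_mul h.mf.qgG h'.mg.qgG,
    ql_mul h'.mf.qgG h.mg.qgG, ← h.eq, ← h'.eq]
  ring

/-! ### rational structure -/

open ModularCurve

variable (Γ) in
/-- modular functions of level `Γ` with rational `q`-expansion -/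
def FQG : IntermediateField ℚ (LaurentSeries ℚ) where
  carrier := {x | coeffMap (algebraMap ℚ ℂ) x ∈ MFunG Γ}
  mul_mem' {x y} hx hy := by
    change coeffMap (algebraMap ℚ ℂ) (x * y) ∈ MFunG Γ
    rw [map_mul]
    exact mul_mem hx hy
  one_mem' := by
    change coeffMap (algebraMap ℚ ℂ) 1 ∈ MFunG Γ
    rw [map_one]
    exact one_mem _
  add_mem' {x y} hx hy := by
    change coeffMap (algebraMap ℚ ℂ) (x + y) ∈ MFunG Γ
    rw [map_add]
    exact add_mem hx hy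
  zero_mem' := by
    change coeffMap (algebraMap ℚ ℂ) 0 ∈ MFunG Γ
    rw [map_zero]
    exact zero_mem _
  algebraMap_mem' r := by
    change coeffMap (algebraMap ℚ ℂ) (algebraMap ℚ (LaurentSeries ℚ) r) ∈ MFunG Γ
    rw [algebraMap_laurentSeries_eq_single, coeffMap_single]
    exact const_mem_MFunG _
  inv_mem' x hx := by
    change coeffMap (algebraMap ℚ ℂ) x⁻¹ ∈ MFunG Γ
    rw [map_inv₀]
    exact inv_mem hx

theorem mem_FQG {x : LaurentSeries ℚ} :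
    x ∈ FQG Γ ↔ coeffMap (algebraMap ℚ ℂ) x ∈ MFunG Γ := Iff.rfl

variable (Γ) in
/-- the modular function field of level `Γ` over `K` -/
abbrev FG (K : Type*) [Field K] [Algebra ℚ K] : IntermediateField K (LaurentSeries K) :=
  laurentBaseChange K (FQG Γ)

variable (Γ) in
omit [LvlG Γ] in
/-- modular forms with rational `q`-expansions separate the cosets of `Γ` -/
class RatG : Prop where
  sep : ∀ γ ∉ Γ, ∃ (k : ℤ) (f : ℍ → ℂ), IsMF Γ k f ∧ IsRat (qe f) ∧ f ∣[k] γ ≠ f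

variable (Γ) in
omit [LvlG Γ] in
/-- `Γ` is normalised by `G`, and the forms all of whose translates under `G` have rational
`q`-expansions separate the cosets of `Γ` -/
class DiaG (G : outParam (Subgroup SL(2, ℤ))) : Prop where
  norm : ∀ γ ∈ G, ∀ δ ∈ Γ, γ * δ * γ⁻¹ ∈ Γ
  sep : ∀ γ ∉ Γ, ∃ (k : ℤ) (f : ℍ → ℂ), IsMF Γ k f ∧ (∀ δ ∈ G, IsRat (qe (f ∣[k] δ))) ∧
    f ∣[k] γ ≠ f

/-- The groups `Γ_H(N)`. -/
def GH (N : ℕ) (H : Subgroup (ZMod N)ˣ) : Subgroup SL(2, ℤ) where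
  carrier := {γ | γ ∈ CongruenceSubgroup.Gamma0 N ∧ ∃ u ∈ H, (u : ZMod N) = ((γ 1 1 : ℤ) : ZMod N)}
  mul_mem' := by
    rintro γ δ ⟨hγ, u, hu, hu'⟩ ⟨hδ, v, hv, hv'⟩
    refine ⟨mul_mem hγ hδ, u * v, mul_mem hu hv, ?_⟩
    have h0 : ((γ 1 0 : ℤ) : ZMod N) = 0 := CongruenceSubgroup.Gamma0_mem.1 hγ
    have h1 : (γ * δ) 1 1 = γ 1 0 * δ 0 1 + γ 1 1 * δ 1 1 := by
      rw [Matrix.SpecialLinearGroup.coe_mul, Matrix.mul_apply, Fin.sum_univ_two]
    rw [h1]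
    push_cast
    rw [hu', hv', h0]
    ring
  one_mem' := ⟨one_mem _, 1, one_mem _, by simp⟩
  inv_mem' := by
    rintro γ ⟨hγ, u, hu, hu'⟩
    refine ⟨inv_mem hγ, u⁻¹, inv_mem hu, ?_⟩
    have h0 : ((γ 1 0 : ℤ) : ZMod N) = 0 := CongruenceSubgroup.Gamma0_mem.1 hγ
    have h1 : (γ⁻¹) 1 1 = γ 0 0 := by
      rw [Matrix.SpecialLinearGroup.coe_inv, Matrix.adjugate_fin_two]
      simp
    have h2 := congrArg (Int.cast : ℤ → ZMod N) γ.det_coe
    rw [Matrix.det_fin_two] at h2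
    push_cast at h2
    rw [h0, mul_zero, sub_zero] at h2
    rw [h1]
    have h3 : (u : ZMod N) * ((u⁻¹ : (ZMod N)ˣ) : ZMod N) = 1 := by simp
    calc ((u⁻¹ : (ZMod N)ˣ) : ZMod N) = ((γ 0 0 : ℤ) : ZMod N) * ((γ 1 1 : ℤ) : ZMod N) *
        ((u⁻¹ : (ZMod N)ˣ) : ZMod N) := by rw [h2, one_mul]
      _ = ((γ 0 0 : ℤ) : ZMod N) := by rw [← hu', mul_assoc, h3, mul_one]

theorem mem_GH {N : ℕ} {H : Subgroup (ZMod N)ˣ} {γ : SL(2, ℤ)} : γ ∈ GH N H ↔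
    γ ∈ CongruenceSubgroup.Gamma0 N ∧ ∃ u ∈ H, (u : ZMod N) = ((γ 1 1 : ℤ) : ZMod N) := Iff.rfl

theorem GH_le (N : ℕ) (H : Subgroup (ZMod N)ˣ) : GH N H ≤ CongruenceSubgroup.Gamma0 N :=
  fun _ h => h.1

theorem Gamma1_le_GH (N : ℕ) (H : Subgroup (ZMod N)ˣ) : CongruenceSubgroup.Gamma1 N ≤ GH N H := by
  intro γ hγ
  rw [CongruenceSubgroup.Gamma1_mem] at hγ
  exact ⟨CongruenceSubgroup.Gamma0_mem.2 hγ.2.2, 1, one_mem _, by simp [hγ.2.1]⟩

theorem lvlG_GH (N : ℕ) [NeZero N] (H : Subgroup (ZMod N)ˣ) (hH : -1 ∈ H) : LvlG (GH N H) where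
  T_mem := Gamma1_le_GH N H (by
    rw [CongruenceSubgroup.Gamma1_mem]
    simp [ModularGroup.T])
  neg_mem := ⟨by rw [CongruenceSubgroup.Gamma0_mem]; simp, -1, hH, by simp⟩
  fin := Subgroup.finiteIndex_of_le (Gamma1_le_GH N H)

end

end Fermat.Agent.KumG
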