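import Fermat.Agent.KumG.Degree
import Fermat.Agent.X0Genus.Analytic

/-!
# Every place of the modular function field comes from a point of `ℍ` or from a cusp
-/

set_option autoImplicit false
set_option linter.unusedSectionVars false
set_option linter.style.haveILetI false

open UpperHalfPlane ModularForm Complex Filter Topology Matrix.SpecialLinearGroup
open scoped MatrixGroups Manifold

namespace Fermat.Agent.KumG

open Fermat.Agent.MFLib Fermat.Agent.Kum Fermat.Agent.KumF ModularCurve Fermat.Agent.X0Genus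
  Fermat.Agent.JFun Fermat.Agent.ModPoly IntermediateField Fermat.Agent.RR AlgebraicCurve
  Fermat.Agent.Curve

noncomputable section

local notation "Δ" => ModularForm.discriminant

variable {Γ : Subgroup SL(2, ℤ)} [LvlG Γ] [RatG Γ] {k l : ℤ} {f g : ℍ → ℂ}
variable {K : Type*} [Field K] [Algebra ℚ K] (ι : K →+* ℂ)

/-- Ring homomorphisms agreeing on constants and on `t` agree on `K(t)`. -/
theorem agree_on_adjoin' {F L : Type*} [Field F] [Algebra K F] [Field L] (f g : F →+* L) (t : F)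
    (hK : ∀ a : K, f (algebraMap K F a) = g (algebraMap K F a)) (hj : f t = g t) :
    ∀ z ∈ K⟮t⟯, f z = g z := by
  intro z hz
  have hz' : z ∈ Subfield.closure (Set.range (algebraMap K F) ∪ {t}) := hz
  have h2 : Subfield.closure (Set.range (algebraMap K F) ∪ {t}) ≤ RingHom.eqLocusField f g := by
    rw [Subfield.closure_le]
    rintro y (⟨a, rfl⟩ | hy)
    · exact hK a
    · rw [Set.mem_singleton_iff] at hy
      rw [hy]
      exact hj
  exact h2 hz'

theorem phiX_const (x : SL(2, ℤ) ⧸ Γ) (a : K) :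
    phiX ι x (algebraMap K (FG Γ K) a) = algebraMap hol MF (constH (ι a)) := phiM_const ι _ a

theorem phiX_jj (x : SL(2, ℤ) ⧸ Γ) : phiX ι x (jj Γ K) = algebraMap hol MF jH := phiM_jj ι _

theorem phiX_agree (x y : SL(2, ℤ) ⧸ Γ) : ∀ z ∈ K⟮jj Γ K⟯, phiX ι x z = phiX ι y z :=
  agree_on_adjoin' _ _ _ (fun a => by rw [phiX_const, phiX_const]) (by rw [phiX_jj, phiX_jj])

theorem card_le_finrank_of_hom {E F L X : Type*} [Field E] [Field F] [Algebra E F]
    [FiniteDimensional E F] [Field L] [Nonempty X] (φ : X → F →+* L)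
    (hinj : Function.Injective φ)
    (h : ∀ x y (z : E), φ x (algebraMap E F z) = φ y (algebraMap E F z)) :
    Nat.card X ≤ Module.finrank E F := by
  obtain ⟨x₀⟩ := ‹Nonempty X›
  letI : Algebra E L := ((φ x₀).comp (algebraMap E F)).toAlgebra
  let Φ : X → (F →ₐ[E] L) := fun y =>
    { φ y with
      commutes' := fun z => h y x₀ z }
  have hΦ : Function.Injective Φ := by
    intro x y h
    apply hinj
    apply RingHom.ext
    intro f
    exact congrArg (fun G : F →ₐ[E] L => G f) h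
  exact (Nat.card_le_card_of_injective Φ hΦ).trans (card_algHom_le_finrank _ _ _)

include ι in
theorem idx_le_finrank : idx Γ ≤ Module.finrank K⟮jj Γ K⟯ (FG Γ K) := by
  haveI := (finite_and_le Γ K ι).1
  have h1 := card_le_finrank_of_hom (E := K⟮jj Γ K⟯) (phiX (Γ := Γ) (K := K) ι)
    (phiX_injective ι) (fun x y z => phiX_agree ι x y z z.2)
  rwa [Nat.card_eq_fintype_card] at h1

variable (Γ K) in
theorem finrank_eq (ι : K →+* ℂ) : Module.finrank K⟮jj Γ K⟯ (FG Γ K) = idx Γ :=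
  le_antisymm (finite_and_le Γ K ι).2 (idx_le_finrank ι)

/-! ### embeddings at the cusps -/

variable (Γ) in
/-- The embeddings at infinity land in the quotients of convergent series. -/
theorem phiX_mem_range (x : SL(2, ℤ) ⧸ Γ) (y : FG Γ K) : phiX ι x y ∈ (evM (wd Γ)).fieldRange := by
  obtain ⟨k, f, g, h⟩ := exists_RepK (ι := ι) y
  have h1 := phiM_rep h (Quotient.out x)⁻¹
  rw [inv_inv] at h1
  have qf := qw_slash (T_wd_mem Γ (Quotient.out x)⁻¹) h.mf
  have qg := qw_slash (T_wd_mem Γ (Quotient.out x)⁻¹) h.mg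
  have hf : ∀ {F : ℍ → ℂ} (hF : QW (wd Γ) F), algebraMap hol MF ⟨F, hF.holo⟩ ∈
      (evM (wd Γ)).fieldRange := by
    intro F hF
    refine (evM (wd Γ)).mem_fieldRange.2 ⟨algebraMap ConvL _ hF.cv, ?_⟩
    rw [evM_algebraMap, QW.evPh_cv]
  have hg0 : algebraMap hol MF ⟨g ∣[k] (Quotient.out x)⁻¹, qg.holo⟩ ≠ 0 := by
    apply hol_ne_zero
    rw [ne_eq, slash_eq_zero_iff]
    exact h.g0
  have h2 : phiX ι x y = algebraMap hol MF ⟨f ∣[k] (Quotient.out x)⁻¹, qf.holo⟩ /
      algebraMap hol MF ⟨g ∣[k] (Quotient.out x)⁻¹, qg.holo⟩ := by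
    rw [eq_div_iff hg0]
    exact h1
  rw [h2]
  exact div_mem (hf qf) (hf qg)

/-- The embeddings at infinity. -/
def phiC (x : SL(2, ℤ) ⧸ Γ) : FG Γ K →+* LaurentSeries ℂ :=
  (inclC.comp (invM (wd Γ)).toRingHom).comp
    ((phiX ι x).codRestrict (evM (wd Γ)).fieldRange (fun y => phiX_mem_range Γ ι _ y))

theorem phiC_eq {x : SL(2, ℤ) ⧸ Γ} {y : FG Γ K}
    {z : FractionRing ConvL} (h : phiX ι x y = evM (wd Γ) z) : phiC ι x y = inclC z := by
  change inclC (invM (wd Γ) ⟨phiX ι x y, _⟩) = _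
  have h1 : (⟨phiX ι x y, phiX_mem_range Γ ι _ y⟩ : (evM (wd Γ)).fieldRange) =
      ⟨evM (wd Γ) z, (evM (wd Γ)).mem_fieldRange.2 ⟨_, rfl⟩⟩ := Subtype.ext h
  rw [h1, invM_evM]

theorem exists_phiX_eq (x : SL(2, ℤ) ⧸ Γ) (y : FG Γ K) :
    ∃ z : FractionRing ConvL, phiX ι x y = evM (wd Γ) z ∧ phiC ι x y = inclC z := by
  obtain ⟨z, hz⟩ := (evM (wd Γ)).mem_fieldRange.1 (phiX_mem_range Γ ι x y)
  exact ⟨z, hz.symm, phiC_eq ι hz.symm⟩

theorem phiC_injective : Function.Injective (phiC ι : SL(2, ℤ) ⧸ Γ → FG Γ K →+* _) := by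
  intro x y h
  apply phiX_injective ι
  apply RingHom.ext
  intro f
  obtain ⟨z, hz, hz'⟩ := exists_phiX_eq ι x f
  obtain ⟨w, hw, hw'⟩ := exists_phiX_eq ι y f
  rw [h, hw'] at hz'
  have := inclC.injective hz'
  rw [hz, hw, this]

theorem phiC_const (x : SL(2, ℤ) ⧸ Γ) (a : K) :
    phiC ι x (algebraMap K (FG Γ K) a) = HahnSeries.C (ι a) := by
  rw [phiC_eq ι (z := algebraMap ConvL _ ⟨HahnSeries.single 0 (ι a), conv_single 0 _⟩)]
  · rw [inclC_algebraMap]
    rfl
  · rw [phiX_const, constH_eq_evPh (wd Γ), evM_algebraMap]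

theorem phiC_jj (x : SL(2, ℤ) ⧸ Γ) : phiC ι x (jj Γ K) = qExpand ℂ (wd Γ) (jqModC ℂ) := by
  rw [phiC_eq ι (z := algebraMap ConvL _ ⟨_, conv_qExpand_jqModC (wd Γ)⟩)]
  · rw [inclC_algebraMap]
  · rw [phiX_jj, jH_eq_evPh (wd Γ), evM_algebraMap]

/-! ### places -/

variable [IsAlgClosed K] [CharZero K]

theorem transcendental_jj : Transcendental K (jj Γ K) := by
  intro h
  obtain ⟨a, ha⟩ := mem_range_of_isAlgebraic h
  have h1 := congrArg (fun x : FG Γ K => (x : LaurentSeries K)) ha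
  have h2 : (algebraMap K (LaurentSeries K) a) = jqModC K := h1
  have h3 := order_jqModC (k := K)
  rw [← h2, algebraMap_eq_C, HahnSeries.order_C] at h3
  omega

instance finDim_FG [hι : Nonempty (K →+* ℂ)] : FiniteDimensional K⟮jj Γ K⟯ (FG Γ K) :=
  (finite_and_le Γ K hι.some).1

instance funField_FG [Nonempty (K →+* ℂ)] : FunField K (FG Γ K) :=
  FunField.of (transcendental_jj (Γ := Γ) (K := K))

theorem card_coset : Nat.card (SL(2, ℤ) ⧸ Γ) = idx Γ := Nat.card_eq_fintype_card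

/-- Every place above a finite value `c` of `j` comes from an embedding
followed by the Laurent expansion at any prescribed `τ₀ ∈ ℍ` with `j(τ₀) = ι c`. -/
theorem exists_point_of_place_aux (v : Place K (FG Γ K))
    (c : K) (hc : 0 < v.ord (jj Γ K - algebraMap K _ c)) (τ₀ : ℍ) (hτ : jfun τ₀ = ι c) :
    ∃ (x : SL(2, ℤ) ⧸ Γ) (e : ℕ), 0 < e ∧ e ∣ ramJ (ι c) ∧ ∀ f : FG Γ K,
      f ≠ 0 → (thetaM τ₀ (phiX ι x f)).order = e * v.ord f := by
  haveI : Nonempty (K →+* ℂ) := ⟨ι⟩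
  have ht := transcendental_sub (transcendental_jj (K := K) (Γ := Γ)) c
  haveI : FiniteDimensional K⟮jj Γ K - algebraMap K _ c⟯ (FG Γ K) := by
    rw [adjoin_simple_sub]; infer_instance
  have hwt : ∀ x : SL(2, ℤ) ⧸ Γ,
      (((thetaM τ₀).comp (phiX ι x)) (jj Γ K - algebraMap K _ c)).order = ramJ (ι c) := by
    intro x
    have h1 : ((thetaM τ₀).comp (phiX ι x)) (jj Γ K - algebraMap K _ c) =
        thetaL τ₀ (jH - constH (ι c)) := by
      rw [RingHom.comp_apply, map_sub, phiX_const, phiX_jj, ← map_sub, thetaM_algebraMap]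
    rw [h1]
    apply order_thetaL
    have h2 := ordAt_jfun_sub τ₀
    rw [hτ] at h2
    exact h2
  obtain ⟨x, m, hm0, hm⟩ := exists_embedding_of_place (jj Γ K - algebraMap K _ c) ht
    (fun x : SL(2, ℤ) ⧸ Γ => (thetaM τ₀).comp (phiX ι x)) (by
      intro x y hxy
      apply phiX_injective (K := K) ι
      apply RingHom.ext
      intro f
      exact (thetaM τ₀).injective (congrArg (fun F => F f) hxy)) (by
      intro x y
      apply agree_on_adjoin'
      · intro a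
        simp only [RingHom.comp_apply, phiX_const]
      · simp only [RingHom.comp_apply, map_sub, phiX_const, phiX_jj])
    (by rw [card_coset, adjoin_simple_sub, finrank_eq Γ K ι])
    HahnSeries.order (fun f g hf hg => HahnSeries.order_mul hf hg)
    (fun f g hf hg hfg => HahnSeries.min_order_le_order_add hfg)
    (by
      intro x a ha
      rw [RingHom.comp_apply, phiX_const, thetaM_algebraMap, thetaL_constH,
        HahnSeries.order_C])
    (by
      intro x
      rw [hwt]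
      exact_mod_cast ramJ_pos _) v hc
  have hne : jj Γ K - algebraMap K _ c ≠ 0 := by
    intro h
    exact ht (by rw [h]; exact isAlgebraic_zero)
  have h1 := hm _ hne
  rw [hwt] at h1
  obtain ⟨e, rfl⟩ := Int.eq_ofNat_of_zero_le hm0.le
  refine ⟨x, e, by exact_mod_cast hm0, ?_, hm⟩
  have h2 : (e : ℤ) ∣ (ramJ (ι c) : ℤ) := ⟨_, h1⟩
  exact_mod_cast h2

/-- Every place where `j` is finite comes from a point of the upper half plane. -/
theorem exists_point_of_place (v : Place K (FG Γ K)) (hv : 0 ≤ v.ord (jj Γ K)) :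
    ∃ (x : SL(2, ℤ) ⧸ Γ) (τ₀ : ℍ) (e : ℕ), 0 < e ∧ e ∣ 6 ∧
      ∀ f : FG Γ K, f ≠ 0 → (thetaM τ₀ (phiX ι x f)).order = e * v.ord f := by
  haveI : Nonempty (K →+* ℂ) := ⟨ι⟩
  obtain ⟨c, hc⟩ := exists_sub_pos v (transcendental_jj (K := K) (Γ := Γ)) hv
  obtain ⟨τ₀, hτ⟩ := jfun_surjective (ι c)
  obtain ⟨x, e, h1, h2, h3⟩ := exists_point_of_place_aux ι v c hc τ₀ hτ
  exact ⟨x, τ₀, e, h1, h2.trans (ramJ_dvd_six _), h3⟩

/-- Every place where `j` has a pole comes from a cusp: the order is computed by the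
expansion in `q^(1/w)` of a conjugate. -/
theorem exists_cusp_of_place (v : Place K (FG Γ K)) (hv : v.ord (jj Γ K) < 0) :
    ∃ (x : SL(2, ℤ) ⧸ Γ) (e : ℕ), 0 < e ∧ e ∣ wd Γ ∧
      ∀ f : FG Γ K, f ≠ 0 → (phiC ι x f).order = e * v.ord f := by
  haveI : Nonempty (K →+* ℂ) := ⟨ι⟩
  have ht0 := transcendental_jj (K := K) (Γ := Γ)
  have ht : Transcendental K (jj Γ K)⁻¹ := by
    intro h
    exact ht0 (by simpa using h.inv)
  have hadj : K⟮(jj Γ K)⁻¹⟯ = K⟮jj Γ K⟯ := adjoin_simple_inv' _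
  haveI : FiniteDimensional K⟮(jj Γ K)⁻¹⟯ (FG Γ K) := by
    rw [hadj]; infer_instance
  have hwt : ∀ x : SL(2, ℤ) ⧸ Γ, (phiC ι x (jj Γ K)⁻¹).order = wd Γ := by
    intro x
    rw [map_inv₀, phiC_jj]
    have h2 : (qExpand ℂ (wd Γ) (jqModC ℂ)) ≠ 0 := by
      intro h
      have := order_qExpand (k := ℂ) (wd Γ) (jqModC ℂ)
      rw [h, order_jqModC] at this
      simp at this
      exact NeZero.ne (wd Γ) this
    have h3 := HahnSeries.order_mul h2 (inv_ne_zero h2)
    rw [mul_inv_cancel₀ h2, HahnSeries.order_one, order_qExpand, order_jqModC] at h3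
    linarith
  obtain ⟨x, m, hm0, hm⟩ := exists_embedding_of_place (jj Γ K)⁻¹ ht (phiC ι)
    (phiC_injective ι) (by
      intro x y
      apply agree_on_adjoin'
      · intro a
        rw [phiC_const, phiC_const]
      · rw [map_inv₀, map_inv₀, phiC_jj, phiC_jj])
    (by rw [card_coset, hadj, finrank_eq Γ K ι])
    HahnSeries.order (fun f g hf hg => HahnSeries.order_mul hf hg)
    (fun f g hf hg hfg => HahnSeries.min_order_le_order_add hfg)
    (by
      intro x a ha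
      rw [phiC_const, HahnSeries.order_C])
    (by
      intro x
      rw [hwt]
      exact_mod_cast NeZero.pos (wd Γ)) v (by rw [v.ord_inv]; omega)
  have hj0 : jj Γ K ≠ 0 := by
    intro h
    exact ht0 (by rw [h]; exact isAlgebraic_zero)
  have h1 := hm _ (inv_ne_zero hj0)
  rw [hwt] at h1
  obtain ⟨e, rfl⟩ := Int.eq_ofNat_of_zero_le hm0.le
  refine ⟨x, e, by exact_mod_cast hm0, ?_, hm⟩
  have h2 : (e : ℤ) ∣ (wd Γ : ℤ) := ⟨_, h1⟩
  exact_mod_cast h2

theorem thetaM_rep {x : FG Γ K} (hx : x ≠ 0) (h : RepK ι x k f g) (γ : SL(2, ℤ)) (τ : ℍ) :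
    (thetaM τ (phiX ι (QuotientGroup.mk γ⁻¹ : SL(2, ℤ) ⧸ Γ) x)).order =
      oAt τ (f ∣[k] γ) - oAt τ (g ∣[k] γ) := by
  have h1 := congrArg (thetaM τ) (phiX_rep ι h γ)
  rw [map_mul, thetaM_algebraMap, thetaM_algebraMap] at h1
  have hx' : coeffMap ι x.1 ≠ 0 := coeffMap_ne_zero hx
  have key : ∀ (a : ℍ → ℂ) (ha : MDiff a) (ha0 : a ≠ 0),
      (thetaL τ ⟨a ∣[k] γ, holo_slash ha k γ⟩).order = oAt τ (a ∣[k] γ) := by
    intro a ha ha0
    apply order_thetaL
    rw [ordAt, coe_oAt (holo_slash ha k γ) (by rwa [ne_eq, slash_eq_zero_iff])]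
  rw [order_div h1, key f h.mf.holo (h.f_ne hx'), key g h.mg.holo h.g0]
  · rw [map_ne_zero, map_ne_zero]
    exact hx
  · intro h0
    have h2 : (⟨g ∣[k] γ, holo_slash h.mg.holo k γ⟩ : hol) = 0 := by
      apply thetaL_injective τ
      rw [h0, map_zero]
    have h3 : g ∣[k] γ = 0 := congrArg Subtype.val h2
    rw [slash_eq_zero_iff] at h3
    exact h.g0 h3

theorem phiC_rep {x : FG Γ K} (hx : x ≠ 0) (h : RepK ι x k f g) (γ : SL(2, ℤ)) :
    (phiC ι (QuotientGroup.mk γ⁻¹ : SL(2, ℤ) ⧸ Γ) x).order =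
      oQ (wd Γ) (f ∣[k] γ) - oQ (wd Γ) (g ∣[k] γ) := by
  obtain ⟨z, hz, hz'⟩ := exists_phiX_eq ι (QuotientGroup.mk γ⁻¹ : SL(2, ℤ) ⧸ Γ) x
  have hx' : coeffMap ι x.1 ≠ 0 := coeffMap_ne_zero hx
  have qf := qw_slash (T_wd_mem Γ γ) h.mf
  have qg := qw_slash (T_wd_mem Γ γ) h.mg
  have h1 := phiX_rep ι h γ
  rw [hz] at h1
  have h2 : z * algebraMap ConvL _ qg.cv = algebraMap ConvL _ qf.cv := by
    apply (evM (wd Γ)).injective
    rw [map_mul, evM_algebraMap, evM_algebraMap, QW.evPh_cv, QW.evPh_cv]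
    exact h1
  have h3 := congrArg inclC h2
  rw [map_mul, inclC_algebraMap, inclC_algebraMap, ← hz'] at h3
  have hf0 : f ∣[k] γ ≠ 0 := by rw [ne_eq, slash_eq_zero_iff]; exact h.f_ne hx'
  have hg0 : g ∣[k] γ ≠ 0 := by rw [ne_eq, slash_eq_zero_iff]; exact h.g0
  rw [order_div h3 (by rw [map_ne_zero]; exact hx) (qlw_ne (NeZero.pos _) qg hg0)]
  change (qlw (wd Γ) _).order - (qlw (wd Γ) _).order = _
  rw [order_qlw (NeZero.pos _) qf hf0, order_qlw (NeZero.pos _) qg hg0]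

/-- Divisibility of all analytic orders implies divisibility at all places, up to `6 w`. -/
theorem dvd_ord_of_rep {x : FG Γ K} (hx : x ≠ 0) (h : RepK ι x k f g) {m : ℕ}
    (h1 : ∀ (τ : ℍ) (δ : SL(2, ℤ)), (m : ℤ) ∣ oAt τ (f ∣[k] δ) - oAt τ (g ∣[k] δ))
    (h2 : ∀ δ : SL(2, ℤ), (m : ℤ) ∣ oQ (wd Γ) (f ∣[k] δ) - oQ (wd Γ) (g ∣[k] δ))
    (v : Place K (FG Γ K)) : (m : ℤ) ∣ 6 * wd Γ * v.ord x := by
  rcases le_or_gt 0 (v.ord (jj Γ K)) with hv | hv
  · obtain ⟨y, τ, e, he, he6, hord⟩ := exists_point_of_place ι v hv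
    induction y using QuotientGroup.induction_on with
    | H γ =>
      have h3 := hord x hx
      have h4 := thetaM_rep ι hx h γ⁻¹ τ
      rw [inv_inv, h3] at h4
      have h5 := h1 τ γ⁻¹
      rw [← h4] at h5
      obtain ⟨c, hc⟩ := he6
      have : (6 : ℤ) * wd Γ * v.ord x = (e * v.ord x) * (c * wd Γ) := by
        have hc' : (6 : ℤ) = e * c := by exact_mod_cast hc
        rw [hc']; ring
      rw [this]
      exact Dvd.dvd.mul_right h5 _
  · obtain ⟨y, e, he, heN, hord⟩ := exists_cusp_of_place ι v hv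
    induction y using QuotientGroup.induction_on with
    | H γ =>
      have h3 := hord x hx
      have h4 := phiC_rep ι hx h γ⁻¹
      rw [inv_inv, h3] at h4
      have h5 := h2 γ⁻¹
      rw [← h4] at h5
      obtain ⟨c, hc⟩ := heN
      have : (6 : ℤ) * wd Γ * v.ord x = (e * v.ord x) * (c * 6) := by
        have hc' : (wd Γ : ℤ) = e * c := by exact_mod_cast hc
        rw [hc']; ring
      rw [this]
      exact Dvd.dvd.mul_right h5 _

end

end Fermat.Agent.KumG
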