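import Fermat.Agent.KumG.TT
import Fermat.Agent.HeckeProd.Congr

/-!
# Frobenius and inertia on Kummer classes of level `Γ`
-/

set_option autoImplicit false
set_option linter.unusedSectionVars false
set_option linter.style.haveILetI false

open UpperHalfPlane ModularForm Complex Filter Topology Matrix.SpecialLinearGroup
open scoped MatrixGroups Manifold

namespace Fermat.Agent.KumG

open Fermat.Agent.MFLib ModularCurve AlgebraicCurve Fermat.Agent.ModPoly Fermat.Agent.Curve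
  Fermat.Agent.X0Genus Fermat.Agent.JFun Fermat.Agent.KumF Fermat.Agent.RR
  Fermat.Agent.HeckeProd Fermat.Agent.ALCoh

noncomputable section

section red

variable {K k : Type*} [Field K] [Field k] {V : VCtx K k} {ℓ : ℕ} [hℓ : Fact ℓ.Prime] [CharP k ℓ]
  {x : LaurentSeries K} {y : LaurentSeries k}

omit [CharP k ℓ] in
theorem redTo_qExpand (h : RedTo V x y) : RedTo V (qExpand K ℓ x) (qExpand k ℓ y) := by
  obtain ⟨u, v, hv, h1, h2⟩ := h
  have e1 : ∀ u : LaurentSeries V.A, V.inc (qExpand V.A ℓ u) = qExpand K ℓ (V.inc u) := fun u =>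
    coeffMap_qExpand _ _ _
  have e2 : ∀ u : LaurentSeries V.A, V.red (qExpand V.A ℓ u) = qExpand k ℓ (V.red u) := fun u =>
    coeffMap_qExpand _ _ _
  refine ⟨qExpand V.A ℓ u, qExpand V.A ℓ v, ?_, ?_, ?_⟩
  · rw [e2]
    intro h0
    rw [← map_zero (qExpand k ℓ)] at h0
    exact hv (qExpand_injective ℓ h0)
  · rw [e1, e1, ← map_mul, h1]
  · rw [e2, e2, ← map_mul, h2]

theorem redTo_NN {ζ : Kˣ} (hζ : IsPrimitiveRoot ζ ℓ) (h : RedTo V x y) (hy : y ≠ 0) :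
    RedTo V (NN ℓ ζ x) (Fr ℓ y) := by
  have h1 := h.TT hζ
  have h2 := redTo_qExpand (ℓ := ℓ) h
  have hq : qExpand k ℓ y ≠ 0 := by
    intro h0
    rw [← map_zero (qExpand k ℓ)] at h0
    exact hy (qExpand_injective ℓ h0)
  have hqx : qExpand K ℓ x ≠ 0 := h2.ne_zero hq
  have h3 := h1.div h2 hq
  rwa [TT_apply, mul_div_cancel_left₀ _ hqx, mul_div_cancel_left₀ _ hq] at h3

theorem Fr_ne_zero (hy : y ≠ 0) : Fr ℓ y ≠ 0 := by
  intro h0
  apply hy
  ext n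
  have := congrArg (fun F : LaurentSeries k => F.coeff n) h0
  simp only [Fr, coeffMap_coeff, HahnSeries.coeff_zero, map_eq_zero] at this
  exact this

end red

variable {Γ : Subgroup SL(2, ℤ)} [LvlG Γ] {m : ℕ} [NeZero m]

variable {K : Type*} [Field K] [Algebra ℚ K] [IsAlgClosed K] [CharZero K] (ι : K →+* ℂ)

variable (Γ m) in
/-- the input from good reduction -/
structure GoodRedG (A : ValuationSubring K) : Prop where
  rigid : ∀ f : FG Γ K, KD m f → RedTo (valCtx A) f.1 1 → ∃ z : FG Γ K, z ^ m = f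
  scale : ∀ f : FG Γ K, f ≠ 0 → ∃ c : K, c ≠ 0 ∧ ∃ y : LaurentSeries (IsLocalRing.ResidueField A),
    y ≠ 0 ∧ RedTo (valCtx A) (algebraMap K (FG Γ K) c * f).1 y

variable {A : ValuationSubring K}

/-- multiplication by constants does not change classes -/
theorem cls_const_mul [RatG Γ] {x : FG Γ K} (hx : Good m x) {a : K} (ha : a ≠ 0) :
    Good m (algebraMap K (FG Γ K) a * x) ∧ cls ι m (algebraMap K (FG Γ K) a * x) = cls ι m x := by
  obtain ⟨b, hb⟩ := IsAlgClosed.exists_pow_nat_eq a (NeZero.pos m)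
  have h1 : Good m (algebraMap K (FG Γ K) a * x) := (KD.const ha).mul hx
  refine ⟨h1, ?_⟩
  have h2 : algebraMap K (FG Γ K) a * x = x * (algebraMap K (FG Γ K) b) ^ m := by
    rw [← map_pow, hb, mul_comm]
  rw [h2]
  apply cls_eq_of_mul_pow ι hx
  rw [← h2]
  exact h1

section

variable [RatG Γ]

/-- classes have integral representatives -/
theorem GoodRedG.exists_rep (G : GoodRedG Γ m A) (ξ : XL Γ m) (c : ℕ) [NeZero c] :
    ∃ x : FG Γ K, KD (m * tb Γ * c) x ∧ cls ι m x = ξ ∧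
      ∃ y : LaurentSeries (IsLocalRing.ResidueField A), y ≠ 0 ∧ RedTo (valCtx A) x.1 y := by
  obtain ⟨x, hx, rfl⟩ := exists_cls_eq (K := K) ι ξ c
  obtain ⟨a, ha, y, hy, h⟩ := G.scale x hx.1
  have hd : m * tb Γ ∣ m * tb Γ * c := dvd_mul_right _ _
  exact ⟨_, (KD.const ha).mul hx, (cls_const_mul ι (hx.of_dvd hd) ha).2, y, hy, h⟩

/-- **inertia acts trivially** -/
theorem rhoF_inertia (G : GoodRedG Γ m A) {σ : K ≃ₐ[ℚ] K} (hσ : σ ∈ A.inertiaSubgroupIn ℚ)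
    (ξ : XL Γ m) : rhoF ι m σ ξ = ξ := by
  obtain ⟨x, hx, rfl, y, hy, h⟩ := G.exists_rep ι ξ 1
  have hx' : Good m x := hx.of_dvd (dvd_mul_right _ _)
  have h1 := h.inertia hy (act_of_mem_inertia hσ)
  have h2 : Good m (galK σ x / x) := by
    rw [div_eq_mul_inv]; exact (KD.gal σ hx').mul hx'.inv
  obtain ⟨z, hz⟩ := G.rigid (galK σ x / x) (h2.of_dvd (dvd_mul_right _ _)) h1
  rw [rhoF_cls ι σ hx']
  have h3 : galK σ x = x * z ^ m := by
    rw [hz, mul_div_cancel₀ _ hx'.1]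
  rw [h3]
  apply cls_eq_of_mul_pow ι hx'
  rw [← h3]
  exact KD.gal σ hx'

end

variable {ℓ : ℕ} {GG' : Subgroup SL(2, ℤ)} [DiaG Γ GG'] {γ : SL(2, ℤ)}

/-- **the Eichler-Shimura relation** -/
theorem rhoF_frob (G : GoodRedG Γ m A) (hℓ : ℓ.Prime) (hγ : γ ∈ GG') (hF : Fam Γ Γ (rT ℓ γ))
    (hA : A.LiesOverPrime ℓ) {σ : K ≃ₐ[ℚ] K} (hσ : A.IsFrobeniusAt σ ℓ) (ξ : XL Γ m) :
    rhoF ι m σ (rhoF ι m σ ξ) - actE Γ m (opL hF) (rhoF ι m σ ξ)
      + ℓ • actE Γ m (opL (fam_dia (nz_of_mem Γ hγ))) ξ = 0 := by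
  haveI : Fact ℓ.Prime := ⟨hℓ⟩
  haveI : NeZero ℓ := ⟨hℓ.ne_zero⟩
  haveI := charP_residue hA
  obtain ⟨ζ', hζ'⟩ : ∃ ζ : K, IsPrimitiveRoot ζ ℓ :=
    HasEnoughRootsOfUnity.exists_primitiveRoot K ℓ
  obtain ⟨ζ, rfl⟩ : IsUnit ζ' := hζ'.isUnit (NeZero.ne ℓ)
  have hζ : IsPrimitiveRoot ζ ℓ := IsPrimitiveRoot.coe_units_iff.1 hζ'
  obtain ⟨x, hx, rfl, y, hy, h⟩ := G.exists_rep ι ξ (6 * wd Γ)
  have hx' : Good m x := hx.of_dvd (dvd_mul_right _ _)
  rw [mul_comm] at hx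
  have hact := act_of_isFrobeniusAt hσ
  -- the diamond translate
  obtain ⟨hd, hdc⟩ := cls_diaK ι hγ hx
  set d := diaK ι hγ x with hd0
  obtain ⟨c, hc, y', hy', h'⟩ := G.scale d hd.1
  obtain ⟨hD, hDc⟩ := cls_const_mul ι hd hc
  set D := algebraMap K (FG Γ K) c * d with hD0
  have hσc : σ c ≠ 0 := by rwa [ne_eq, map_eq_zero]
  -- the Hecke translate
  obtain ⟨hT, hTc⟩ := cls_TTG ι hℓ hγ hζ hF (hx.gal σ)
  obtain ⟨hT', hTc'⟩ := cls_const_mul ι hT hσc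
  have hσx : Good m (galK σ x) := KD.gal σ hx'
  have hσσx : Good m (galK σ (galK σ x)) := KD.gal σ hσx
  have hden : Good m (D ^ ℓ * galK σ (galK σ x)) := (hD.pow ℓ).mul hσσx
  set E := algebraMap K (FG Γ K) (σ c) * TTG ι hℓ hγ hζ hF (galK σ x) with hE
  -- reductions
  have r1 : RedTo (valCtx A) (coeffMap (σ : K →+* K) x.1) (Fr ℓ y) := h.act hact
  have r2 : RedTo (valCtx A) (coeffMap (σ : K →+* K) (coeffMap (σ : K →+* K) x.1))
      (Fr ℓ (Fr ℓ y)) := r1.act hact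
  have r3 : RedTo (valCtx A) (NN ℓ ζ (coeffMap (σ : K →+* K) x.1)) (Fr ℓ (Fr ℓ y)) :=
    redTo_NN hζ r1 (Fr_ne_zero hy)
  have r4 : RedTo (valCtx A) (qExpand K ℓ (coeffMap (σ : K →+* K) D.1)) (y' ^ ℓ) := by
    rw [pow_eq_qExpand]
    exact redTo_qExpand (h'.act hact)
  have hEE : E.1 = qExpand K ℓ (coeffMap (σ : K →+* K) D.1) *
      NN ℓ ζ (coeffMap (σ : K →+* K) x.1) := by
    have e1 : E.1 = algebraMap K (LaurentSeries K) (σ c) *
        (qExpand K ℓ (diaK ι hγ (galK σ x)).1 * NN ℓ ζ (coeffMap (σ : K →+* K) x.1)) := rfl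
    have e2 : D.1 = algebraMap K (LaurentSeries K) c * d.1 := rfl
    have e3 : (diaK ι hγ (galK σ x)).1 = coeffMap (σ : K →+* K) d.1 := by
      rw [← galK_diaK]; rfl
    have e4 : qExpand K ℓ (algebraMap K (LaurentSeries K) (σ c)) =
        algebraMap K (LaurentSeries K) (σ c) := by
      rw [algebraMap_laurentSeries_eq_single, qExpand_single]
      simp
    have e5 : coeffMap (σ : K →+* K) (algebraMap K (LaurentSeries K) c) =
        algebraMap K (LaurentSeries K) (σ c) := coeffMap_algebraMap _ _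
    rw [e1, e2, e3, map_mul, e5, map_mul, e4, mul_assoc]
  have r5 : RedTo (valCtx A) E.1 (y' ^ ℓ * Fr ℓ (Fr ℓ y)) := by
    rw [hEE]
    exact r4.mul r3
  have r6 : RedTo (valCtx A) (D ^ ℓ * galK σ (galK σ x)).1 (y' ^ ℓ * Fr ℓ (Fr ℓ y)) :=
    (h'.pow ℓ).mul r2
  have r7 : RedTo (valCtx A) (E / (D ^ ℓ * galK σ (galK σ x))).1 1 :=
    r5.div_self r6 (mul_ne_zero (pow_ne_zero _ hy') (Fr_ne_zero (Fr_ne_zero hy)))
  have h2 : Good m (E / (D ^ ℓ * galK σ (galK σ x))) := by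
    rw [div_eq_mul_inv]; exact hT'.mul hden.inv
  obtain ⟨z, hz⟩ := G.rigid _ (h2.of_dvd (dvd_mul_right _ _)) r7
  have h3 : E = (D ^ ℓ * galK σ (galK σ x)) * z ^ m := by
    rw [hz, mul_div_cancel₀ _ hden.1]
  have h4 : cls ι m E = ℓ • cls ι m D + cls ι m (galK σ (galK σ x)) := by
    rw [h3, cls_eq_of_mul_pow ι hden (by rw [← h3]; exact hT'), cls_mul ι (hD.pow ℓ) hσσx,
      cls_pow ι hD]
  rw [hTc', hTc, hDc, hdc] at h4
  rw [rhoF_cls ι σ hx', rhoF_cls ι σ hσx, h4]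
  abel

end

end Fermat.Agent.KumG
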