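import Fermat.Agent.KumG.Period

/-!
# Characters of the Hecke ring from weight two forms
-/

set_option autoImplicit false
set_option linter.unusedSectionVars false
set_option linter.style.haveILetI false

open UpperHalfPlane hiding I
open ModularForm Complex Filter Topology Matrix.SpecialLinearGroup
open scoped MatrixGroups Manifold
open Fermat.Agent.AL Fermat.Agent.MFLib Fermat.Agent.ALCoh ModularCurve ModularCurve.Period
  Fermat.Agent.Period ModularFormClass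

namespace Fermat.Agent.KumG

noncomputable section

section

variable {Γ Γ' : Subgroup SL(2, ℤ)} {ι : Type*} [Fintype ι] {rep : ι → M2}

/-- the operator on complex parabolic homomorphisms -/
def opLC (hF : Fam Γ Γ rep) : Module.End ℂ (LC Γ) where
  toFun φ := ⟨hF.op ℂ φ.1, isParabolicHom_op hF φ.2⟩
  map_add' φ ψ := Subtype.ext (map_add (hF.op ℂ) φ.1 ψ.1)
  map_smul' c φ := by
    apply Subtype.ext
    refine AddMonoidHom.ext fun γ => ?_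
    change ∑ x, (c • φ.1) (Additive.ofMul (hF.elt (Additive.toMul γ) x)) =
      c • ∑ x, φ.1 (Additive.ofMul (hF.elt (Additive.toMul γ) x))
    rw [Finset.smul_sum]
    rfl

theorem opLC_coe (hF : Fam Γ Γ rep) (φ : LC Γ) : (opLC hF φ).1 = hF.op ℂ φ.1 := rfl

theorem opLC_castP [LvlG Γ] (hF : Fam Γ Γ rep) (φ : LZ Γ) :
    opLC hF (castP Γ φ) = castP Γ (opL hF φ) :=
  Subtype.ext (Fam.comp_op hF (Int.castAddHom ℂ) φ.1).symm

end

variable {N : ℕ} [NeZero N] {H : Subgroup (ZMod N)ˣ} {l : ℕ} {γ : SL(2, ℤ)}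

theorem sum_rT {f : ℍ → ℂ} (hl : l ≠ 0) :
    ∑ x, sl 2 (rT l γ x) f = heckeU 2 l f + sl 2 !![(l : ℤ), 0; 0, 1] (f ∣[(2 : ℤ)] γ) := by
  have h0 : sl 2 (rT l γ none) f = sl 2 !![(l : ℤ), 0; 0, 1] (f ∣[(2 : ℤ)] γ) := by
    rw [rT_none, sl_mul (by rw [γ.det_coe]; exact one_ne_zero) (det_dl_ne hl none), sl_SL, dl]
  have h1 : ∀ j : Fin l, sl 2 (rT l γ (some j)) f = sl 2 (dl l (some j)) f :=
    fun j => by rw [rT_some]
  refine (Fintype.sum_option (fun x => sl 2 (rT l γ x) f)).trans ?_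
  rw [h0, heckeU_eq_sum hl, Finset.sum_congr rfl fun j _ => h1 j]
  exact add_comm _ _

/-- the `q`-coefficients of `T_ℓ` -/
theorem qCoeff_rT {f : ℍ → ℂ} (hl : l ≠ 0) (hf : QG f) (hf' : QG (f ∣[(2 : ℤ)] γ)) (n : ℕ) :
    qCoeff (∑ x, sl 2 (rT l γ x) f) n =
      qCoeff f (n * l) + if l ∣ n then (l : ℂ) * qCoeff (f ∣[(2 : ℤ)] γ) (n / l) else 0 := by
  have h2 : ((l : ℂ) ^ ((2 : ℤ) - 1)) = l := by norm_num
  rw [sum_rT hl, QG.qCoeff_add (AL.QG.heckeU hf 2 l) (AL.QG.V hf' hl 2), qCoeff_heckeU hf hl,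
    qCoeff_V hf' hl, h2]

variable {R : Subring ℂ} {k : Type*} [Field k]

/-- families of diamond translates of a form congruent to multiples of a fixed eigenform -/
structure Gd (H : Subgroup (ZMod N)ˣ) (χ₀ : R →+* k) (e : (ZMod N)ˣ →* k) (ψ : ℕ → k) (b : k)
    (G : (ZMod N)ˣ → ℍ → ℂ) : Prop where
  cf : ∀ d, IsCF (GH N H) 2 (G d)
  dia : ∀ (d u : (ZMod N)ˣ), ∀ γ ∈ GG N, dd N γ = u → G d ∣[(2 : ℤ)] γ = G (d * u)
  coef : ∀ d n, ∃ r : R, (r : ℂ) = qCoeff (G d) n ∧ χ₀ r = b * (e d * ψ n)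

namespace Gd

variable {χ₀ : R →+* k} {e : (ZMod N)ˣ →* k} {ψ : ℕ → k} {b b' : k} {G G' : (ZMod N)ˣ → ℍ → ℂ}

theorem _root_.Fermat.Agent.KumG.T_mem_GH (N : ℕ) (H : Subgroup (ZMod N)ˣ) :
    ModularGroup.T ∈ GH N H := Gamma1_le_GH N H (GamH.T_mem_Gamma1 N)

theorem qg (h : Gd H χ₀ e ψ b G) (d : (ZMod N)ˣ) : QG (G d) :=
  (h.cf d).toIsMF.qg (T_mem_GH N H)

theorem add (h : Gd H χ₀ e ψ b G) (h' : Gd H χ₀ e ψ b' G') : Gd H χ₀ e ψ (b + b') (G + G') where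
  cf d := by
    have h2 := (HC.of_isCF (h.cf d)).add (HC.of_isCF (h'.cf d))
    refine ⟨⟨h2.hb, fun γ hγ => ?_⟩, h2.zero⟩
    rw [Pi.add_apply, SlashAction.add_slash, (h.cf d).slash γ hγ, (h'.cf d).slash γ hγ]
  dia d u γ hγ hu := by
    rw [Pi.add_apply, SlashAction.add_slash, h.dia d u γ hγ hu, h'.dia d u γ hγ hu]
    rfl
  coef d n := by
    obtain ⟨r, h1, h2⟩ := h.coef d n
    obtain ⟨r', h1', h2'⟩ := h'.coef d n
    refine ⟨r + r', ?_, ?_⟩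
    · rw [Pi.add_apply, QG.qCoeff_add (h.qg d) (h'.qg d), ← h1, ← h1']
      rfl
    · rw [map_add, h2, h2', add_mul]

theorem zsmul (h : Gd H χ₀ e ψ b G) (m : ℤ) :
    Gd H χ₀ e ψ ((m : k) * b) (fun d => (m : ℂ) • G d) where
  cf d := by
    have h2 := (HC.of_isCF (h.cf d)).smul (m : ℂ)
    refine ⟨⟨h2.hb, fun γ hγ => ?_⟩, h2.zero⟩
    rw [SL_smul_slash, (h.cf d).slash γ hγ]
  dia d u γ hγ hu := by
    rw [SL_smul_slash, h.dia d u γ hγ hu]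
  coef d n := by
    obtain ⟨r, h1, h2⟩ := h.coef d n
    refine ⟨m * r, ?_, ?_⟩
    · rw [QG.qCoeff_smul (h.qg d), ← h1]
      push_cast
      rfl
    · rw [map_mul, h2, map_intCast]
      ring

theorem dmd (h : Gd H χ₀ e ψ b G) (u : (ZMod N)ˣ) :
    Gd H χ₀ e ψ (e u * b) (fun d => G (d * u)) where
  cf d := h.cf _
  dia d v γ hγ hv := by
    rw [h.dia _ v γ hγ hv, mul_right_comm]
  coef d n := by
    obtain ⟨r, h1, h2⟩ := h.coef (d * u) n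
    refine ⟨r, h1, ?_⟩
    rw [h2, map_mul]
    ring

theorem hecke (h : Gd H χ₀ e ψ b G) (hl : l.Prime) (hlN : ¬ l ∣ N) (hγ : Adp N l γ)
    {u : (ZMod N)ˣ} (hu : (u : ZMod N) = l) {t : k}
    (ht : ∀ n, ψ (n * l) + (if l ∣ n then (l : k) * (e u * ψ (n / l)) else 0) = t * ψ n) :
    Gd H χ₀ e ψ (t * b) (fun d => ∑ x, sl 2 (rT l γ x) (G d)) where
  cf d := isCF_op (fam_rT H hl hlN hγ) (h.cf d)
  dia d v δ hδ hv := by
    obtain ⟨σ, g, hg⟩ := (fam_rT0 hl hlN hγ).tr δ hδ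
    rw [← sl_SL, sl_sum, ← Equiv.sum_comp σ (fun x => sl 2 (rT l γ x) (G (d * v)))]
    refine Finset.sum_congr rfl fun x _ => ?_
    have hdet : ∀ x, (rT l γ x).det ≠ 0 := fun x => (det_rT_pos hl γ x).ne'
    have h1 : dd N (g x : SL(2, ℤ)) = v := by
      have e1 := (bot_rT hγ x).mul (bot_of_mem hδ)
      have e2 := (bot_of_mem (g x).2).mul (bot_rT hγ (σ x))
      rw [hg x] at e1
      have e3 : (l : ZMod N) * dd N δ = dd N (g x : SL(2, ℤ)) * l := by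
        rw [← e1.d, ← e2.d]
      rw [mul_comm, hv] at e3
      exact ((isUnit_natCast hl hlN).mul_right_cancel e3).symm
    rw [← sl_mul (hdet x) (by rw [δ.det_coe]; exact one_ne_zero), hg x,
      sl_mul (by rw [(g x : SL(2, ℤ)).det_coe]; exact one_ne_zero) (hdet _), sl_SL,
      h.dia d v _ (g x).2 h1]
  coef d n := by
    have h1 : G d ∣[(2 : ℤ)] γ = G (d * u) := h.dia d u γ hγ.mem (by rw [hγ.dd, hu])
    rw [qCoeff_rT hl.ne_zero (h.qg d) (by rw [h1]; exact h.qg _) n, h1]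
    obtain ⟨r, h2, h3⟩ := h.coef d (n * l)
    obtain ⟨r', h2', h3'⟩ := h.coef (d * u) (n / l)
    have h4 := ht n
    by_cases hln : l ∣ n
    · rw [if_pos hln] at h4 ⊢
      refine ⟨r + l * r', ?_, ?_⟩
      · rw [← h2, ← h2']
        push_cast
        rfl
      · rw [map_add, map_mul, map_natCast, h3, h3', map_mul]
        linear_combination b * e d * h4
    · rw [if_neg hln] at h4 ⊢
      refine ⟨r, ?_, ?_⟩
      · rw [h2, add_zero]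
      · rw [h3]
        linear_combination b * e d * h4

end Gd

variable [hH : Fact ((-1 : (ZMod N)ˣ) ∈ H)] {S : Set ℕ}

/-- the scalar `c` by which a Hecke operator acts on the reductions -/
def ActBy (χ₀ : R →+* k) (e : (ZMod N)ˣ →* k) (ψ : ℕ → k) (x : TR N H S) (c : k) : Prop :=
  ∃ X : Module.End ℂ (LC (GH N H)), (∀ φ, X (castP _ φ) = castP _ (TR.val N H S x φ)) ∧
    ∀ G b, Gd H χ₀ e ψ b G → ∃ G', Gd H χ₀ e ψ (c * b) G' ∧
      ∀ (d : (ZMod N)ˣ) (φ : LC (GH N H)), IsPer (GH N H) (G d) φ.1 → IsPer (GH N H) (G' d) (X φ).1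

namespace ActBy

variable {χ₀ : R →+* k} {e : (ZMod N)ˣ →* k} {ψ : ℕ → k} {x y : TR N H S} {c c' : k}
  {F : (ZMod N)ˣ → ℍ → ℂ}

theorem unique (hψ : ∃ n, ψ n ≠ 0) (hF : Gd H χ₀ e ψ 1 F) (h : ActBy χ₀ e ψ x c)
    (h' : ActBy χ₀ e ψ x c') : c = c' := by
  obtain ⟨X, hX, hG⟩ := h
  obtain ⟨X', hX', hG'⟩ := h'
  have hXX : X = X' := by
    refine LinearMap.ext_on_range (v := castP (GH N H)) (span_castP _) fun φ => ?_
    rw [hX, hX']
  obtain ⟨G₁, h1, h2⟩ := hG F 1 hF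
  obtain ⟨G₂, h1', h2'⟩ := hG' F 1 hF
  obtain ⟨φ, hφ⟩ := exists_isPer (hF.cf 1)
  have h3 : G₁ 1 = G₂ 1 := IsPer.inj (h1.cf 1) (h1'.cf 1) (h2 1 φ hφ) (by
    rw [hXX]; exact h2' 1 φ hφ)
  obtain ⟨n, hn⟩ := hψ
  obtain ⟨r, h4, h5⟩ := h1.coef 1 n
  obtain ⟨r', h4', h5'⟩ := h1'.coef 1 n
  have h6 : r = r' := Subtype.ext (by rw [h4, h4', h3])
  rw [h6, h5', map_one, mul_one, mul_one, one_mul] at h5
  exact (mul_right_cancel₀ hn h5).symm

theorem add (h : ActBy χ₀ e ψ x c) (h' : ActBy χ₀ e ψ y c') :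
    ActBy χ₀ e ψ (x + y) (c + c') := by
  obtain ⟨X, hX, hG⟩ := h
  obtain ⟨X', hX', hG'⟩ := h'
  refine ⟨X + X', fun φ => ?_, fun G b hb => ?_⟩
  · rw [map_add, LinearMap.add_apply, LinearMap.add_apply, hX, hX', map_add]
  · obtain ⟨G₁, h1, h2⟩ := hG G b hb
    obtain ⟨G₂, h1', h2'⟩ := hG' G b hb
    refine ⟨G₁ + G₂, ?_, fun d φ hφ => (h2 d φ hφ).add (h2' d φ hφ)⟩
    rw [add_mul]
    exact h1.add h1'

theorem mul (h : ActBy χ₀ e ψ x c) (h' : ActBy χ₀ e ψ y c') :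
    ActBy χ₀ e ψ (x * y) (c * c') := by
  obtain ⟨X, hX, hG⟩ := h
  obtain ⟨X', hX', hG'⟩ := h'
  refine ⟨X * X', fun φ => ?_, fun G b hb => ?_⟩
  · rw [map_mul, Module.End.mul_apply, Module.End.mul_apply, hX', hX]
  · obtain ⟨G₁, h1, h2⟩ := hG' G b hb
    obtain ⟨G₂, h1', h2'⟩ := hG G₁ _ h1
    refine ⟨G₂, ?_, fun d φ hφ => h2' d _ (h2 d φ hφ)⟩
    rw [mul_assoc]
    exact h1'

theorem int (m : ℤ) : ActBy χ₀ e ψ (m : TR N H S) (m : k) := by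
  refine ⟨(m : ℂ) • 1, fun φ => ?_, fun G b hb => ⟨_, hb.zsmul m, fun d φ hφ => hφ.smul (m : ℂ)⟩⟩
  rw [map_intCast]
  have h1 : ((m : Module.End ℤ (LZ (GH N H))) φ) = m • φ := rfl
  rw [h1, map_zsmul]
  exact Int.cast_smul_eq_zsmul ℂ m (castP (GH N H) φ)

theorem D (u : (ZMod N)ˣ) : ActBy χ₀ e ψ (TR.D N H S u) (e u) := by
  obtain ⟨γ, hγ, hu⟩ := exists_dd_unit u
  refine ⟨opLC (fam_diaH H hγ), fun φ => ?_, fun G b hb => ⟨_, hb.dmd u, fun d φ hφ => ?_⟩⟩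
  · rw [opLC_castP, TR.val_D, DH_eq hγ hu]
  · have h1 := hφ.op (fam_diaH H hγ) (fun _ => by rw [γ.det_coe]; exact one_pos)
    have h2 : ∑ _x : Unit, sl 2 (γ : M2) (G d) = G (d * u) := by
      rw [Finset.univ_unique, Finset.sum_singleton, sl_SL, hb.dia d u γ hγ hu]
    rw [h2] at h1
    exact h1

theorem T {l : ℕ} (hl : l.Prime) (hlN : ¬ l ∣ N) (hlS : l ∉ S) {u : (ZMod N)ˣ}
    (hu : (u : ZMod N) = l) {t : k}
    (ht : ∀ n, ψ (n * l) + (if l ∣ n then (l : k) * (e u * ψ (n / l)) else 0) = t * ψ n) :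
    ActBy χ₀ e ψ (TR.T (H := H) hl hlN hlS) t := by
  obtain ⟨γ, hγ⟩ := exists_adp hl hlN
  refine ⟨opLC (fam_rT H hl hlN hγ), fun φ => ?_,
    fun G b hb => ⟨_, hb.hecke hl hlN hγ hu ht, fun d φ hφ => ?_⟩⟩
  · rw [opLC_castP, TR.val_T, TH_eq hl hlN hγ]
  · exact hφ.op (fam_rT H hl hlN hγ) (fun x => det_rT_pos hl γ x)

end ActBy

/-- **Characters of the Hecke ring from forms of weight two.** -/
theorem exists_char_of_form {χ₀ : R →+* k} {e : (ZMod N)ˣ →* k} {ψ : ℕ → k} (hψ : ∃ n, ψ n ≠ 0)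
    {F : (ZMod N)ˣ → ℍ → ℂ} (hF : Gd H χ₀ e ψ 1 F) {t : ℕ → k}
    (ht : ∀ l : ℕ, l.Prime → ¬ l ∣ N → l ∉ S → ∀ u : (ZMod N)ˣ, (u : ZMod N) = l → ∀ n,
      ψ (n * l) + (if l ∣ n then (l : k) * (e u * ψ (n / l)) else 0) = t l * ψ n) :
    ∃ χ : TR N H S →+* k, (∀ (l : ℕ) (hl : l.Prime) (hlN : ¬ l ∣ N) (hlS : l ∉ S),
      χ (TR.T hl hlN hlS) = t l) ∧ ∀ d, χ (TR.D N H S d) = e d := by
  have hT : ∀ (l : ℕ) (hl : l.Prime) (hlN : ¬ l ∣ N) (hlS : l ∉ S),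
      ActBy χ₀ e ψ (TR.T (H := H) hl hlN hlS) (t l) := fun l hl hlN hlS => by
    obtain ⟨u, hu⟩ := isUnit_natCast hl hlN
    exact ActBy.T hl hlN hlS hu (ht l hl hlN hlS u hu)
  have hex : ∀ x : TR N H S, ∃ c, ActBy χ₀ e ψ x c := fun x => by
    induction x using TR.induction with
    | hT l hl hlN hlS => exact ⟨_, hT l hl hlN hlS⟩
    | hD d => exact ⟨_, ActBy.D d⟩
    | hint n => exact ⟨_, ActBy.int n⟩
    | hadd a b ha hb =>
      obtain ⟨c, hc⟩ := ha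
      obtain ⟨c', hc'⟩ := hb
      exact ⟨_, hc.add hc'⟩
    | hmul a b ha hb =>
      obtain ⟨c, hc⟩ := ha
      obtain ⟨c', hc'⟩ := hb
      exact ⟨_, hc.mul hc'⟩
  choose χ hχ using hex
  refine ⟨{ toFun := χ
            map_one' := (hχ 1).unique hψ hF (by simpa using ActBy.int (S := S) (χ₀ := χ₀) 1)
            map_mul' := fun a b => (hχ (a * b)).unique hψ hF ((hχ a).mul (hχ b))
            map_zero' := (hχ 0).unique hψ hF (by simpa using ActBy.int (S := S) (χ₀ := χ₀) 0)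
            map_add' := fun a b => (hχ (a + b)).unique hψ hF ((hχ a).add (hχ b)) },
    fun l hl hlN hlS => (hχ _).unique hψ hF (hT l hl hlN hlS),
    fun d => (hχ _).unique hψ hF (ActBy.D d)⟩

end

end Fermat.Agent.KumG
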