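import Fermat.Agent.KumG.Adic
import Fermat.Agent.GalRep.Hecke

/-!
# Galois representations attached to characters of the Hecke ring of level `Γ_H(N)`
-/

set_option autoImplicit false
set_option linter.unusedSectionVars false
set_option linter.style.haveILetI false

open Matrix.SpecialLinearGroup
open scoped MatrixGroups

namespace Fermat.Agent.KumG

open Fermat.Agent.GalRep Fermat.Agent.Places Fermat.Agent.Cheb Polynomial

noncomputable section

variable {N : ℕ} [NeZero N] {H : Subgroup (ZMod N)ˣ} [hH : Fact ((-1 : (ZMod N)ˣ) ∈ H)]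
  {S : Set ℕ} {p : ℕ} [hp : Fact p.Prime]

theorem isLocConst_of_mem_span {k : Type*} [Field k] {t : GQ → k} (ht : IsLocConst t)
    {f : GQ → k} (hf : f ∈ Submodule.span k (Set.range fun (x : GQ) (g : GQ) => t (x * g))) :
    IsLocConst f := by
  induction hf using Submodule.span_induction with
  | mem f hf =>
    obtain ⟨x, rfl⟩ := hf
    exact ht.leftTranslate x
  | zero => exact ⟨⊥, inferInstance, fun _ _ _ => rfl⟩
  | add f f' _ _ h h' => exact (h.prodMk h').comp (fun z => z.1 + z.2)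
  | smul c f _ h => exact h.comp (fun z => c * z)

theorem eq_of_mem_span {k : Type*} [Field k] {t : GQ → k} {σ : GQ} (ht : ∀ g, t (g * σ) = t g)
    {f : GQ → k} (hf : f ∈ Submodule.span k (Set.range fun (x : GQ) (g : GQ) => t (x * g))) :
    f σ = f 1 := by
  induction hf using Submodule.span_induction with
  | mem f hf =>
    obtain ⟨x, rfl⟩ := hf
    change t (x * σ) = t (x * 1)
    rw [ht, mul_one]
  | zero => rfl
  | add f f' _ _ h h' => rw [Pi.add_apply, Pi.add_apply, h, h']
  | smul c f _ h => rw [Pi.smul_apply, Pi.smul_apply, h]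

/-- **The residual representation attached to a mod `p` character of the Hecke ring.** -/
theorem exists_residual (hG : HasGoodRedH N H) (hS : S.Finite) (hpS : p ∈ S)
    (hNS : ∀ q : ℕ, q.Prime → q ∣ N → q ∈ S) (hp2 : p ≠ 2) {k : Type*} [Field k] [CharP k p]
    (χ : TR N H S →+* k) :
    ∃ ρ : GQ →* GL (Fin 2) k,
      (∃ L : IntermediateField ℚ (AlgebraicClosure ℚ), FiniteDimensional ℚ L ∧
        ∀ σ : GQ, (∀ x ∈ L, σ x = x) → ρ σ = 1) ∧
      (∀ (ℓ : ℕ) (hℓ : ℓ.Prime) (hℓN : ¬ ℓ ∣ N) (hℓS : ℓ ∉ S),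
        ∀ A : ValuationSubring (AlgebraicClosure ℚ), A.LiesOverPrime ℓ → ∀ τ : GQ,
          A.IsFrobeniusAt τ ℓ → (ρ τ : Matrix (Fin 2) (Fin 2) k).trace = χ (TR.T hℓ hℓN hℓS) ∧
            ∀ d : (ZMod N)ˣ, (d : ZMod N) = ℓ →
              (ρ τ : Matrix (Fin 2) (Fin 2) k).det = ℓ * χ (TR.D N H S d)) ∧
      (∀ q : ℕ, q.Prime → ¬ q ∣ N * p → ∀ A : ValuationSubring (AlgebraicClosure ℚ),
        A.LiesOverPrime q → ∀ σ ∈ A.inertiaSubgroupIn ℚ, ρ σ = 1) ∧
      (ρ complexConjugation : Matrix (Fin 2) (Fin 2) k).det = -1 := by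
  have hpk : (p : k) = 0 := CharP.cast_eq_zero k p
  have h2 : (2 : k) ≠ 0 := by
    intro h
    have h3 : ((2 : ℕ) : k) = 0 := by exact_mod_cast h
    rw [CharP.cast_eq_zero_iff k p] at h3
    exact hp2 ((Nat.prime_dvd_prime_iff_eq hp.out Nat.prime_two).1 h3)
  obtain ⟨t, D, h⟩ := exists_isHPseudoRep (I := (⊥ : Ideal k)) hG hS hpS hNS
    (by rw [Ideal.mem_bot]; exact hpk) χ
  have hloc : IsLocConst t := by
    obtain ⟨L, hL, h1⟩ := h.cont 1
    refine ⟨L, hL, fun σ hσ g => ?_⟩
    have h3 := h1 σ hσ g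
    rw [Ideal.Quotient.eq, pow_one, Ideal.mem_bot] at h3
    exact sub_eq_zero.1 h3
  have htc : t complexConjugation = 0 := by
    have h1 := h.isPseudoRep.t_sq complexConjugation
    rw [complexConjugation_mul_self, h.isPseudoRep.t_one, h.complexConj] at h1
    have h3 : t complexConjugation * t complexConjugation = 0 := by rw [← h1]; ring
    exact mul_self_eq_zero.mp h3
  obtain ⟨ρ, h1, h3, h4⟩ := h.isPseudoRep.exists_matrix (g₀ := complexConjugation) (α := 1)
    (β := -1) (fun h5 => h2 (by linear_combination h5)) (by rw [htc]; ring)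
    (by rw [h.complexConj]; ring)
  have hval : ∀ g, ((ρ.toHomUnits g : GL (Fin 2) k) : Matrix (Fin 2) (Fin 2) k) = ρ g :=
    fun g => rfl
  refine ⟨ρ.toHomUnits, ?_, ?_, ?_, ?_⟩
  · have hl : ∀ i j, IsLocConst (fun g => ρ g i j) := fun i j => isLocConst_of_mem_span hloc (h4 i j)
    obtain ⟨L, hL, h5⟩ := ((hl 0 0).prodMk (hl 0 1)).prodMk ((hl 1 0).prodMk (hl 1 1))
    refine ⟨L, hL, fun σ hσ => Units.ext ?_⟩
    have h6 := h5 σ hσ 1
    rw [one_mul] at h6
    simp only [Prod.mk.injEq, map_one] at h6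
    rw [hval]
    ext i j
    fin_cases i <;> fin_cases j
    · exact h6.1.1
    · exact h6.1.2
    · exact h6.2.1
    · exact h6.2.2
  · intro ℓ hℓ hℓN hℓS A hA τ hτ
    obtain ⟨e1, e2⟩ := h.frobenius ℓ hℓ hℓN hℓS A hA τ hτ
    refine ⟨by rw [hval, h1, e1], fun d hd => by rw [hval, h3, e2 d hd]⟩
  · intro q hq hqN A hA σ hσ
    obtain ⟨e1, -⟩ := h.inertia q hq hqN A hA σ hσ
    apply Units.ext
    rw [hval]
    ext i j
    have := eq_of_mem_span e1 (h4 i j)
    rw [map_one] at this
    exact this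
  · rw [hval, h3, h.complexConj]

/-- **The adic representation attached to a character of the Hecke ring.** -/
theorem IsHPseudoRep.exists_galoisRepAdic {B : Type} [CommRing B] [IsDomain B]
    [IsDiscreteValuationRing B] (h2 : (2 : B) ≠ 0) {χ : TR N H S →+* B} {t D : GQ → B}
    (h : IsHPseudoRep (IsLocalRing.maximalIdeal B) χ p t D) :
    ∃ ρ : GaloisRepAdic B, (∀ σ, LinearMap.charpoly (ρ.ρ σ) = X ^ 2 - C (t σ) * X + C (D σ)) ∧
      ∀ q : ℕ, q.Prime → ¬ q ∣ N * p → ∀ A : ValuationSubring (AlgebraicClosure ℚ),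
        A.LiesOverPrime q → ∀ σ ∈ A.inertiaSubgroupIn ℚ, ρ.ρ σ = 1 := by
  have hinj : Function.Injective (algebraMap B (FractionRing B)) :=
    IsFractionRing.injective B (FractionRing B)
  have hps := h.isPseudoRep.comp (algebraMap B (FractionRing B))
  have htc : t complexConjugation = 0 := by
    have h1 := h.isPseudoRep.t_sq complexConjugation
    rw [complexConjugation_mul_self, h.isPseudoRep.t_one, h.complexConj] at h1
    have h3 : t complexConjugation * t complexConjugation = 0 := by rw [← h1]; ring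
    exact mul_self_eq_zero.mp h3
  have h2' : (2 : FractionRing B) ≠ 0 := by
    intro h3
    apply h2
    apply hinj
    rw [map_ofNat, map_zero, h3]
  obtain ⟨ρ, h1, h3, h4⟩ := hps.exists_matrix (g₀ := complexConjugation) (α := 1) (β := -1)
    (fun h5 => h2' (by linear_combination h5)) (by rw [htc, map_zero]; ring)
    (by rw [h.complexConj, map_neg, map_one]; ring)
  obtain ⟨ρ', h5, h6⟩ := exists_galoisRepAdic_of_matrix ρ
    (fun i j => isBddCont_of_mem_span (IsLocalRing.maximalIdeal B) h.cont (h4 i j)) h1 h3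
  refine ⟨ρ', h5, fun q hq hqN A hA σ hσ => h6 σ ?_⟩
  obtain ⟨e1, -⟩ := h.inertia q hq hqN A hA σ hσ
  ext i j
  have := eq_of_mem_span (t := fun g => algebraMap B (FractionRing B) (t g)) (σ := σ)
    (fun g => by rw [e1]) (h4 i j)
  rw [map_one] at this
  exact this

end

end Fermat.Agent.KumG
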