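import Fermat.Agent.KumG.Gal
import Fermat.Agent.Kum.Canon

/-!
# Canonical representatives of Kummer classes
-/

set_option autoImplicit false
set_option linter.unusedSectionVars false
set_option linter.style.haveILetI false

open UpperHalfPlane ModularForm Complex Filter Topology Matrix.SpecialLinearGroup
open scoped MatrixGroups Manifold

namespace Fermat.Agent.KumG

open Fermat.Agent.MFLib Fermat.Agent.Kum Fermat.Agent.KumF ModularCurve Fermat.Agent.X0Genus
  Fermat.Agent.JFun Fermat.Agent.ModPoly IntermediateField Fermat.Agent.RR AlgebraicCurve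
  Fermat.Agent.Curve

noncomputable section

variable {K : Type*} [Field K] [Algebra ℚ K] [IsAlgClosed K] [CharZero K]
  {Γ : Subgroup SL(2, ℤ)} [LvlG Γ] [RatG Γ]

/-- poles bounded by `n (j)_∞` -/
def Bd (n : ℕ) (x : FG Γ K) : Prop :=
  ∀ v : Place K (FG Γ K), (n : ℤ) * min 0 (v.ord (jj Γ K)) ≤ v.ord x

theorem Bd.gal {n : ℕ} {x : FG Γ K} (σ : K ≃ₐ[ℚ] K) (hx0 : x ≠ 0) (hx : Bd n x) :
    Bd n (galK σ x) := by
  intro v
  obtain ⟨v', c, hc, h⟩ := exists_place_galK σ v
  have hj : jj Γ K ≠ 0 := fun h0 => by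
    have := transcendental_jj (K := K) (Γ := Γ)
    rw [h0] at this
    exact this isAlgebraic_zero
  have h1 := h (jj Γ K) hj
  rw [galK_jj] at h1
  rw [h x hx0, h1]
  have h2 := hx v'
  have h3 : min 0 (c * v'.ord (jj Γ K)) = c * min 0 (v'.ord (jj Γ K)) := by
    rcases le_total 0 (v'.ord (jj Γ K)) with h4 | h4
    · rw [min_eq_left h4, min_eq_left (mul_nonneg hc.le h4), mul_zero]
    · rw [min_eq_right h4, min_eq_right (mul_nonpos_of_nonneg_of_nonpos hc.le h4)]
  rw [h3]
  calc (n : ℤ) * (c * min 0 (v'.ord (jj Γ K))) = c * (n * min 0 (v'.ord (jj Γ K))) := by ring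
    _ ≤ c * v'.ord x := mul_le_mul_of_nonneg_left h2 hc.le

theorem jj_ne_zero : jj Γ K ≠ 0 := fun h0 => by
  have := transcendental_jj (K := K) (Γ := Γ)
  rw [h0] at this
  exact this isAlgebraic_zero

/-- the place at infinity -/
theorem exists_place_order : ∃ (v : Place K (FG Γ K)) (c : ℤ), 0 < c ∧ ∀ f : FG Γ K, f ≠ 0 →
    f.1.order = c * v.ord f := by
  apply exists_place_of_valuation (K := K) (fun f : FG Γ K => f.1.order)
  · intro f g hf hg
    exact HahnSeries.order_mul (fun h => hf (Subtype.ext h)) (fun h => hg (Subtype.ext h))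
  · intro f g hf hg hfg
    exact HahnSeries.min_order_le_order_add (fun h => hfg (Subtype.ext h))
  · intro a ha
    change (algebraMap K (LaurentSeries K) a).order = 0
    rw [algebraMap_laurentSeries_eq_single, HahnSeries.order_single ha]
  · refine ⟨jj Γ K, jj_ne_zero, ?_⟩
    rw [coe_jj, order_jqModC]
    norm_num

variable [Nonempty (K →+* ℂ)]

/-- the orders of functions with bounded poles are bounded -/
theorem exists_order_bound (n : ℕ) : ∃ B : ℤ, ∀ y : FG Γ K, y ≠ 0 → Bd n y → y.1.order ≤ B := by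
  obtain ⟨v, c, hc, h⟩ := exists_place_order (K := K) (Γ := Γ)
  set D : Divisor K (FG Γ K) := (n : ℤ) • poleDiv K (jj Γ K)
  refine ⟨c * Divisor.degree D, fun y hy hb => ?_⟩
  rw [h y hy]
  apply mul_le_mul_of_nonneg_left _ hc.le
  have hD : ∀ w : Place K (FG Γ K), D w = (n : ℤ) * max (-w.ord (jj Γ K)) 0 := by
    intro w
    change (n : ℤ) • (poleDiv K (jj Γ K) w) = _
    rw [poleDiv_apply, smul_eq_mul]
  have h1 : 0 ≤ divisor K y + D := by
    intro w
    rw [Finsupp.add_apply, divisor_apply, hD]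
    have h2 := hb w
    have h3 : min 0 (w.ord (jj Γ K)) = -max (-w.ord (jj Γ K)) 0 := by
      rcases le_total 0 (w.ord (jj Γ K)) with h4 | h4
      · rw [min_eq_left h4, max_eq_right (by omega)]; rfl
      · rw [min_eq_right h4, max_eq_left (by omega)]; omega
    rw [h3] at h2
    simp only [Finsupp.coe_zero, Pi.zero_apply]
    linarith
  have h2 : (Finsupp.single v (v.ord y) : Divisor K (FG Γ K)) ≤ divisor K y + D := by
    intro w
    by_cases hw : w = v
    · subst hw
      rw [Finsupp.single_eq_same, Finsupp.add_apply, divisor_apply, hD]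
      have : 0 ≤ (n : ℤ) * max (-w.ord (jj Γ K)) 0 :=
        mul_nonneg (Int.natCast_nonneg n) (le_max_right _ _)
      linarith
    · rw [Finsupp.single_eq_of_ne hw]
      exact h1 w
  have h3 := degree_mono h2
  rw [degree_single', map_add, degree_divisor, zero_add] at h3
  exact h3

/-! ### canonical representatives -/

variable (m n : ℕ)

/-- canonical representative of a class modulo `m`-th powers -/
structure IsCan (x : FG Γ K) : Prop where
  kd : KD m x
  bd : Bd n x
  lead : x.1.leadingCoeff = 1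
  max : ∀ z : FG Γ K, z ≠ 0 → Bd n (x * z ^ m) → (x * z ^ m).1.order ≤ x.1.order

variable {m n}

theorem IsCan.gal {x : FG Γ K} (σ : K ≃ₐ[ℚ] K) (hx : IsCan m n x) : IsCan m n (galK σ x) where
  kd := hx.kd.gal σ
  bd := hx.bd.gal σ hx.kd.1
  lead := by
    rw [coe_galK, leadingCoeff_coeffMap, hx.lead, map_one]
  max z hz hb := by
    have h1 := hx.max (galK σ⁻¹ z) (galK_ne_zero _ hz) (by
      have h2 := hb.gal σ⁻¹ (mul_ne_zero (galK_ne_zero _ hx.kd.1) (pow_ne_zero _ hz))
      rwa [map_mul, map_pow, galK_inv'] at h2)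
    have h3 : galK σ (x * galK σ⁻¹ z ^ m) = galK σ x * z ^ m := by
      rw [map_mul, map_pow, galK_inv]
    rw [← h3, coe_galK, coe_galK, order_coeffMap, order_coeffMap]
    exact h1

omit [RatG Γ] [Nonempty (K →+* ℂ)] in
theorem coe_mul' (x y : FG Γ K) : (x * y).1 = x.1 * y.1 := rfl
omit [RatG Γ] [Nonempty (K →+* ℂ)] in
theorem coe_pow' (x : FG Γ K) (n : ℕ) : (x ^ n).1 = x.1 ^ n := rfl

omit [RatG Γ] [Nonempty (K →+* ℂ)] in
theorem coe_ne_zero' {x : FG Γ K} (hx : x ≠ 0) : x.1 ≠ 0 := fun h => hx (Subtype.ext h)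

theorem IsCan.unique [NeZero m] {x z : FG Γ K} (hx : IsCan m n x) (hz : z ≠ 0)
    (hx' : IsCan m n (x * z ^ m)) : x * z ^ m = x := by
  have hm : 0 < m := NeZero.pos m
  have hx0 := coe_ne_zero' hx.kd.1
  have hz0 := coe_ne_zero' hz
  have o1 := hx.max z hz hx'.bd
  have o2 := hx'.max z⁻¹ (inv_ne_zero hz) (by
    rw [mul_assoc, ← mul_pow, mul_inv_cancel₀ hz, one_pow, mul_one]
    exact hx.bd)
  rw [mul_assoc, ← mul_pow, mul_inv_cancel₀ hz, one_pow, mul_one] at o2
  rw [coe_mul', coe_pow', HahnSeries.order_mul hx0 (pow_ne_zero _ hz0), HahnSeries.order_pow,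
    nsmul_eq_mul] at o1 o2
  have oz : z.1.order = 0 := by
    have h1 : (m : ℤ) * z.1.order = 0 := by omega
    rcases mul_eq_zero.1 h1 with h2 | h2
    · exact absurd h2 (by exact_mod_cast hm.ne')
    · exact h2
  set a := z.1.leadingCoeff with ha
  have hlead : a ^ m = 1 := by
    have h1 := hx'.lead
    rw [coe_mul', coe_pow', HahnSeries.leadingCoeff_mul, hx.lead, one_mul] at h1
    rw [ha, ← h1]
    have : ∀ k : ℕ, (z.1 ^ k).leadingCoeff = z.1.leadingCoeff ^ k := by
      intro k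
      induction k with
      | zero => simp
      | succ k ih => rw [pow_succ, pow_succ, HahnSeries.leadingCoeff_mul, ih]
    exact (this m).symm
  have ha0 : a ≠ 0 := by
    rw [ha, HahnSeries.leadingCoeff_ne_zero]; exact hz0
  by_cases hza : z = algebraMap K (FG Γ K) a
  · rw [hza, ← map_pow, hlead, map_one, mul_one]
  · exfalso
    set z' := z - algebraMap K (FG Γ K) a with hz'
    have hz'0 : z' ≠ 0 := sub_ne_zero.2 hza
    have hcoe : z'.1 = z.1 - HahnSeries.single 0 a := by
      rw [← algebraMap_laurentSeries_eq_single]; rfl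
    have hord : 0 < z'.1.order := by
      rcases lt_or_ge 0 z'.1.order with h1 | h1
      · exact h1
      · exfalso
        have h2 := mt HahnSeries.coeff_order_eq_zero.1 (coe_ne_zero' hz'0)
        apply h2
        rw [hcoe, HahnSeries.coeff_sub, ← hcoe]
        rcases h1.lt_or_eq with h3 | h3
        · rw [HahnSeries.coeff_eq_zero_of_lt_order (by rw [oz]; exact h3),
            HahnSeries.coeff_single_of_ne h3.ne, sub_zero]
        · rw [h3, HahnSeries.coeff_single_same, ha, HahnSeries.leadingCoeff_eq, oz, sub_self]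
    have hb : Bd n (x * z' ^ m) := by
      intro v
      rw [v.ord_mul hx.kd.1 (pow_ne_zero _ hz'0), ord_pow]
      have h1 := hx.bd v
      have h2 := hx'.bd v
      rw [v.ord_mul hx.kd.1 (pow_ne_zero _ hz), ord_pow] at h2
      have h3 : min 0 (v.ord z) ≤ v.ord z' := by
        rw [hz', sub_eq_add_neg, ← map_neg]
        have ha' : algebraMap K (FG Γ K) (-a) ≠ 0 := by
          rw [ne_eq, map_eq_zero]; exact neg_ne_zero.2 ha0
        refine le_ord_add v ?_ (min_le_right _ _) ?_ hz ha'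
        · rw [map_neg, ← sub_eq_add_neg]; exact hz'0
        · rw [ord_algebraMap]; exact min_le_left _ _
      rcases le_total 0 (v.ord z) with h4 | h4
      · rw [min_eq_left h4] at h3
        have : 0 ≤ (m : ℤ) * v.ord z' := mul_nonneg (Int.natCast_nonneg m) h3
        linarith
      · rw [min_eq_right h4] at h3
        have : (m : ℤ) * v.ord z ≤ (m : ℤ) * v.ord z' :=
          mul_le_mul_of_nonneg_left h3 (Int.natCast_nonneg m)
        linarith
    have h5 := hx.max z' hz'0 hb
    rw [coe_mul', coe_pow', HahnSeries.order_mul hx0 (pow_ne_zero _ (coe_ne_zero' hz'0)),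
      HahnSeries.order_pow, nsmul_eq_mul] at h5
    have h6 : 0 < (m : ℤ) * z'.1.order := mul_pos (by exact_mod_cast hm) hord
    omega

/-- existence of canonical representatives -/
theorem exists_isCan [NeZero m] {x : FG Γ K} (hx : KD m x) (hb : Bd n x) :
    ∃ z : FG Γ K, z ≠ 0 ∧ IsCan m n (x * z ^ m) := by
  have hm : 0 < m := NeZero.pos m
  obtain ⟨B, hB⟩ := exists_order_bound (K := K) (Γ := Γ) n
  obtain ⟨o, ⟨z, hz, hzb, hzo⟩, hmax⟩ := Int.exists_greatest_of_bdd
    (P := fun o => ∃ z : FG Γ K, z ≠ 0 ∧ Bd n (x * z ^ m) ∧ (x * z ^ m).1.order = o)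
    ⟨B, by
      rintro _ ⟨z, hz, hzb, rfl⟩
      exact hB _ (mul_ne_zero hx.1 (pow_ne_zero _ hz)) hzb⟩
    ⟨_, 1, one_ne_zero, by rwa [one_pow, mul_one], rfl⟩
  set y := x * z ^ m with hy
  have hy0 : y ≠ 0 := mul_ne_zero hx.1 (pow_ne_zero _ hz)
  set a := y.1.leadingCoeff with ha
  have ha0 : a ≠ 0 := by
    rw [ha, HahnSeries.leadingCoeff_ne_zero]; exact coe_ne_zero' hy0
  obtain ⟨b, hb'⟩ := IsAlgClosed.exists_pow_nat_eq a⁻¹ hm
  have hb0 : b ≠ 0 := by
    rintro rfl
    rw [zero_pow hm.ne'] at hb'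
    exact inv_ne_zero ha0 hb'.symm
  set c : FG Γ K := algebraMap K (FG Γ K) b with hc
  have hc0 : c ≠ 0 := by rw [hc, ne_eq, map_eq_zero]; exact hb0
  have hcy : x * (z * c) ^ m = y * c ^ m := by rw [hy, mul_pow]; ring
  have hcm : (c ^ m).1 = HahnSeries.single 0 a⁻¹ := by
    rw [hc, ← map_pow, hb', ← algebraMap_laurentSeries_eq_single]; rfl
  have hbd : ∀ w : FG Γ K, w ≠ 0 → (Bd n (w * c ^ m) ↔ Bd n w) := by
    intro w hw
    refine forall_congr' fun v => ?_
    rw [v.ord_mul hw (pow_ne_zero _ hc0), ord_pow, hc, ord_algebraMap, mul_zero, add_zero]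
  have hoc : ∀ w : FG Γ K, w ≠ 0 → (w * c ^ m).1.order = w.1.order := by
    intro w hw
    rw [coe_mul', HahnSeries.order_mul (coe_ne_zero' hw) (coe_ne_zero' (pow_ne_zero _ hc0)), hcm,
      HahnSeries.order_single (inv_ne_zero ha0), add_zero]
  refine ⟨z * c, mul_ne_zero hz hc0, ?_, ?_, ?_, ?_⟩
  · exact hx.mul (KD.pow_self (mul_ne_zero hz hc0))
  · rw [hcy, hbd y hy0]; exact hzb
  · rw [hcy, coe_mul', HahnSeries.leadingCoeff_mul, hcm, HahnSeries.leadingCoeff_of_single,
      mul_inv_cancel₀ ha0]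
  · intro w hw hwb
    have e1 : x * (z * c) ^ m * w ^ m = (x * (z * w) ^ m) * c ^ m := by
      rw [mul_pow, mul_pow]; ring
    have hw0 : x * (z * w) ^ m ≠ 0 := mul_ne_zero hx.1 (pow_ne_zero _ (mul_ne_zero hz hw))
    rw [e1, hbd _ hw0] at hwb
    rw [e1, hoc _ hw0, hcy, hoc _ hy0]
    rw [← hzo] at hmax
    exact hmax _ ⟨z * w, mul_ne_zero hz hw, hwb, rfl⟩

end

end Fermat.Agent.KumG
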