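import Fermat.Agent.KumG.Full
import Fermat.Agent.MFLib.AutC

/-!
# Diamond automorphisms
-/

set_option autoImplicit false
set_option linter.unusedSectionVars false

open UpperHalfPlane ModularForm Complex Filter Topology Matrix.SpecialLinearGroup
open scoped MatrixGroups Manifold
open Finset

namespace Fermat.Agent.KumG

open Fermat.Agent.MFLib Fermat.Agent.Kum Fermat.Agent.KumF ModularCurve

noncomputable section

local notation "Δ" => ModularForm.discriminant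

variable {Γ : Subgroup SL(2, ℤ)} [LvlG Γ] {k l : ℤ} {f g : ℍ → ℂ} {γ δ : SL(2, ℤ)}

variable (Γ) in
omit [LvlG Γ] in
/-- `γ` conjugates `Γ` into itself -/
def Nz (γ : SL(2, ℤ)) : Prop := ∀ δ ∈ Γ, γ * δ * γ⁻¹ ∈ Γ

omit [LvlG Γ] in
theorem Nz.of_mem (h : γ ∈ Γ) : Nz Γ γ := fun _ hδ => mul_mem (mul_mem h hδ) (inv_mem h)

omit [LvlG Γ] in
theorem Nz.mul (h : Nz Γ γ) (h' : Nz Γ δ) : Nz Γ (γ * δ) := fun ε hε => by
  have := h _ (h' ε hε)
  have e : γ * (δ * ε * δ⁻¹) * γ⁻¹ = γ * δ * ε * (γ * δ)⁻¹ := by group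
  rwa [e] at this

theorem RepF.slash {x : LaurentSeries ℂ} (hγ : Nz Γ γ) (h : RepF Γ x k f g) :
    RepF Γ (ql (f ∣[k] γ) / ql (g ∣[k] γ)) k (f ∣[k] γ) (g ∣[k] γ) where
  mf := isMF_slash h.mf hγ
  mg := isMF_slash h.mg hγ
  g0 := by rw [ne_eq, slash_eq_zero_iff]; exact h.g0
  eq := by
    rw [div_mul_cancel₀]
    rw [ne_eq, ql_eq_zero (isMF_slash h.mg hγ).qgG, slash_eq_zero_iff]
    exact h.g0

open Classical in
/-- the translate of a modular function (junk outside of the field) -/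
def diaF (γ : SL(2, ℤ)) (x : LaurentSeries ℂ) : LaurentSeries ℂ :=
  if h : ∃ k f g, RepF Γ x k f g then
    ql (h.choose_spec.choose ∣[h.choose] γ) / ql (h.choose_spec.choose_spec.choose ∣[h.choose] γ)
  else 0

theorem diaF_eq {x : LaurentSeries ℂ} (hγ : Nz Γ γ) (h : RepF Γ x k f g) :
    diaF (Γ := Γ) γ x = ql (f ∣[k] γ) / ql (g ∣[k] γ) := by
  have hex : ∃ k f g, RepF Γ x k f g := ⟨k, f, g, h⟩
  rw [diaF, dif_pos hex]
  have key : ∀ k' f' g', RepF Γ x k' f' g' →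
      ql (f' ∣[k'] γ) / ql (g' ∣[k'] γ) = ql (f ∣[k] γ) / ql (g ∣[k] γ) := by
    intro k' f' g' h'
    have h1 := h.cross h'
    have h2 : (f * g') ∣[(k + k' : ℤ)] γ = (f' * g) ∣[(k' + k : ℤ)] γ := by
      rw [h1, add_comm k k']
    rw [mul_slash_SL2, mul_slash_SL2] at h2
    have e1 := isMF_slash h.mf hγ
    have e2 := isMF_slash h.mg hγ
    have e3 := isMF_slash h'.mf hγ
    have e4 := isMF_slash h'.mg hγ
    have n2 : ql (g ∣[k] γ) ≠ 0 := by
      rw [ne_eq, ql_eq_zero e2.qgG, slash_eq_zero_iff]; exact h.g0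
    have n4 : ql (g' ∣[k'] γ) ≠ 0 := by
      rw [ne_eq, ql_eq_zero e4.qgG, slash_eq_zero_iff]; exact h'.g0
    rw [div_eq_div_iff n4 n2, ← ql_mul e3.qgG e2.qgG, ← ql_mul e1.qgG e4.qgG, h2]
  exact key _ _ _ hex.choose_spec.choose_spec.choose_spec

theorem diaF_rep {x : LaurentSeries ℂ} (hγ : Nz Γ γ) (h : RepF Γ x k f g) :
    RepF Γ (diaF (Γ := Γ) γ x) k (f ∣[k] γ) (g ∣[k] γ) := by
  rw [diaF_eq hγ h]
  exact h.slash hγ

theorem diaF_mem {x : LaurentSeries ℂ} (hγ : Nz Γ γ) (hx : x ∈ MFunG Γ) :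
    diaF (Γ := Γ) γ x ∈ MFunG Γ := by
  obtain ⟨k, f, g, h⟩ := hx
  exact ⟨_, _, _, diaF_rep hγ h⟩

omit [LvlG Γ] in
theorem eq_of_repF [LvlG Γ] {x y : LaurentSeries ℂ} (h : RepF Γ x k f g) (h' : RepF Γ y k f g) : x = y := by
  have hg0 : ql g ≠ 0 := by rw [ne_eq, ql_eq_zero h.mg.qgG]; exact h.g0
  exact mul_right_cancel₀ hg0 (h.eq.trans h'.eq.symm)

theorem diaF_mul {x y : LaurentSeries ℂ} (hγ : Nz Γ γ) (hx : x ∈ MFunG Γ) (hy : y ∈ MFunG Γ) :
    diaF (Γ := Γ) γ (x * y) = diaF (Γ := Γ) γ x * diaF (Γ := Γ) γ y := by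
  obtain ⟨k, f, g, h⟩ := hx
  obtain ⟨l, f', g', h'⟩ := hy
  have h1 := diaF_rep hγ (h.mul h')
  rw [mul_slash_SL2, mul_slash_SL2] at h1
  exact eq_of_repF h1 ((diaF_rep hγ h).mul (diaF_rep hγ h'))

theorem diaF_add {x y : LaurentSeries ℂ} (hγ : Nz Γ γ) (hx : x ∈ MFunG Γ) (hy : y ∈ MFunG Γ) :
    diaF (Γ := Γ) γ (x + y) = diaF (Γ := Γ) γ x + diaF (Γ := Γ) γ y := by
  obtain ⟨k, f, g, h⟩ := hx
  obtain ⟨l, f', g', h'⟩ := hy
  have h1 := diaF_rep hγ (h.add h')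
  rw [SlashAction.add_slash, mul_slash_SL2, mul_slash_SL2, mul_slash_SL2] at h1
  exact eq_of_repF h1 ((diaF_rep hγ h).add (diaF_rep hγ h'))

theorem diaF_const (hγ : Nz Γ γ) (c : ℂ) :
    diaF (Γ := Γ) γ (HahnSeries.C c) = HahnSeries.C c := by
  have h1 := diaF_rep hγ (RepF.const (Γ := Γ) c)
  have h2 : ∀ c : ℂ, (c • (1 : ℍ → ℂ)) ∣[(0 : ℤ)] γ = c • 1 := by
    intro c
    have := is_invariant_const γ c
    have h2 : (c • (1 : ℍ → ℂ)) = Function.const ℍ c := by ext; simp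
    rw [h2]; exact this
  have h3 := h2 1
  rw [one_smul] at h3
  rw [h2, h3] at h1
  exact eq_of_repF h1 (RepF.const c)

theorem diaF_one (hγ : Nz Γ γ) : diaF (Γ := Γ) γ 1 = 1 := by
  have := diaF_const (Γ := Γ) hγ 1
  rwa [map_one] at this

theorem diaF_zero (hγ : Nz Γ γ) : diaF (Γ := Γ) γ 0 = 0 := by
  have := diaF_const (Γ := Γ) hγ 0
  rwa [map_zero] at this

theorem diaF_of_mem {x : LaurentSeries ℂ} (hγ : γ ∈ Γ) (hx : x ∈ MFunG Γ) :
    diaF (Γ := Γ) γ x = x := by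
  obtain ⟨k, f, g, h⟩ := hx
  have h1 := diaF_rep (Nz.of_mem hγ) h
  rw [h.mf.slash _ hγ, h.mg.slash _ hγ] at h1
  exact eq_of_repF h1 h

theorem diaF_comp {x : LaurentSeries ℂ} (hγ : Nz Γ γ) (hδ : Nz Γ δ) (hx : x ∈ MFunG Γ) :
    diaF (Γ := Γ) δ (diaF (Γ := Γ) γ x) = diaF (Γ := Γ) (γ * δ) x := by
  obtain ⟨k, f, g, h⟩ := hx
  have h1 := diaF_rep hδ (diaF_rep hγ h)
  rw [← SlashAction.slash_mul, ← SlashAction.slash_mul] at h1
  exact eq_of_repF h1 (diaF_rep (hγ.mul hδ) h)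

/-- level one functions are fixed -/
theorem diaF_top {x : LaurentSeries ℂ} (hγ : Nz Γ γ) (h : RepF ⊤ x k f g) :
    diaF (Γ := Γ) γ x = x := by
  have h0 : RepF Γ x k f g := ⟨h.mf.mono le_top, h.mg.mono le_top, h.g0, h.eq⟩
  have h1 := diaF_rep hγ h0
  rw [h.mf.slash _ (Subgroup.mem_top _), h.mg.slash _ (Subgroup.mem_top _)] at h1
  exact eq_of_repF h1 h0

/-- the diamond automorphism of the field of modular functions -/
def diaM (hγ : Nz Γ γ) : MFunG Γ →+* MFunG Γ where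
  toFun x := ⟨diaF (Γ := Γ) γ x.1, diaF_mem hγ x.2⟩
  map_one' := Subtype.ext (diaF_one hγ)
  map_zero' := Subtype.ext (diaF_zero hγ)
  map_mul' x y := Subtype.ext (diaF_mul hγ x.2 y.2)
  map_add' x y := Subtype.ext (diaF_add hγ x.2 y.2)

theorem diaF_inv {x : LaurentSeries ℂ} (hγ : Nz Γ γ) (hx : x ∈ MFunG Γ) :
    diaF (Γ := Γ) γ x⁻¹ = (diaF (Γ := Γ) γ x)⁻¹ := by
  rcases eq_or_ne x 0 with rfl | h0
  · rw [inv_zero, diaF_zero hγ, inv_zero]
  · have h1 := diaF_mul hγ hx (inv_mem hx)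
    rw [mul_inv_cancel₀ h0, diaF_one hγ] at h1
    exact eq_inv_of_mul_eq_one_right h1.symm

theorem diaF_neg {x : LaurentSeries ℂ} (hγ : Nz Γ γ) (hx : x ∈ MFunG Γ) :
    diaF (Γ := Γ) γ (-x) = -(diaF (Γ := Γ) γ x) := by
  have h1 := diaF_add hγ hx (neg_mem hx)
  rw [add_neg_cancel, diaF_zero hγ] at h1
  exact eq_neg_of_add_eq_zero_right h1.symm

/-! ### compatibility with Galois conjugation -/

/-- Galois conjugates of modular functions -/
theorem endo_mem_MFunG [RatG Γ] (σ : ℂ →+* ℂ) {x : LaurentSeries ℂ} (hx : x ∈ MFunG Γ) :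
    coeffMap σ x ∈ MFunG Γ := by
  refine FG_le (K := ℂ) (Γ := Γ) ((MFunG Γ).comap (coeffMap σ)) ?_ ?_ x (MFunG_le hx)
  · intro a
    change coeffMap σ _ ∈ MFunG Γ
    rw [algebraMap_laurentSeries_eq_single, coeffMap_single]
    exact const_mem_MFunG _
  · intro z hz
    change coeffMap σ _ ∈ MFunG Γ
    rw [coeffMap_coeffEmb]
    exact hz

theorem coeffMap_rat {L : Type*} [Field L] [Algebra ℚ L] (σ : ℂ →+* L) (z : LaurentSeries ℚ) :
    coeffMap σ (coeffMap (algebraMap ℚ ℂ) z) = coeffMap (algebraMap ℚ L) z := by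
  rw [coeffMap_coeffMap]
  congr 2
  exact Subsingleton.elim _ _

theorem nrm_slash {n : ℕ} (hγ : Nz Γ γ) (hf : IsMF Γ (12 * n) f) :
    diaF (Γ := Γ) γ (nrm n f) = nrm n (f ∣[(12 * n : ℤ)] γ) := by
  have h : ∀ f : ℍ → ℂ, IsMF Γ (12 * n) f → RepF Γ (nrm n f) (12 * n) f (Δ ^ n) := fun f hf =>
    ⟨hf, isMF_disc_pow n, pow_ne_zero'' isMF_disc.holo disc_ne_zero n, by
      rw [nrm, ql_pow qg_disc, inv_pow, inv_mul_cancel_right₀ (pow_ne_zero _ qlD_ne)]⟩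
  have h1 := diaF_rep hγ (h f hf)
  have h2 : (Δ ^ n : ℍ → ℂ) ∣[(12 * n : ℤ)] γ = Δ ^ n :=
    ((isMF_disc.pow n).congr_weight (l := 12 * n) (by ring)).slash γ (Subgroup.mem_top _)
  rw [h2] at h1
  exact eq_of_repF h1 (h _ (isMF_slash hf hγ))

section gal

variable {G : Subgroup SL(2, ℤ)} [DiaG Γ G]

variable (Γ) in
/-- the elements of the group `G` of diamond operators normalise `Γ` -/
theorem nz_of_mem (hγ : γ ∈ G) : Nz Γ γ := DiaG.norm γ hγ

variable (Γ) in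
instance (priority := 100) ratG_inst : RatG Γ := ratG_of_diaG (G := G) inferInstance

/-- the diamonds commute with Galois conjugation -/
theorem diaF_endo (hγ : γ ∈ G) (σ : ℂ →+* ℂ) {y : LaurentSeries ℂ} (hy : y ∈ MFunG Γ) :
    diaF (Γ := Γ) γ (coeffMap σ y) = coeffMap σ (diaF (Γ := Γ) γ y) := by
  have hn := nz_of_mem Γ hγ
  let T : Subfield (LaurentSeries ℂ) :=
    { carrier := {y | y ∈ MFunG Γ ∧ diaF (Γ := Γ) γ (coeffMap σ y) = coeffMap σ (diaF (Γ := Γ) γ y)}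
      mul_mem' := fun {x y} hx hy => ⟨mul_mem hx.1 hy.1, by
        rw [map_mul, diaF_mul hn (endo_mem_MFunG σ hx.1) (endo_mem_MFunG σ hy.1), hx.2, hy.2,
          diaF_mul hn hx.1 hy.1, map_mul]⟩
      one_mem' := ⟨one_mem _, by rw [map_one, diaF_one hn, map_one]⟩
      add_mem' := fun {x y} hx hy => ⟨add_mem hx.1 hy.1, by
        rw [map_add, diaF_add hn (endo_mem_MFunG σ hx.1) (endo_mem_MFunG σ hy.1), hx.2, hy.2,
          diaF_add hn hx.1 hy.1, map_add]⟩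
      zero_mem' := ⟨zero_mem _, by rw [map_zero, diaF_zero hn, map_zero]⟩
      neg_mem' := fun {x} hx => ⟨neg_mem hx.1, by
        rw [map_neg, diaF_neg hn (endo_mem_MFunG σ hx.1), hx.2, diaF_neg hn hx.1, map_neg]⟩
      inv_mem' := fun x hx => ⟨inv_mem hx.1, by
        rw [map_inv₀, diaF_inv hn (endo_mem_MFunG σ hx.1), hx.2, diaF_inv hn hx.1, map_inv₀]⟩ }
  obtain ⟨w, θ, hθ, hr, hinj⟩ := exists_genD Γ G
  have hr1 : IsRat (qe θ) := by
    have := hr 1 (one_mem _)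
    rwa [SlashAction.slash_one] at this
  have key : y ∈ T := by
    refine MFunG_le_of_gen (T := T) ?_ ?_ hθ hr1 hinj ?_ hy
    · intro c
      refine ⟨const_mem_MFunG c, ?_⟩
      have : coeffMap σ (HahnSeries.C c) = HahnSeries.C (σ c) := coeffMap_single σ 0 c
      rw [diaF_const hn, this, diaF_const hn]
    · intro n f hf hfr
      obtain ⟨F, hF, h⟩ := nrm_rat (Γ := Γ) (hf.mono le_top) hfr
      refine ⟨by rw [← h]; exact hF, ?_⟩
      have h2 : coeffMap σ (nrm n f) = nrm n f := by rw [← h, coeffMap_rat]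
      rw [h2, nrm_slash hn (hf.mono le_top), hf.slash _ (Subgroup.mem_top _), h2]
    · obtain ⟨F, hF, h⟩ := nrm_rat (Γ := Γ) hθ hr1
      obtain ⟨F', hF', h'⟩ := nrm_rat (Γ := Γ) (isMF_slash hθ hn) (hr γ hγ)
      refine ⟨by rw [← h]; exact hF, ?_⟩
      have h2 : coeffMap σ (nrm w θ) = nrm w θ := by rw [← h, coeffMap_rat]
      rw [h2, nrm_slash hn hθ, ← h', coeffMap_rat]
  exact key.2

omit [LvlG Γ] in
theorem exists_rat_of_fixed {y : LaurentSeries ℂ} (h : ∀ σ : ℂ →+* ℂ, coeffMap σ y = y) :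
    ∃ z : LaurentSeries ℚ, coeffMap (algebraMap ℚ ℂ) z = y := by
  apply exists_coeffMap_eq
  intro n
  by_contra hcon
  obtain ⟨σ, hσ⟩ := exists_ringHom_ne (y.coeff n) (fun r hr => hcon ⟨r, by rw [hr]; rfl⟩)
  apply hσ
  have := congrArg (fun w => HahnSeries.coeff w n) (h σ)
  simpa using this

/-- the diamonds preserve rationality -/
theorem diaF_rat (hγ : γ ∈ G) {z : LaurentSeries ℚ} (hz : z ∈ FQG Γ) :
    ∃ z' ∈ FQG Γ, diaF (Γ := Γ) γ (coeffMap (algebraMap ℚ ℂ) z) = coeffMap (algebraMap ℚ ℂ) z' := by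
  obtain ⟨z', hz'⟩ := exists_rat_of_fixed
    (y := diaF (Γ := Γ) γ (coeffMap (algebraMap ℚ ℂ) z)) (fun σ => by
      rw [← diaF_endo hγ σ hz, coeffMap_rat])
  refine ⟨z', ?_, hz'.symm⟩
  rw [mem_FQG, hz']
  exact diaF_mem (nz_of_mem Γ hγ) hz

variable {K : Type*} [Field K] [Algebra ℚ K] (ι : K →+* ℂ)

theorem exists_dia (hγ : γ ∈ G) (x : FG Γ K) :
    ∃ y : FG Γ K, coeffMap ι y.1 = diaF (Γ := Γ) γ (coeffMap ι x.1) := by
  have hn := nz_of_mem Γ hγ
  have hmem : ∀ {x : LaurentSeries K}, x ∈ FG Γ K → coeffMap ι x ∈ MFunG Γ :=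
    fun h => coeffMap_mem_MFunG ι h
  let T : Subfield (LaurentSeries K) :=
    { carrier := {x | x ∈ FG Γ K ∧ ∃ y ∈ FG Γ K, coeffMap ι y = diaF (Γ := Γ) γ (coeffMap ι x)}
      mul_mem' := by
        rintro x y ⟨hx, a, ha, ha'⟩ ⟨hy, b, hb, hb'⟩
        exact ⟨mul_mem hx hy, a * b, mul_mem ha hb, by
          rw [map_mul, map_mul, diaF_mul hn (hmem hx) (hmem hy), ha', hb']⟩
      one_mem' := ⟨one_mem _, 1, one_mem _, by rw [map_one, diaF_one hn]⟩
      add_mem' := by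
        rintro x y ⟨hx, a, ha, ha'⟩ ⟨hy, b, hb, hb'⟩
        exact ⟨add_mem hx hy, a + b, add_mem ha hb, by
          rw [map_add, map_add, diaF_add hn (hmem hx) (hmem hy), ha', hb']⟩
      zero_mem' := ⟨zero_mem _, 0, zero_mem _, by rw [map_zero, diaF_zero hn]⟩
      neg_mem' := by
        rintro x ⟨hx, a, ha, ha'⟩
        exact ⟨neg_mem hx, -a, neg_mem ha, by
          rw [map_neg, map_neg, diaF_neg hn (hmem hx), ha']⟩
      inv_mem' := by
        rintro x ⟨hx, a, ha, ha'⟩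
        exact ⟨inv_mem hx, a⁻¹, inv_mem ha, by
          rw [map_inv₀, map_inv₀, diaF_inv hn (hmem hx), ha']⟩ }
  have key : x.1 ∈ T := by
    refine FG_le (K := K) (Γ := Γ) T ?_ ?_ x.1 x.2
    · intro a
      refine ⟨const_mem a, _, const_mem a, ?_⟩
      rw [algebraMap_laurentSeries_eq_single, coeffMap_single]
      exact (diaF_const hn (ι a)).symm
    · intro z hz
      obtain ⟨z', hz', h⟩ := diaF_rat (Γ := Γ) hγ hz
      refine ⟨coeffEmb_mem_laurentBaseChange K hz, _, coeffEmb_mem_laurentBaseChange K hz', ?_⟩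
      rw [coeffMap_coeffEmb, coeffMap_coeffEmb, h]
  obtain ⟨-, y, hy, h⟩ := key
  exact ⟨⟨y, hy⟩, h⟩

theorem coeffMap_inj {K : Type*} [Field K] (ι : K →+* ℂ) : Function.Injective (coeffMap ι) :=
  (coeffMap ι).injective

/-- the diamond automorphism over `K` -/
def diaK (hγ : γ ∈ G) : FG Γ K →+* FG Γ K where
  toFun x := (exists_dia ι hγ x).choose
  map_one' := Subtype.ext (coeffMap_inj ι (by
    rw [(exists_dia ι hγ 1).choose_spec]
    change diaF (Γ := Γ) γ (coeffMap ι 1) = coeffMap ι 1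
    rw [map_one, diaF_one (nz_of_mem Γ hγ)]))
  map_zero' := Subtype.ext (coeffMap_inj ι (by
    rw [(exists_dia ι hγ 0).choose_spec]
    change diaF (Γ := Γ) γ (coeffMap ι 0) = coeffMap ι 0
    rw [map_zero, diaF_zero (nz_of_mem Γ hγ)]))
  map_mul' x y := Subtype.ext (coeffMap_inj ι (by
    rw [(exists_dia ι hγ (x * y)).choose_spec]
    change diaF (Γ := Γ) γ (coeffMap ι (x.1 * y.1)) = coeffMap ι (_ * _)
    rw [map_mul, map_mul, (exists_dia ι hγ x).choose_spec, (exists_dia ι hγ y).choose_spec,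
      diaF_mul (nz_of_mem Γ hγ) (coeffMap_mem_MFunG ι x.2) (coeffMap_mem_MFunG ι y.2)]))
  map_add' x y := Subtype.ext (coeffMap_inj ι (by
    rw [(exists_dia ι hγ (x + y)).choose_spec]
    change diaF (Γ := Γ) γ (coeffMap ι (x.1 + y.1)) = coeffMap ι (_ + _)
    rw [map_add, map_add, (exists_dia ι hγ x).choose_spec, (exists_dia ι hγ y).choose_spec,
      diaF_add (nz_of_mem Γ hγ) (coeffMap_mem_MFunG ι x.2) (coeffMap_mem_MFunG ι y.2)]))

theorem coe_diaK (hγ : γ ∈ G) (x : FG Γ K) :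
    coeffMap ι (diaK ι hγ x).1 = diaF (Γ := Γ) γ (coeffMap ι x.1) :=
  (exists_dia ι hγ x).choose_spec

theorem diaK_const (hγ : γ ∈ G) (a : K) : diaK ι hγ (algebraMap K (FG Γ K) a) =
    algebraMap K (FG Γ K) a := by
  apply Subtype.ext
  apply coeffMap_inj ι
  rw [coe_diaK]
  change diaF (Γ := Γ) γ (coeffMap ι (algebraMap K (LaurentSeries K) a)) =
    coeffMap ι (algebraMap K (LaurentSeries K) a)
  rw [algebraMap_laurentSeries_eq_single, coeffMap_single]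
  exact diaF_const (nz_of_mem Γ hγ) _

theorem diaK_mul {δ : SL(2, ℤ)} (hγ : γ ∈ G) (hδ : δ ∈ G) (x : FG Γ K) :
    diaK ι (mul_mem hγ hδ) x = diaK ι hδ (diaK ι hγ x) := by
  apply Subtype.ext
  apply coeffMap_inj ι
  rw [coe_diaK, coe_diaK, coe_diaK, diaF_comp (nz_of_mem Γ hγ) (nz_of_mem Γ hδ)
    (coeffMap_mem_MFunG ι x.2)]

theorem diaK_of_mem (hγ : γ ∈ G) (hγ' : γ ∈ Γ) (x : FG Γ K) : diaK ι hγ x = x := by
  apply Subtype.ext
  apply coeffMap_inj ι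
  rw [coe_diaK, diaF_of_mem hγ' (coeffMap_mem_MFunG ι x.2)]

theorem diaK_congr {δ : SL(2, ℤ)} (hγ : γ ∈ G) (hδ : δ ∈ G) (h : γ * δ⁻¹ ∈ Γ) (x : FG Γ K) :
    diaK ι hγ x = diaK ι hδ x := by
  have h1 := diaK_mul ι (mul_mem hγ (inv_mem hδ)) hδ x
  rw [diaK_of_mem ι (mul_mem hγ (inv_mem hδ)) h] at h1
  rw [← h1]
  congr 2
  group

/-- independence of the embedding and compatibility with the Galois action -/
theorem diaK_gal (hγ : γ ∈ G) (σ : K ≃ₐ[ℚ] K) (x : FG Γ K) (y : FG Γ K)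
    (hy : y.1 = coeffMap (σ : K →+* K) x.1) :
    (diaK ι hγ y).1 = coeffMap (σ : K →+* K) (diaK ι hγ x).1 := by
  have hn := nz_of_mem Γ hγ
  let A : FG Γ K →+* FG Γ K :=
    ((coeffMap (σ : K →+* K)).comp (algebraMap (FG Γ K) (LaurentSeries K))).codRestrict (FG Γ K)
      fun x => coeffMap_mem_laurentBaseChange σ x.2
  let E : Subfield (FG Γ K) := RingHom.eqLocusField ((diaK ι hγ).comp A) (A.comp (diaK ι hγ))
  let T : Subfield (LaurentSeries K) := E.map (algebraMap (FG Γ K) (LaurentSeries K))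
  have key : x.1 ∈ T := by
    refine FG_le (K := K) (Γ := Γ) T ?_ ?_ x.1 x.2
    · intro a
      refine ⟨algebraMap K (FG Γ K) a, ?_, rfl⟩
      change diaK ι hγ (A _) = A (diaK ι hγ _)
      have h1 : ∀ b : K, A (algebraMap K (FG Γ K) b) = algebraMap K (FG Γ K) (σ b) := by
        intro b
        apply Subtype.ext
        exact coeffMap_algebraMap (σ : K →+* K) b
      rw [diaK_const, h1, diaK_const]
    · intro z hz
      obtain ⟨z', hz', h⟩ := diaF_rat (Γ := Γ) hγ hz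
      refine ⟨⟨coeffEmb K z, coeffEmb_mem_laurentBaseChange K hz⟩, ?_, rfl⟩
      change diaK ι hγ (A _) = A (diaK ι hγ _)
      have h1 : ∀ (z : LaurentSeries ℚ) (hz : coeffEmb K z ∈ FG Γ K),
          A ⟨coeffEmb K z, hz⟩ = ⟨coeffEmb K z, hz⟩ := by
        intro z hz
        apply Subtype.ext
        change coeffMap (σ : K →+* K) (coeffEmb K z) = coeffEmb K z
        rw [coeffEmb, coeffMap_coeffMap]
        congr 2
        exact Subsingleton.elim _ _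
      have h2 : diaK ι hγ ⟨coeffEmb K z, coeffEmb_mem_laurentBaseChange K hz⟩ =
          ⟨coeffEmb K z', coeffEmb_mem_laurentBaseChange K hz'⟩ := by
        apply Subtype.ext
        apply coeffMap_inj ι
        rw [coe_diaK, coeffMap_coeffEmb, h, coeffMap_coeffEmb]
      rw [h1, h2, h1]
  obtain ⟨x', hx', hx''⟩ := key
  have hxx : x' = x := Subtype.ext hx''
  subst hxx
  have h3 : y = A x' := Subtype.ext hy
  have h4 : diaK ι hγ (A x') = A (diaK ι hγ x') := hx'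
  rw [h3, h4]
  rfl

end gal

end

end Fermat.Agent.KumG
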