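import Fermat.Agent.KumG.HeckeFam

/-!
# Commutation of Hecke operators for `Γ_H(N)`
-/

set_option autoImplicit false
set_option linter.unusedSectionVars false

open Matrix.SpecialLinearGroup
open scoped MatrixGroups
open Fermat.Agent.AL Fermat.Agent.ALCoh

namespace Fermat.Agent.KumG

noncomputable section

variable {N l l' : ℕ} {A : Type*} [AddCommGroup A] {γ γ' δ : SL(2, ℤ)}

/-- comparison of product families at level `Γ₀(N)` -/
theorem exists_comm {ι : Type*} [Fintype ι] {rep : ι → M2} (hl : l.Prime) (hlN : ¬ l ∣ N)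
    {D : ℤ} (hD : ∀ i, (rep i).det = D) (hlD : ¬ (l : ℤ) ∣ D) {S : Set M2} (hS : Stab l S)
    (hrep : ∀ i, rep i ∈ S)
    (hcov : ∀ B ∈ S, ∃ i, ∃ γ : GG N, B = ((γ : SL(2, ℤ)) : M2) * rep i)
    (hinj : ∀ i j, ∀ γ : GG N, rep i = ((γ : SL(2, ℤ)) : M2) * rep j → i = j) :
    ∃ Φ : Option (Fin l) × ι ≃ ι × Option (Fin l), ∀ z, ∃ γ : GG N,
      dl l z.1 * rep z.2 = ((γ : SL(2, ℤ)) : M2) * (rep (Φ z).1 * dl l (Φ z).2) := by
  have hl0 := hl.ne_zero
  have hD0 : D ≠ 0 := fun h => hlD (h ▸ dvd_zero _)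
  have hcoN : IsCoprime (N : ℤ) (l : ℤ) := isCoprime_of_not_dvd hl hlN
  have hpl := Nat.prime_iff_prime_int.mp hl
  have hex : ∀ z : Option (Fin l) × ι, ∃ z' : ι × Option (Fin l), ∃ γ : GG N,
      dl l z.1 * rep z.2 = ((γ : SL(2, ℤ)) : M2) * (rep z'.1 * dl l z'.2) := by
    rintro ⟨x, i⟩
    obtain ⟨y, B, hB⟩ := exists_dl_mul hl (rep i) x
    obtain ⟨j, γ, hγ⟩ := hcov B (hS _ (hrep i) _ _ _ hB)
    exact ⟨(j, y), γ, by rw [hB, hγ, Matrix.mul_assoc]⟩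
  choose Φ γ hΦ using hex
  have hinj' : Function.Injective Φ := by
    intro z w hzw
    have h1 := hΦ z
    have h2 := hΦ w
    rw [← hzw] at h2
    have h3 : dl l z.1 * rep z.2 = (((γ z * (γ w)⁻¹ : GG N) : SL(2, ℤ)) : M2) * (dl l w.1 * rep w.2) := by
      rw [h1, h2, coe_mul_inv_mul]
    have h4 : dl l z.1 * (rep z.2 * (rep w.2).adjugate) =
        D • ((((γ z * (γ w)⁻¹ : GG N) : SL(2, ℤ)) : M2) * dl l w.1) := by
      rw [← Matrix.mul_assoc, h3, Matrix.mul_assoc, Matrix.mul_assoc, Matrix.mul_adjugate, hD]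
      simp only [Matrix.mul_smul, Matrix.mul_one]
    have h5 : (l : ℤ) • (rep z.2 * (rep w.2).adjugate) =
        D • ((dl l z.1).adjugate * ((((γ z * (γ w)⁻¹ : GG N) : SL(2, ℤ)) : M2) * dl l w.1)) := by
      rw [← Matrix.mul_smul (dl l z.1).adjugate D, ← h4, ← Matrix.mul_assoc, Matrix.adjugate_mul,
        det_dl, Matrix.smul_mul, Matrix.one_mul]
    have hco : IsCoprime (l : ℤ) D := hpl.coprime_iff_not_dvd.mpr hlD
    obtain ⟨u, v, huv⟩ := hco
    set X := rep z.2 * (rep w.2).adjugate with hX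
    set Y := (dl l z.1).adjugate * ((((γ z * (γ w)⁻¹ : GG N) : SL(2, ℤ)) : M2) * dl l w.1) with hY
    have h6 : X = D • (u • Y + v • X) := by
      have : X = (u * l + v * D) • X := by rw [huv, one_smul]
      rw [add_smul, mul_smul, h5] at this
      rw [smul_add, smul_comm D u Y, smul_comm D v X, ← mul_smul v D X]
      exact this
    set C := u • Y + v • X with hC
    have h7 : rep z.2 = C * rep w.2 := by
      refine smul_right_injective M2 hD0 ?_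
      change D • rep z.2 = D • (C * rep w.2)
      rw [← Matrix.smul_mul, ← h6, hX, Matrix.mul_assoc, Matrix.adjugate_mul, hD, Matrix.mul_smul,
        Matrix.mul_one]
    have h8 : dl l z.1 * C = (((γ z * (γ w)⁻¹ : GG N) : SL(2, ℤ)) : M2) * dl l w.1 := by
      refine smul_right_injective M2 hD0 ?_
      change D • (dl l z.1 * C) = D • _
      rw [← Matrix.mul_smul, ← h6, h4]
    have hdet : C.det = 1 := by
      rw [← det_eq_of_dl_mul hl0 h8]
      exact det_coe' _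
    have hcN : (N : ℤ) ∣ C 1 0 := (dvd_c h8 hcoN).mp (dvd_of_mem (γ z * (γ w)⁻¹).2)
    have h9 : z.2 = w.2 := hinj _ _ (mkG C hdet hcN) h7
    have h10 : C = 1 := by
      rw [h9] at h7
      refine mul_right_cancel_det (C := rep w.2) (by rw [hD]; exact hD0) ?_
      rw [← h7, Matrix.one_mul]
    rw [h10, Matrix.mul_one] at h8
    exact Prod.ext (dl_eq_of hl h8) h9
  have hbij : Function.Bijective Φ := by
    rw [Fintype.bijective_iff_injective_and_card]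
    exact ⟨hinj', by rw [Fintype.card_prod, Fintype.card_prod, mul_comm]⟩
  exact ⟨Equiv.ofBijective Φ hbij, fun z => ⟨γ z, hΦ z⟩⟩

variable {H : Subgroup (ZMod N)ˣ}

/-- general commutation with `T_ℓ` at level `Γ_H(N)` -/
theorem op_rT_comm {ι : Type*} [Fintype ι] {rep : ι → M2} {e : ZMod N} (he : IsUnit e)
    (hF : Fam (GH N H) (GH N H) rep) (hF0 : Fam (GG N) (GG N) rep) (hB : ∀ i, Bot N e (rep i))
    (hl : l.Prime) (hlN : ¬ l ∣ N) (hγ : Adp N l γ)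
    {D : ℤ} (hD : ∀ i, (rep i).det = D) (hlD : ¬ (l : ℤ) ∣ D) {S : Set M2} (hS : Stab l S)
    (hrep : ∀ i, rep i ∈ S)
    (hcov : ∀ B ∈ S, ∃ i, ∃ γ : GG N, B = ((γ : SL(2, ℤ)) : M2) * rep i)
    (hinj : ∀ i j, ∀ γ : GG N, rep i = ((γ : SL(2, ℤ)) : M2) * rep j → i = j)
    (φ : Additive (GH N H) →+ A) :
    hF.op A ((fam_rT H hl hlN hγ).op A φ) = (fam_rT H hl hlN hγ).op A (hF.op A φ) := by
  obtain ⟨Φ, hΦ⟩ := exists_comm hl hlN hD hlD hS hrep hcov hinj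
  choose σ g hg using fun y : Option (Fin l) => hF0.tr (aT l γ y) (aT_mem hγ y)
  let Ψ : ι × Option (Fin l) ≃ ι × Option (Fin l) :=
    ⟨fun z => (σ z.2 z.1, z.2), fun z => ((σ z.2).symm z.1, z.2), fun z => by simp,
      fun z => by simp⟩
  rw [Fam.op_op, Fam.op_op]
  refine DFunLike.congr_fun (Fam.op_eq' _ _ (Φ.trans Ψ.symm) fun z => ?_) φ
  obtain ⟨h, hh⟩ := hΦ z
  set w := (Φ.trans Ψ.symm) z with hw
  have hΦw : Φ z = Ψ w := by rw [hw]; simp
  have h1 : (Φ z).1 = σ w.2 w.1 := by rw [hΦw]; rfl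
  have h2 : (Φ z).2 = w.2 := by rw [hΦw]; rfl
  rw [h1, h2] at hh
  -- the comparison element
  let c : SL(2, ℤ) := aT l γ z.1 * h * (g w.2 w.1 : SL(2, ℤ))⁻¹
  have hc : c ∈ GG N := mul_mem (mul_mem (aT_mem hγ _) h.2) (inv_mem (g w.2 w.1).2)
  have key : rT l γ z.1 * rep z.2 = (c : M2) * (rep w.1 * rT l γ w.2) := by
    have h3 := hg w.2 w.1
    rw [rT, rT, Matrix.mul_assoc, hh, ← Matrix.mul_assoc (rep w.1), h3]
    change _ = ((aT l γ z.1 * h * (g w.2 w.1 : SL(2, ℤ))⁻¹ : SL(2, ℤ)) : M2) *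
      (((g w.2 w.1 : SL(2, ℤ)) : M2) * rep (σ w.2 w.1) * dl l w.2)
    rw [Matrix.mul_assoc, coe_mul_inv_mul_SL, coe_mul_mul_SL]
  refine ⟨⟨c, mem_GH_of_mul (u := 1) (he.mul (isUnit_natCast hl hlN)) ?_ (one_mem _) hc
    ((hB w.1).mul (bot_rT hγ w.2)) key⟩, key⟩
  have h4 := (bot_rT hγ z.1).mul (hB z.2)
  rwa [Units.val_one, one_mul, mul_comm e]

/-- `T_ℓ` commutes with the diamonds -/
theorem rT_dia_comm (hl : l.Prime) (hlN : ¬ l ∣ N) (hγ : Adp N l γ) (hδ : δ ∈ GG N)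
    (φ : Additive (GH N H) →+ A) :
    (fam_diaH H hδ).op A ((fam_rT H hl hlN hγ).op A φ) =
      (fam_rT H hl hlN hγ).op A ((fam_diaH H hδ).op A φ) := by
  refine op_rT_comm (e := dd N δ) (isUnit_dd hδ) _
    (fam_dia fun ε hε => mul_mem (mul_mem hδ hε) (inv_mem hδ)) (fun _ => bot_of_mem hδ)
    hl hlN hγ (D := 1) (fun _ => det_coe' _) ?_
    (stab_WW (D := 1) (Q := 1) (R := N) (S := 1) hl.ne_zero (one_dvd _) (one_dvd _)
      (isCoprime_of_not_dvd hl hlN))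
    (fun _ => ⟨det_coe' _, one_dvd _, dvd_of_mem hδ, one_dvd _⟩)
    (fun B hB => ?_) (fun _ _ _ _ => rfl) φ
  · exact fun h => (Nat.prime_iff_prime_int.mp hl).not_isUnit (isUnit_of_dvd_one h)
  · refine ⟨(), ⟨mkSL B hB.1 * δ⁻¹, mul_mem (mkSL_mem hB.1 hB.2.2.1) (inv_mem hδ)⟩, ?_⟩
    have h1 : ((mkSL B hB.1 * δ⁻¹ : SL(2, ℤ)) : M2) * (δ : M2) = B := by
      rw [← Matrix.SpecialLinearGroup.coe_mul, inv_mul_cancel_right, coe_mkSL]
    exact h1.symm

theorem fam_rT0 (hl : l.Prime) (hlN : ¬ l ∣ N) (hγ : Adp N l γ) : Fam (GG N) (GG N) (rT l γ) :=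
  (famT hl hlN).congr (Equiv.refl _) (c := 1) (c' := 1) one_ne_zero one_ne_zero fun x =>
    ⟨⟨aT l γ x, aT_mem hγ x⟩, by rw [one_smul, one_smul]; rfl⟩

/-- every matrix of determinant `ℓ` and level `N` is in the double coset -/
theorem exists_rT_of_det (hl : l.Prime) (hlN : ¬ l ∣ N) (hγ : Adp N l γ) {B : M2}
    (hdet : B.det = l) (hc : (N : ℤ) ∣ B 1 0) :
    ∃ i, ∃ g : GG N, B = ((g : SL(2, ℤ)) : M2) * rT l γ i := by
  have hlZ : (l : ℤ) ≠ 0 := by exact_mod_cast hl.ne_zero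
  have hpl := Nat.prime_iff_prime_int.mp hl
  -- a right factor
  have key : ∃ i, ∃ C : M2, B = C * dl l i := by
    rw [Matrix.det_fin_two] at hdet
    by_cases h0 : (l : ℤ) ∣ B 0 0 ∧ (l : ℤ) ∣ B 1 0
    · obtain ⟨⟨a, ha⟩, ⟨c, hc⟩⟩ := h0
      refine ⟨none, !![a, B 0 1; c, B 1 1], ?_⟩
      apply mat_ext <;> simp [dl, Matrix.mul_apply, Fin.sum_univ_two]
      · rw [ha]; ring
      · rw [hc]; ring
    · -- some `j` works
      have hrow : ∀ j : ℤ, (l : ℤ) ∣ B 0 1 - j * B 0 0 → (l : ℤ) ∣ B 1 1 - j * B 1 0 →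
          ∃ i, ∃ C : M2, B = C * dl l i := by
        intro j h1 h2
        obtain ⟨i, hi⟩ := exists_fin hl.pos j
        have e1 : (l : ℤ) ∣ B 0 1 - ((i : ℕ) : ℤ) * B 0 0 := by
          have : B 0 1 - ((i : ℕ) : ℤ) * B 0 0 = (B 0 1 - j * B 0 0) + (j - ((i : ℕ) : ℤ)) * B 0 0 := by
            ring
          rw [this]
          exact dvd_add h1 (Dvd.dvd.mul_right hi _)
        have e2 : (l : ℤ) ∣ B 1 1 - ((i : ℕ) : ℤ) * B 1 0 := by
          have : B 1 1 - ((i : ℕ) : ℤ) * B 1 0 = (B 1 1 - j * B 1 0) + (j - ((i : ℕ) : ℤ)) * B 1 0 := by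
            ring
          rw [this]
          exact dvd_add h2 (Dvd.dvd.mul_right hi _)
        obtain ⟨b, hb⟩ := e1
        obtain ⟨d, hd⟩ := e2
        refine ⟨some i, !![B 0 0, b; B 1 0, d], ?_⟩
        apply mat_ext <;> simp [dl, Matrix.mul_apply, Fin.sum_univ_two]
        · linear_combination hb
        · linear_combination hd
      by_cases ha : (l : ℤ) ∣ B 0 0
      · have hc' : ¬ (l : ℤ) ∣ B 1 0 := fun h => h0 ⟨ha, h⟩
        obtain ⟨j, hj⟩ := exists_fin_solve hl hc' (B 1 1)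
        refine hrow j ?_ hj
        -- `l ∣ b c` and `l ∣ a`
        have h1 : (l : ℤ) ∣ B 0 1 * B 1 0 := by
          have : B 0 1 * B 1 0 = B 0 0 * B 1 1 - l := by linarith
          rw [this]
          exact dvd_sub (Dvd.dvd.mul_right ha _) dvd_rfl
        have h2 := (hpl.dvd_or_dvd h1).resolve_right hc'
        exact dvd_sub h2 (Dvd.dvd.mul_left ha _)
      · obtain ⟨j, hj⟩ := exists_fin_solve hl ha (B 0 1)
        refine hrow j hj ?_
        have h1 : (l : ℤ) ∣ B 0 0 * (B 1 1 - ((j : ℕ) : ℤ) * B 1 0) := by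
          have : B 0 0 * (B 1 1 - ((j : ℕ) : ℤ) * B 1 0) =
            l + (B 0 1 - ((j : ℕ) : ℤ) * B 0 0) * B 1 0 := by linear_combination hdet
          rw [this]
          exact dvd_add dvd_rfl (Dvd.dvd.mul_right hj _)
        exact (hpl.dvd_or_dvd h1).resolve_left ha
  obtain ⟨i, C, hC⟩ := key
  have hCdet : C.det = 1 := by
    have h1 := congrArg Matrix.det hC
    rw [Matrix.det_mul, hdet, det_dl] at h1
    exact (mul_right_cancel₀ hlZ (by rw [one_mul]; exact h1)).symm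
  have hCN : (N : ℤ) ∣ C 1 0 := by
    have h1 := congrFun (congrFun hC 1) 0
    rw [Matrix.mul_apply, Fin.sum_univ_two, dl_one_zero, mul_zero, add_zero] at h1
    refine (isCoprime_dl_zero_zero (isCoprime_of_not_dvd hl hlN) i).dvd_of_dvd_mul_right ?_
    rw [← h1]
    exact hc
  refine ⟨i, ⟨mkSL C hCdet * (aT l γ i)⁻¹, mul_mem (mkSL_mem hCdet hCN) (inv_mem (aT_mem hγ i))⟩, ?_⟩
  change B = ((mkSL C hCdet * (aT l γ i)⁻¹ : SL(2, ℤ)) : M2) * ((aT l γ i : M2) * dl l i)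
  rw [coe_mul_inv_mul_SL, coe_mkSL, hC]

/-- the Hecke operators commute -/
theorem rT_rT_comm (hl : l.Prime) (hlN : ¬ l ∣ N) (hγ : Adp N l γ) (hl' : l'.Prime)
    (hlN' : ¬ l' ∣ N) (hγ' : Adp N l' γ') (φ : Additive (GH N H) →+ A) :
    (fam_rT H hl' hlN' hγ').op A ((fam_rT H hl hlN hγ).op A φ) =
      (fam_rT H hl hlN hγ).op A ((fam_rT H hl' hlN' hγ').op A φ) := by
  by_cases hll : l = l'
  · subst hll
    rw [fam_rT_op_eq H hl hlN hγ hγ']
  have hlD : ¬ (l : ℤ) ∣ (l' : ℤ) := by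
    rw [Int.natCast_dvd_natCast, Nat.prime_dvd_prime_iff_eq hl hl']
    exact hll
  refine op_rT_comm (isUnit_natCast hl' hlN') _ (fam_rT0 hl' hlN' hγ') (bot_rT hγ')
    hl hlN hγ (D := l') (det_rT γ') hlD
    (stab_WW (D := l') (Q := 1) (R := N) (S := 1) hl.ne_zero (one_dvd _) (one_dvd _)
      (isCoprime_of_not_dvd hl hlN))
    (fun i => ⟨det_rT γ' i, one_dvd _, (bot_rT hγ' i).c, one_dvd _⟩)
    (fun B hB => exists_rT_of_det hl' hlN' hγ' hB.1 hB.2.2.1)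
    (fun i j g h => dl_eq_of_rT hl' h) φ

/-- the diamonds commute -/
theorem dia_dia_comm (hγ : γ ∈ GG N) (hδ : δ ∈ GG N) (φ : Additive (GH N H) →+ A) :
    (fam_diaH H hδ).op A ((fam_diaH H hγ).op A φ) =
      (fam_diaH H hγ).op A ((fam_diaH H hδ).op A φ) := by
  rw [fam_diaH_op_op hγ hδ, fam_diaH_op_op hδ hγ]
  refine DFunLike.congr_fun (fam_diaH_op_eq (mul_mem hγ hδ) (mul_mem hδ hγ) ?_) φ
  refine mul_inv_mem_GH (mul_mem hγ hδ) (mul_mem hδ hγ) (u := 1) (one_mem _) ?_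
  rw [dd_mul hγ hδ, dd_mul hδ hγ, Units.val_one, one_mul, mul_comm]

end

end Fermat.Agent.KumG
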