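import Fermat.Agent.KumG.Ops
import Fermat.Agent.KumG.HeckeComm
import Fermat.Agent.KumG.Dia
import Fermat.Agent.ALCoh.Mult2

/-!
# The multiplicative Hecke operator with diamond on `q`-expansions
-/

set_option autoImplicit false
set_option linter.unusedSectionVars false

open UpperHalfPlane ModularForm Complex Matrix.SpecialLinearGroup
open scoped MatrixGroups Manifold
open Fermat.Agent.AL Fermat.Agent.Kum Fermat.Agent.MFLib Fermat.Agent.HeckeProd ModularCurve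
  Fermat.Agent.ALCoh

namespace Fermat.Agent.KumG

noncomputable section

variable {Γ : Subgroup SL(2, ℤ)} [LvlG Γ] {k : ℤ} {f g u v : ℍ → ℂ} {l : ℕ} [NeZero l]
  {γ : SL(2, ℤ)} {x y : LaurentSeries ℂ}

lemma prodSl_rT (f : ℍ → ℂ) : prodSl k (rT l γ) f =
    ((l : ℂ) ^ (k - 1) * ((l : ℂ)⁻¹) ^ l) • (dil l (f ∣[k] γ) * HeckeProd.nrm l f) := by
  have hl : l ≠ 0 := NeZero.ne l
  have h1 : sl k (rT l γ none) f = (l : ℂ) ^ (k - 1) • dil l (f ∣[k] γ) := by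
    rw [rT_none, sl_mul (by rw [γ.det_coe]; exact one_ne_zero) (det_dl_ne hl none), sl_SL, sl_def]
    change (f ∣[k] γ) ∣[k] toGL !![(l : ℤ), 0; 0, 1] = _
    rw [← heckeDiagMatrix_eq_toGL hl]
    funext τ
    rw [slash_heckeDiagMatrix_apply k hl]
    rfl
  have h2 : ∏ j : Fin l, sl k (rT l γ (some j)) f = (((l : ℂ))⁻¹) ^ l • HeckeProd.nrm l f := by
    rw [← prodSl_U (k := k)]
    exact Finset.prod_congr rfl fun j _ => by rw [rT_some]
  rw [prodSl, Fintype.prod_option, h1, h2, smul_mul_smul_comm]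

/-- the `q`-expansion of the operator `T_ℓ` -/
theorem mop_rT (hF : Fam Γ Γ (rT l γ)) (hn : Nz Γ γ) {ζ : ℂˣ} (hζ : IsPrimitiveRoot ζ l)
    (hx : x ∈ MFunG Γ) :
    mop Γ (rT l γ) x = qExpand ℂ l (diaF (Γ := Γ) γ x) * NN l ζ x := by
  have hl : l ≠ 0 := NeZero.ne l
  have hdet : ∀ x, 0 < (rT l γ x).det := fun x => by
    rw [det_rT]; exact_mod_cast Nat.pos_of_ne_zero hl
  obtain ⟨k, f, g, hr⟩ := hx
  have h1 := (repF_mop hF hdet hr).eq
  have h3 : ql (prodSl k (rT l γ) g) ≠ 0 := by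
    rw [ne_eq, ql_eq_zero (isMF_prodSl hF hdet hr.mg).qgG]
    exact prodSl_ne_zero hr.mg.holo hr.g0
  have h4 := diaF_rep hn hr
  have key : ∀ f : ℍ → ℂ, IsMF Γ k f → ql (prodSl k (rT l γ) f) =
      HahnSeries.C ((l : ℂ) ^ (k - 1) * ((l : ℂ)⁻¹) ^ l) *
        (qExpand ℂ l (ql (f ∣[k] γ)) * NN l ζ (ql f)) := by
    intro f hf
    have e1 := (isMF_slash hf hn).qgG
    rw [prodSl_rT, ql_smul _ ((qg_dil e1).mul (qg_nrm hf.qgG)),
      ql_mul (qg_dil e1) (qg_nrm hf.qgG), ql_dil e1, ql_nrm hf.qgG, NN_indep zt_primitive hζ]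
  refine mul_right_cancel₀ h3 ?_
  rw [h1, key f hr.mf, key g hr.mg, ← hr.eq, ← h4.eq, NN_mul hζ, map_mul (qExpand ℂ l)]
  ring

/-- diamonds as multiplicative operators -/
theorem mop_dia (hn : Nz Γ γ) (hx : x ∈ MFunG Γ) :
    mop Γ (fun _ : Unit => (γ : M2)) x = diaF (Γ := Γ) γ x := by
  obtain ⟨k, f, g, hr⟩ := hx
  have h1 := repF_mop (fam_dia hn) (fun _ => by rw [γ.det_coe]; exact one_pos) hr
  have h2 := diaF_rep hn hr
  have h3 : ∀ f : ℍ → ℂ, prodSl k (fun _ : Unit => (γ : M2)) f = f ∣[k] γ := fun f => by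
    rw [prodSl, Finset.univ_unique, Finset.prod_singleton, sl_SL]
  rw [h3, h3] at h1
  exact (h1.congrW (l := k) (by simp)).unique h2

section

variable {K : Type*} [Field K] [Algebra ℚ K] (j : K →+* ℂ)
  {G : Subgroup SL(2, ℤ)} [DiaG Γ G]

omit [NeZero l] in
theorem map_primitive {ζ : Kˣ} (hζ : IsPrimitiveRoot ζ l) :
    IsPrimitiveRoot (Units.map (j : K →* ℂ) ζ) l :=
  hζ.map_of_injective (f := Units.map (j : K →* ℂ)) (Units.map_injective j.injective)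

theorem coeffMap_TTG (hγ : γ ∈ G) {ζ : Kˣ} (hζ : IsPrimitiveRoot ζ l)
    (hF : Fam Γ Γ (rT l γ)) (x : FG Γ K) :
    coeffMap j (qExpand K l (diaK j hγ x).1 * NN l ζ x.1) =
      mop Γ (rT l γ) (coeffMap j x.1) := by
  rw [mop_rT hF (nz_of_mem Γ hγ) (map_primitive j hζ) (coeffMap_mem_MFunG j x.2), map_mul,
    coeffMap_NN, ModularCurve.coeffMap_qExpand, coe_diaK]

variable [IsAlgClosed K] [CharZero K]

/-- the multiplicative Hecke operator on functions -/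
def TTG (hl : l.Prime) (hγ : γ ∈ G) {ζ : Kˣ} (hζ : IsPrimitiveRoot ζ l)
    (hF : Fam Γ Γ (rT l γ)) (x : FG Γ K) : FG Γ K :=
  ⟨qExpand K l (diaK j hγ x).1 * NN l ζ x.1, by
    apply mem_FG_of_mem_MFunG j
    rw [coeffMap_TTG j hγ hζ hF]
    exact mop_mem hF (det_rT_pos hl γ) (coeffMap_mem_MFunG j x.2)⟩

theorem coe_TTG (hl : l.Prime) (hγ : γ ∈ G) {ζ : Kˣ} (hζ : IsPrimitiveRoot ζ l)
    (hF : Fam Γ Γ (rT l γ)) (x : FG Γ K) :
    (TTG j hl hγ hζ hF x).1 = qExpand K l (diaK j hγ x).1 * NN l ζ x.1 := rfl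

theorem coeffMap_coe_TTG (hl : l.Prime) (hγ : γ ∈ G) {ζ : Kˣ} (hζ : IsPrimitiveRoot ζ l)
    (hF : Fam Γ Γ (rT l γ)) (x : FG Γ K) :
    coeffMap j (TTG j hl hγ hζ hF x).1 = mop Γ (rT l γ) (coeffMap j x.1) :=
  coeffMap_TTG j hγ hζ hF x

theorem galK_diaK (hγ : γ ∈ G) (σ : K ≃ₐ[ℚ] K) (x : FG Γ K) :
    galK σ (diaK j hγ x) = diaK j hγ (galK σ x) :=
  Subtype.ext (diaK_gal j hγ σ x (galK σ x) rfl).symm

theorem galK_TTG (hl : l.Prime) (hγ : γ ∈ G) {ζ : Kˣ} (hζ : IsPrimitiveRoot ζ l)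
    (hF : Fam Γ Γ (rT l γ)) (σ : K ≃ₐ[ℚ] K) (x : FG Γ K) :
    galK σ (TTG j hl hγ hζ hF x) = TTG j hl hγ hζ hF (galK σ x) := by
  apply Subtype.ext
  rw [coe_galK, coe_TTG, coe_TTG, map_mul, coeffMap_NN, ModularCurve.coeffMap_qExpand,
    ← galK_diaK, coe_galK, coe_galK]
  congr 1
  exact NN_indep (hζ.map_of_injective (f := Units.map ((σ : K →+* K) : K →* K))
    (Units.map_injective (RingHom.injective _))) hζ _

variable {m : ℕ} [NeZero m]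

/-- the Galois action commutes with `T_ℓ` -/
theorem rhoF_T (hl : l.Prime) (hγ : γ ∈ G) (hF : Fam Γ Γ (rT l γ)) (σ : K ≃ₐ[ℚ] K)
    (ξ : XL Γ m) :
    rhoF j m σ (actE Γ m (opL hF) ξ) = actE Γ m (opL hF) (rhoF j m σ ξ) := by
  obtain ⟨ζ', hζ'⟩ : ∃ ζ : K, IsPrimitiveRoot ζ l :=
    HasEnoughRootsOfUnity.exists_primitiveRoot K l
  obtain ⟨ζ, rfl⟩ : IsUnit ζ' := hζ'.isUnit (NeZero.ne l)
  have hζ : IsPrimitiveRoot ζ l := IsPrimitiveRoot.coe_units_iff.1 hζ'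
  exact rhoF_op j hF (det_rT_pos hl γ) (coeffMap_coe_TTG j hl hγ hζ hF)
    (galK_TTG j hl hγ hζ hF) σ ξ

/-- the Galois action commutes with the diamonds -/
theorem rhoF_dia (hγ : γ ∈ G) (σ : K ≃ₐ[ℚ] K) (ξ : XL Γ m) :
    rhoF j m σ (actE Γ m (opL (fam_dia (nz_of_mem Γ hγ))) ξ) =
      actE Γ m (opL (fam_dia (nz_of_mem Γ hγ))) (rhoF j m σ ξ) :=
  rhoF_op j _ (fun _ => by rw [γ.det_coe]; exact one_pos)
    (fun x => by
      rw [mop_dia (nz_of_mem Γ hγ) (coeffMap_mem_MFunG j x.2)]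
      exact coe_diaK j hγ x) (galK_diaK j hγ) σ ξ

/-- classes of diamond translates -/
theorem cls_diaK (hγ : γ ∈ G) {x : FG Γ K} (hx : KD (6 * wd Γ * (m * tb Γ)) x) :
    Good m (diaK j hγ x) ∧ cls j m (diaK j hγ x) =
      actE Γ m (opL (fam_dia (nz_of_mem Γ hγ))) (cls j m x) := by
  have h1 : coeffMap j (diaK j hγ x).1 = mop Γ (fun _ : Unit => (γ : M2)) (coeffMap j x.1) := by
    rw [mop_dia (nz_of_mem Γ hγ) (coeffMap_mem_MFunG j x.2)]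
    exact coe_diaK j hγ x
  exact ⟨good_op j (fam_dia (nz_of_mem Γ hγ)) (fun _ => by rw [γ.det_coe]; exact one_pos) hx h1,
    cls_op j (fam_dia (nz_of_mem Γ hγ)) (fun _ => by rw [γ.det_coe]; exact one_pos) hx h1⟩

/-- classes of Hecke translates -/
theorem cls_TTG (hl : l.Prime) (hγ : γ ∈ G) {ζ : Kˣ} (hζ : IsPrimitiveRoot ζ l)
    (hF : Fam Γ Γ (rT l γ)) {x : FG Γ K} (hx : KD (6 * wd Γ * (m * tb Γ)) x) :
    Good m (TTG j hl hγ hζ hF x) ∧ cls j m (TTG j hl hγ hζ hF x) =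
      actE Γ m (opL hF) (cls j m x) :=
  ⟨good_op j hF (det_rT_pos hl γ) hx (coeffMap_coe_TTG j hl hγ hζ hF x),
    cls_op j hF (det_rT_pos hl γ) hx (coeffMap_coe_TTG j hl hγ hζ hF x)⟩

end

end

end Fermat.Agent.KumG
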