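import Fermat.Agent.KumG.Class
import Fermat.Agent.Kum.Action

/-!
# The Galois action on `Hom_par(Γ, ℤ) / m`
-/

set_option autoImplicit false
set_option linter.unusedSectionVars false
set_option linter.style.haveILetI false

open UpperHalfPlane ModularForm Complex Filter Topology Matrix.SpecialLinearGroup
open scoped MatrixGroups Manifold

namespace Fermat.Agent.KumG

open Fermat.Agent.MFLib Fermat.Agent.Kum Fermat.Agent.KumF ModularCurve Fermat.Agent.X0Genus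
  Fermat.Agent.JFun Fermat.Agent.ModPoly IntermediateField Fermat.Agent.RR AlgebraicCurve
  Fermat.Agent.Curve

noncomputable section

variable (Γ : Subgroup SL(2, ℤ)) [LvlG Γ] (m : ℕ) [NeZero m]

/-- multiples of `m` -/
def mL : AddSubgroup (LZ Γ) := (nsmulAddMonoidHom m : LZ Γ →+ LZ Γ).range

/-- `Hom_par(Γ₀(N), ℤ) / m` -/
abbrev XL : Type := LZ Γ ⧸ mL Γ m

variable {Γ m}

lemma mem_mL {φ : LZ Γ} : φ ∈ mL Γ m ↔ redI m φ = 0 := by
  rw [redI_eq_zero]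
  constructor
  · rintro ⟨ψ, h⟩
    exact ⟨ψ, h.symm⟩
  · rintro ⟨ψ, h⟩
    exact ⟨ψ, h.symm⟩

/-- the class of an integral character -/
def mkX : LZ Γ →+ XL Γ m := QuotientAddGroup.mk' _

lemma mkX_surjective : Function.Surjective (mkX : LZ Γ → XL Γ m) := QuotientAddGroup.mk'_surjective _

lemma mkX_eq_iff {φ ψ : LZ Γ} : (mkX φ : XL Γ m) = mkX ψ ↔ redI m φ = redI m ψ := by
  rw [← sub_eq_zero, ← sub_eq_zero (a := redI m φ), ← redI_sub, ← mem_mL, ← map_sub]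
  exact QuotientAddGroup.eq_zero_iff _

lemma mkX_nsmul (φ : LZ Γ) : (m • mkX φ : XL Γ m) = 0 := by
  rw [← map_nsmul, ← map_zero mkX, mkX_eq_iff, redI_zero, redI_eq_zero]
  exact ⟨φ, rfl⟩

variable {K : Type*} [Field K] [Algebra ℚ K] [IsAlgClosed K] [CharZero K] [RatG Γ] (ι : K →+* ℂ)

/-- the functions that are used -/
abbrev Good (m : ℕ) (x : FG Γ K) : Prop := KD (m * tb Γ) x

theorem Good.exists_mk {x : FG Γ K} (hx : Good m x) :
    ∃ φ : LZ Γ, Rep Γ (coeffMap ι x.1) (redI m φ) := by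
  obtain ⟨φ₀, hφ₀, h⟩ := hx.exists_rep ι
  obtain ⟨ψ, hψ⟩ := exists_lift_redI hφ₀
  exact ⟨ψ, by rw [hψ]; exact h.reduce _⟩

open Classical in
/-- the class of a function -/
def cls (m : ℕ) [NeZero m] (x : FG Γ K) : XL Γ m :=
  if h : Good m x then mkX (h.exists_mk ι).choose else 0

theorem cls_eq {x : FG Γ K} (hx : Good m x) {φ : LZ Γ} (h : Rep Γ (coeffMap ι x.1) (redI m φ)) :
    cls ι m x = mkX φ := by
  rw [cls, dif_pos hx, mkX_eq_iff]
  exact (hx.exists_mk ι).choose_spec.unique h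

theorem cls_mul {x y : FG Γ K} (hx : Good m x) (hy : Good m y) :
    cls ι m (x * y) = cls ι m x + cls ι m y := by
  obtain ⟨φ, hφ⟩ := hx.exists_mk ι
  obtain ⟨ψ, hψ⟩ := hy.exists_mk ι
  rw [cls_eq ι hx hφ, cls_eq ι hy hψ, ← map_add]
  apply cls_eq ι (hx.mul hy)
  rw [redI_add]
  have := hφ.mul hψ
  rwa [← map_mul] at this

theorem cls_inv {x : FG Γ K} (hx : Good m x) : cls ι m x⁻¹ = - cls ι m x := by
  obtain ⟨φ, hφ⟩ := hx.exists_mk ι
  rw [cls_eq ι hx hφ, ← map_neg]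
  apply cls_eq ι hx.inv
  rw [redI_neg]
  have := hφ.inv
  rwa [← map_inv₀] at this

theorem cls_pow {x : FG Γ K} (hx : Good m x) (n : ℕ) : cls ι m (x ^ n) = n • cls ι m x := by
  obtain ⟨φ, hφ⟩ := hx.exists_mk ι
  rw [cls_eq ι hx hφ, ← map_nsmul]
  apply cls_eq ι (hx.pow n)
  rw [redI_nsmul]
  have := hφ.pow n
  rwa [← map_pow] at this

/-- `m`-th powers have trivial class -/
theorem cls_eq_of_mul_pow {x z : FG Γ K} (hx : Good m x) (hxz : Good m (x * z ^ m)) :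
    cls ι m (x * z ^ m) = cls ι m x := by
  have hz : z ≠ 0 := by
    rintro rfl
    rw [zero_pow (NeZero.ne m), mul_zero] at hxz
    exact hxz.1 rfl
  obtain ⟨φ, hφ⟩ := hx.exists_mk ι
  rw [cls_eq ι hx hφ]
  apply cls_eq ι hxz
  have h1 : Rep Γ (coeffMap ι z.1 ^ m) (0 : Additive Γ →+ ZMod m) :=
    rep_pow (coeffMap_mem_MFunG ι z.2) (coeffMap_ne_zero (ι := ι) hz)
  have h2 := hφ.mul h1
  rwa [add_zero, ← map_pow, ← map_mul] at h2

theorem cls_eq_zero_of_pow {z : FG Γ K} (hz : Good m (z ^ m)) : cls ι m (z ^ m) = 0 := by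
  have hz0 : z ≠ 0 := by
    rintro rfl
    exact hz.1 (zero_pow (NeZero.ne m))
  have h1 : Rep Γ (coeffMap ι z.1 ^ m) (0 : Additive Γ →+ ZMod m) :=
    rep_pow (coeffMap_mem_MFunG ι z.2) (coeffMap_ne_zero (ι := ι) hz0)
  rw [← map_zero mkX]
  apply cls_eq ι hz
  rw [redI_zero]
  rwa [← map_pow] at h1

/-- functions with the same class differ by an `m`-th power -/
theorem exists_mul_pow_of_cls_eq {x y : FG Γ K} (hx : Good m x) (hy : Good m y)
    (h : cls ι m x = cls ι m y) : ∃ z : FG Γ K, y = x * z ^ m := by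
  obtain ⟨φ, hφ⟩ := hx.exists_mk ι
  obtain ⟨ψ, hψ⟩ := hy.exists_mk ι
  rw [cls_eq ι hx hφ, cls_eq ι hy hψ, mkX_eq_iff] at h
  have h1 := hψ.mul hφ.inv
  rw [h, add_neg_cancel, ← map_inv₀, ← map_mul] at h1
  obtain ⟨z, hz⟩ := exists_pow_of_rep_zero ι (x := y * x⁻¹) h1
  refine ⟨z, ?_⟩
  rw [← hz, mul_comm y, mul_inv_cancel_left₀ hx.1]

/-- every class comes from a function, with arbitrarily large divisibility -/
theorem exists_cls_eq (ξ : XL Γ m) (c : ℕ) [NeZero c] :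
    ∃ x : FG Γ K, KD (m * tb Γ * c) x ∧ cls ι m x = ξ := by
  obtain ⟨φ, rfl⟩ := mkX_surjective ξ
  obtain ⟨x, hx, h⟩ := exists_KD_rep (K := K) ι (m * tb Γ * c)
    (redI_parabolic (m := 6 * wd Γ * (6 * wd Γ * (m * tb Γ * c))) φ)
  rw [redZ_redI] at h
  have hd : m ∣ m * tb Γ * c := ⟨tb Γ * c, by ring⟩
  have h1 := h.reduce hd
  rw [redZ_redI] at h1
  exact ⟨x, hx, cls_eq ι (hx.of_dvd ⟨c, rfl⟩) h1⟩

theorem exists_cls_eq' (ξ : XL Γ m) : ∃ x : FG Γ K, Good m x ∧ cls ι m x = ξ := by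
  obtain ⟨x, hx, h⟩ := exists_cls_eq (K := K) ι ξ 1
  exact ⟨x, hx.of_dvd ⟨1, rfl⟩, h⟩

/-- the Galois action -/
def rhoF (m : ℕ) [NeZero m] (σ : K ≃ₐ[ℚ] K) (ξ : XL Γ m) : XL Γ m :=
  cls ι m (galK σ (exists_cls_eq' (K := K) ι ξ).choose)

theorem rhoF_cls (σ : K ≃ₐ[ℚ] K) {x : FG Γ K} (hx : Good m x) :
    rhoF ι m σ (cls ι m x) = cls ι m (galK σ x) := by
  have h := (exists_cls_eq' (K := K) ι (cls ι m x)).choose_spec
  rw [rhoF]
  set y := (exists_cls_eq' (K := K) ι (cls ι m x)).choose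
  obtain ⟨z, hz⟩ := exists_mul_pow_of_cls_eq ι h.1 hx h.2
  have h1 : galK σ x = galK σ y * galK σ z ^ m := by rw [hz, map_mul, map_pow]
  rw [h1, cls_eq_of_mul_pow ι (KD.gal σ h.1)]
  rw [← h1]
  exact KD.gal σ hx

theorem rhoF_add (σ : K ≃ₐ[ℚ] K) (ξ ξ' : XL Γ m) :
    rhoF ι m σ (ξ + ξ') = rhoF ι m σ ξ + rhoF ι m σ ξ' := by
  obtain ⟨x, hx, rfl⟩ := exists_cls_eq' (K := K) ι ξ
  obtain ⟨y, hy, rfl⟩ := exists_cls_eq' (K := K) ι ξ'
  rw [← cls_mul ι hx hy, rhoF_cls ι σ (KD.mul hx hy), rhoF_cls ι σ hx, rhoF_cls ι σ hy, map_mul,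
    cls_mul ι (KD.gal σ hx) (KD.gal σ hy)]

theorem rhoF_mul (σ τ : K ≃ₐ[ℚ] K) (ξ : XL Γ m) :
    rhoF ι m (σ * τ) ξ = rhoF ι m σ (rhoF ι m τ ξ) := by
  obtain ⟨x, hx, rfl⟩ := exists_cls_eq' (K := K) ι ξ
  rw [rhoF_cls ι _ hx, rhoF_cls ι τ hx, rhoF_cls ι σ (KD.gal τ hx), galK_mul]

theorem rhoF_one (ξ : XL Γ m) : rhoF ι m (1 : K ≃ₐ[ℚ] K) ξ = ξ := by
  obtain ⟨x, hx, rfl⟩ := exists_cls_eq' (K := K) ι ξ
  rw [rhoF_cls ι _ hx, galK_one]

/-! ### level -/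

/-- elements of the function field are defined over finite extensions of `ℚ` -/
theorem exists_level [Algebra.IsAlgebraic ℚ K] (x : FG Γ K) :
    ∃ L : IntermediateField ℚ K, FiniteDimensional ℚ L ∧
      ∀ σ : K ≃ₐ[ℚ] K, (∀ a ∈ L, σ a = a) → galK σ x = x := by
  suffices h : ∀ y : LaurentSeries K, y ∈ FG Γ K → ∃ L : IntermediateField ℚ K,
      FiniteDimensional ℚ L ∧ ∀ σ : K ≃ₐ[ℚ] K, (∀ a ∈ L, σ a = a) →
        coeffMap (σ : K →+* K) y = y by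
    obtain ⟨L, hL, h1⟩ := h x.1 x.2
    exact ⟨L, hL, fun σ hσ => Subtype.ext (h1 σ hσ)⟩
  intro y hy
  rw [FG, mem_laurentBaseChange_iff] at hy
  have hsup : ∀ L L' : IntermediateField ℚ K, FiniteDimensional ℚ L → FiniteDimensional ℚ L' →
      FiniteDimensional ℚ (L ⊔ L' : IntermediateField ℚ K) := by
    intro L L' h h'
    infer_instance
  induction hy using Subfield.closure_induction with
  | mem y hy =>
    rcases hy with ⟨a, rfl⟩ | ⟨z, hz, rfl⟩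
    · refine ⟨IntermediateField.adjoin ℚ {a}, ?_, fun σ hσ => ?_⟩
      · exact IntermediateField.adjoin.finiteDimensional (Algebra.IsIntegral.isIntegral a)
      · rw [coeffMap_algebraMap]
        congr 1
        exact hσ a (IntermediateField.mem_adjoin_simple_self ℚ a)
    · refine ⟨⊥, inferInstance, fun σ _ => ?_⟩
      rw [ModularCurve.coeffMap_coeffEmb]
  | one => exact ⟨⊥, inferInstance, fun σ _ => map_one _⟩
  | add x y _ _ hx hy =>
    obtain ⟨L, hL, h1⟩ := hx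
    obtain ⟨L', hL', h2⟩ := hy
    refine ⟨L ⊔ L', hsup L L' hL hL', fun σ hσ => ?_⟩
    rw [map_add, h1 σ fun a ha => hσ a ((le_sup_left : L ≤ L ⊔ L') ha),
      h2 σ fun a ha => hσ a ((le_sup_right : L' ≤ L ⊔ L') ha)]
  | neg x _ hx =>
    obtain ⟨L, hL, h1⟩ := hx
    exact ⟨L, hL, fun σ hσ => by rw [map_neg, h1 σ hσ]⟩
  | inv x _ hx =>
    obtain ⟨L, hL, h1⟩ := hx
    exact ⟨L, hL, fun σ hσ => by rw [map_inv₀, h1 σ hσ]⟩
  | mul x y _ _ hx hy =>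
    obtain ⟨L, hL, h1⟩ := hx
    obtain ⟨L', hL', h2⟩ := hy
    refine ⟨L ⊔ L', hsup L L' hL hL', fun σ hσ => ?_⟩
    rw [map_mul, h1 σ fun a ha => hσ a ((le_sup_left : L ≤ L ⊔ L') ha),
      h2 σ fun a ha => hσ a ((le_sup_right : L' ≤ L ⊔ L') ha)]

/-- the Galois action factors through a finite level -/
theorem exists_level_rhoF [Algebra.IsAlgebraic ℚ K] : ∃ L : IntermediateField ℚ K,
    FiniteDimensional ℚ L ∧ ∀ σ : K ≃ₐ[ℚ] K, (∀ a ∈ L, σ a = a) →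
      ∀ ξ : XL Γ m, rhoF ι m σ ξ = ξ := by
  classical
  have hfg : Module.Finite ℤ (XL Γ m) := by
    have : Function.Surjective (mkX : LZ Γ →+ XL Γ m).toIntLinearMap := mkX_surjective
    exact Module.Finite.of_surjective _ this
  obtain ⟨S, hS⟩ := hfg.fg_top
  have hex : ∀ ξ : XL Γ m, ∃ L : IntermediateField ℚ K, FiniteDimensional ℚ L ∧
      ∀ σ : K ≃ₐ[ℚ] K, (∀ a ∈ L, σ a = a) → rhoF ι m σ ξ = ξ := by
    intro ξ
    obtain ⟨x, hx, rfl⟩ := exists_cls_eq' (K := K) ι ξ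
    obtain ⟨L, hL, h⟩ := exists_level x
    exact ⟨L, hL, fun σ hσ => by rw [rhoF_cls ι σ hx, h σ hσ]⟩
  choose L hL h using hex
  refine ⟨⨆ ξ ∈ S, L ξ, ?_, fun σ hσ ξ => ?_⟩
  · have : ∀ T : Finset (XL Γ m), FiniteDimensional ℚ (⨆ ξ ∈ T, L ξ : IntermediateField ℚ K) := by
      intro T
      induction T using Finset.induction_on with
      | empty =>
        have h0 : (⨆ ξ ∈ (∅ : Finset (XL Γ m)), L ξ) = ⊥ := by simp
        rw [h0]; infer_instance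
      | insert a T ha ih =>
        rw [Finset.iSup_insert]
        have := hL a
        infer_instance
    exact this S
  · have h1 : ∀ ξ ∈ S, rhoF ι m σ ξ = ξ := fun ξ hξ =>
      h ξ σ fun a ha => hσ a (by
        have : L ξ ≤ ⨆ ξ ∈ S, L ξ := le_iSup₂_of_le ξ hξ le_rfl
        exact this ha)
    let r : XL Γ m →+ XL Γ m := AddMonoidHom.mk' (rhoF ι m σ) (rhoF_add ι σ)
    have h2 : r.toIntLinearMap = LinearMap.id := by
      apply LinearMap.ext_on hS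
      intro ξ hξ
      exact h1 ξ hξ
    exact LinearMap.congr_fun h2 ξ

end

end Fermat.Agent.KumG
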