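import Fermat.Agent.KumG.Embed
import Fermat.Agent.RR.LSpace

/-!
# The degree of the modular function field over `K(j)`
-/

set_option autoImplicit false
set_option linter.unusedSectionVars false
set_option linter.style.haveILetI false

open UpperHalfPlane ModularForm Complex Filter Topology Matrix.SpecialLinearGroup
open scoped MatrixGroups Manifold

namespace Fermat.Agent.KumG

open Fermat.Agent.MFLib Fermat.Agent.Kum Fermat.Agent.KumF ModularCurve Fermat.Agent.X0Genus
  Fermat.Agent.JFun Fermat.Agent.ModPoly IntermediateField Fermat.Agent.RR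

noncomputable section

local notation "Δ" => ModularForm.discriminant

variable {Γ : Subgroup SL(2, ℤ)} [LvlG Γ] {k l : ℤ} {f g : ℍ → ℂ}

/-! ### descent -/

section descent

variable {K : Type*} [Field K] (ι : K →+* ℂ) (E : IntermediateField K (LaurentSeries K))

lemma mapA_mem_of_adjoin' {y : LaurentSeries ℂ}
    (hy : y ∈ Algebra.adjoin ℂ (coeffMap ι '' (E : Set (LaurentSeries K)))) :
    ∀ (lam : ℂ →+ K) (_ : ∀ (a : K) (z : ℂ), lam (ι a * z) = a * lam z), mapA lam y ∈ E := by
  have h1 : (coeffMap ι '' (E : Set (LaurentSeries K))) =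
      ((E.toSubfield.map (coeffMap ι)).toSubring.toSubmonoid : Set (LaurentSeries ℂ)) := rfl
  rw [h1, ← Subalgebra.mem_toSubmodule, Algebra.adjoin_eq_span, Submonoid.closure_eq, ← h1] at hy
  induction hy using Submodule.span_induction with
  | mem y hy =>
    intro lam hlam
    obtain ⟨x, hx, rfl⟩ := hy
    have h2 := mapA_mul ι lam hlam x 1
    rw [mul_one] at h2
    rw [h2]
    refine mul_mem hx ?_
    have h3 : mapA lam 1 = algebraMap K (LaurentSeries K) (lam 1) := by
      rw [algebraMap_laurentSeries_eq_single]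
      ext n
      rw [mapA_coeff, HahnSeries.coeff_one, HahnSeries.coeff_single]
      split_ifs <;> simp
    rw [h3]
    exact E.algebraMap_mem _
  | zero => intro lam _; rw [mapA_zero]; exact zero_mem _
  | add a b _ _ ha hb => intro lam hlam; rw [mapA_add]; exact add_mem (ha lam hlam) (hb lam hlam)
  | smul c a _ ha =>
    intro lam hlam
    rw [Algebra.smul_def, algebraMap_laurentSeries_eq_single]
    have h2 : mapA lam (HahnSeries.single 0 c * a) =
        mapA (lam.comp (AddMonoidHom.mulLeft c)) a := by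
      ext n
      have h3 : HahnSeries.single 0 c * a = HahnSeries.C c * a := rfl
      rw [mapA_coeff, mapA_coeff, h3, HahnSeries.C_mul_eq_smul, HahnSeries.coeff_smul, smul_eq_mul]
      rfl
    rw [h2]
    apply ha
    intro x z
    change lam (c * (ι x * z)) = x * lam (c * z)
    rw [← hlam]
    congr 1
    ring

/-- descent of the field of constants -/
theorem mem_of_coeffMap_mem_adjoin {x : LaurentSeries K}
    (hx : coeffMap ι x ∈ IntermediateField.adjoin ℂ (coeffMap ι '' (E : Set (LaurentSeries K)))) :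
    x ∈ E := by
  rw [IntermediateField.mem_adjoin_iff_div] at hx
  obtain ⟨r, hr, s, hs, hrs⟩ := hx
  rcases eq_or_ne s 0 with h0 | h0
  · rw [h0, div_zero, map_eq_zero] at hrs
    rw [hrs]
    exact zero_mem _
  · have h2 : coeffMap ι x * s = r := by rw [hrs, div_mul_cancel₀ _ h0]
    obtain ⟨n, hn⟩ : ∃ n, s.coeff n ≠ 0 := by
      by_contra hcon
      push Not at hcon
      exact h0 (HahnSeries.ext (funext hcon))
    obtain ⟨lam, hlam, hl⟩ := exists_functional ι hn
    have h3 := mapA_mul ι lam hlam x s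
    rw [h2] at h3
    have h4 : mapA lam s ≠ 0 := by
      intro h
      apply hl
      have := congrArg (fun y => HahnSeries.coeff y n) h
      simpa using this
    have h5 : x = mapA lam r / mapA lam s := by
      rw [h3, mul_div_cancel_right₀ _ h4]
    rw [h5]
    exact div_mem (mapA_mem_of_adjoin' ι E hr lam hlam) (mapA_mem_of_adjoin' ι E hs lam hlam)

end descent

/-! ### level one -/

instance : LvlG (⊤ : Subgroup SL(2, ℤ)) :=
  ⟨Subgroup.mem_top _, Subgroup.mem_top _, inferInstance⟩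

theorem nrm_mem_adjoin_j {n : ℕ} (hf : IsMF ⊤ (12 * n) f) :
    nrm n f ∈ IntermediateField.adjoin ℂ {jqModC ℂ} := by
  have hD : ∀ z, Δ z ≠ 0 := discriminant_ne_zero
  have hmd : MDiff (fun z => f z / Δ z ^ n) := by
    have h1 : MDiff ((Δ : ℍ → ℂ) ^ n) := (isMF_disc.pow n).holo
    exact hf.holo.div h1 (fun z => pow_ne_zero _ (hD z))
  have hfun : (fun z => f z / Δ z ^ n * Δ z ^ n) = f := by
    funext z
    rw [div_mul_cancel₀ _ (pow_ne_zero _ (hD z))]
  obtain ⟨P, -, hdeg, hP⟩ := exists_poly_jfun ⊤ n (fun z => f z / Δ z ^ n) hmd (by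
      intro γ z
      have h1 := congrFun (hf.slash γ (Subgroup.mem_top _)) z
      have h2 := congrFun ((((isMF_disc.pow n).congr_weight (l := 12 * n) (by ring))).slash γ
        (Subgroup.mem_top _)) z
      rw [SL_slash_apply] at h1 h2
      have hd : denom γ z ^ (-(12 * n : ℤ)) ≠ 0 := zpow_ne_zero _ (denom_ne_zero _ _)
      simp only [Pi.pow_apply] at h2
      change f (γ • z) / Δ (γ • z) ^ n = f z / Δ z ^ n
      rw [← h1, ← h2, mul_div_mul_right _ _ hd]) (by
      rw [hfun]
      exact hf.toHB.bdd_self) (by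
      rw [hfun, mem_psIn]
      exact fun _ => trivial)
  -- compare `q`-expansions
  have hE4 : QG ((⇑E₄ : ℍ → ℂ) ^ 3) := isMF_E4_cube.qg_top
  have h1 : f = ∑ i ∈ Finset.range (n + 1), P.coeff i • (((⇑E₄ : ℍ → ℂ) ^ 3) ^ i * Δ ^ (n - i)) := by
    funext z
    have h2 : f z / Δ z ^ n = P.eval (jfun z) := hP z
    rw [div_eq_iff (pow_ne_zero _ (hD z)), Polynomial.eval_eq_sum_range' (Nat.lt_succ_of_le hdeg)]
      at h2
    rw [h2, Finset.sum_mul, Finset.sum_apply]
    refine Finset.sum_congr rfl fun i hi => ?_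
    have hi' : i ≤ n := Nat.lt_succ_iff.1 (Finset.mem_range.1 hi)
    simp only [Pi.smul_apply, Pi.mul_apply, Pi.pow_apply, smul_eq_mul]
    have h3 : Δ z ^ n = Δ z ^ i * Δ z ^ (n - i) := by rw [← pow_add, Nat.add_sub_cancel' hi']
    rw [h3, jfun, div_pow]
    have := hD z
    field_simp
  have hq : ∀ i, QG (((⇑E₄ : ℍ → ℂ) ^ 3) ^ i * Δ ^ (n - i)) := fun i =>
    (hE4.pow i).mul (qg_disc.pow _)
  rw [h1, nrm_sum _ _ _ fun i _ => (hq i).smul _]
  refine sum_mem fun i hi => ?_
  have hi' : i ≤ n := Nat.lt_succ_iff.1 (Finset.mem_range.1 hi)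
  have h4 : nrm n (P.coeff i • (((⇑E₄ : ℍ → ℂ) ^ 3) ^ i * Δ ^ (n - i))) =
      HahnSeries.C (P.coeff i) * jqModC ℂ ^ i := by
    have hj := (repF_j (Γ := ⊤)).eq
    rw [nrm, ql_smul _ (hq i), ql_mul (hE4.pow i) (qg_disc.pow _), ql_pow hE4, ql_pow qg_disc,
      ← hj, mul_pow]
    have hD0 := qlD_ne
    have h5 : ql (Δ : ℍ → ℂ) ^ n = ql Δ ^ i * ql Δ ^ (n - i) := by
      rw [← pow_add, Nat.add_sub_cancel' hi']
    rw [inv_pow, h5]
    field_simp
  rw [h4]
  refine mul_mem ?_ (pow_mem (IntermediateField.mem_adjoin_simple_self ℂ _) i)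
  have := IntermediateField.algebraMap_mem (IntermediateField.adjoin ℂ {jqModC ℂ}) (P.coeff i)
  rwa [algebraMap_laurentSeries_eq_single] at this

/-! ### generators over `K` -/

section K

variable {K : Type*} [Field K] [Algebra ℚ K] (ι : K →+* ℂ)

/-- level one functions with coefficients in `K` -/
theorem mem_adjoin_j_of_coeffMap {x : LaurentSeries K} (E : IntermediateField K (LaurentSeries K))
    (hE : jqModC K ∈ E) {n : ℕ} (hf : IsMF ⊤ (12 * n) f) (h : coeffMap ι x = nrm n f) : x ∈ E := by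
  apply mem_of_coeffMap_mem_adjoin ι
  rw [h]
  have h1 : IntermediateField.adjoin ℂ {jqModC ℂ} ≤
      IntermediateField.adjoin ℂ (coeffMap ι '' (E : Set (LaurentSeries K))) := by
    rw [IntermediateField.adjoin_simple_le_iff]
    apply IntermediateField.subset_adjoin
    exact ⟨jqModC K, hE, coeffMap_jqModC ι⟩
  exact h1 (nrm_mem_adjoin_j hf)

variable [RatG Γ]

include ι in
variable (Γ K) in
/-- a generator of the modular function field: an element of degree at most the index -/
theorem exists_generator : ∃ t : FG Γ K,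
    (∀ E : IntermediateField K (LaurentSeries K), jqModC K ∈ E → t.1 ∈ E → FG Γ K ≤ E) ∧
    ∃ P : Polynomial K⟮jj Γ K⟯, P.Monic ∧ P.natDegree = idx Γ ∧ Polynomial.aeval t P = 0 := by
  obtain ⟨w, θ, hθ, hr, hinj⟩ := exists_gen (Γ := Γ)
  obtain ⟨F, hF, hF'⟩ := nrm_rat hθ hr
  have hT : ModularGroup.T ∈ Γ := LvlG.T_mem
  have hθq : QG θ := hθ.qgG
  have ht : coeffMap ι (coeffEmb K F) = nrm w θ := by rw [coeffMap_coeffEmb, hF']
  refine ⟨⟨coeffEmb K F, coeffEmb_mem_laurentBaseChange K hF⟩, ?_, ?_⟩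
  · intro E hj htE x hx
    apply mem_of_coeffMap_mem_adjoin ι
    have hj' : IntermediateField.adjoin ℂ {jqModC ℂ} ≤
        IntermediateField.adjoin ℂ (coeffMap ι '' (E : Set (LaurentSeries K))) := by
      rw [IntermediateField.adjoin_simple_le_iff]
      apply IntermediateField.subset_adjoin
      exact ⟨jqModC K, hj, coeffMap_jqModC ι⟩
    refine MFunG_le_of_gen (T := (IntermediateField.adjoin ℂ
      (coeffMap ι '' (E : Set (LaurentSeries K)))).toSubfield) ?_ ?_ hθ hr hinj ?_
      (coeffMap_mem_MFunG ι hx)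
    · intro c
      have := IntermediateField.algebraMap_mem (IntermediateField.adjoin ℂ
        (coeffMap ι '' (E : Set (LaurentSeries K)))) c
      rwa [algebraMap_laurentSeries_eq_single] at this
    · intro n f hf _
      exact hj' (nrm_mem_adjoin_j hf)
    · exact IntermediateField.subset_adjoin _ _ ⟨_, htE, ht⟩
  · -- the coefficients
    have hc : ∀ i : ℕ, ∃ c : K⟮jj Γ K⟯, i < idx Γ →
        coeffMap ι ((c : FG Γ K) : LaurentSeries K) = nrm ((idx Γ - i) * w) (cpf Γ (12 * w) θ i) := by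
      intro i
      by_cases hi : i < idx Γ
      · have h1 : IsMF ⊤ (12 * ((idx Γ - i) * w : ℕ)) (cpf Γ (12 * w) θ i) :=
          (isMF_cpf hθ i).congr_weight (by push_cast; ring)
        obtain ⟨Fi, hFi, hFi'⟩ := nrm_rat (Γ := Γ) (h1.mono le_top)
          (isRat_cpf hθ hT hinj hr hi.le)
        have h2 : coeffEmb K Fi ∈ (K⟮jj Γ K⟯).map (FG Γ K).val := by
          refine mem_adjoin_j_of_coeffMap ι _ ?_ h1 (by rw [coeffMap_coeffEmb, hFi'])
          exact ⟨jj Γ K, IntermediateField.mem_adjoin_simple_self K _, rfl⟩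
        obtain ⟨c, hc, hc'⟩ := h2
        refine ⟨⟨c, hc⟩, fun _ => ?_⟩
        have h3 : (c : LaurentSeries K) = coeffEmb K Fi := hc'
        change coeffMap ι (c : LaurentSeries K) = _
        rw [h3, coeffMap_coeffEmb, hFi']
      · exact ⟨0, fun h => absurd h hi⟩
    choose c hc using hc
    let Q : Polynomial K⟮jj Γ K⟯ := ∑ i ∈ Finset.range (idx Γ), Polynomial.C (c i) * Polynomial.X ^ i
    have hQ : Q.degree < (idx Γ : ℕ) := by
      refine (Polynomial.degree_sum_le _ _).trans_lt ?_
      rw [Finset.sup_lt_iff (by exact_mod_cast WithBot.bot_lt_coe _)]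
      intro i hi
      exact (Polynomial.degree_C_mul_X_pow_le _ _).trans_lt
        (by exact_mod_cast Finset.mem_range.1 hi)
    refine ⟨Polynomial.X ^ (idx Γ) + Q, Polynomial.monic_X_pow_add hQ, ?_, ?_⟩
    · apply Polynomial.natDegree_eq_of_degree_eq_some
      rw [Polynomial.degree_add_eq_left_of_degree_lt (by rwa [Polynomial.degree_X_pow]),
        Polynomial.degree_X_pow]
    · apply Subtype.ext
      apply (coeffMap ι).injective
      have h1 : coeffMap ι ((Polynomial.aeval
          (⟨coeffEmb K F, coeffEmb_mem_laurentBaseChange K hF⟩ : FG Γ K)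
          (Polynomial.X ^ (idx Γ) + Q) : FG Γ K) : LaurentSeries K) =
          nrm w θ ^ idx Γ + ∑ i ∈ Finset.range (idx Γ),
            nrm ((idx Γ - i) * w) (cpf Γ (12 * w) θ i) * nrm w θ ^ i := by
        let A : FG Γ K →+* LaurentSeries ℂ :=
          (coeffMap ι).comp (algebraMap (FG Γ K) (LaurentSeries K))
        change A _ = _
        have hA : A ⟨coeffEmb K F, coeffEmb_mem_laurentBaseChange K hF⟩ = nrm w θ := ht
        rw [Polynomial.aeval_def, Polynomial.hom_eval₂, hA, Polynomial.eval₂_add,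
          Polynomial.eval₂_X_pow, Polynomial.eval₂_finsetSum]
        congr 1
        refine Finset.sum_congr rfl fun i hi => ?_
        rw [Polynomial.eval₂_mul, Polynomial.eval₂_C, Polynomial.eval₂_X_pow,
          ← hc i (Finset.mem_range.1 hi)]
        rfl
      rw [h1]
      have hpow : ∀ j : ℕ, nrm (j * w) (θ ^ j) = nrm w θ ^ j := by
        intro j
        rw [nrm, nrm, ql_pow hθq, mul_pow, ← pow_mul, mul_comm w j]
      have h2 : ∀ i ∈ Finset.range (idx Γ + 1), QG (cpf Γ (12 * w) θ i * θ ^ i) := fun i _ =>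
        (isMF_cpf hθ i).qg_top.mul (hθq.pow i)
      have h3 : nrm (idx Γ * w) (∑ i ∈ Finset.range (idx Γ + 1), cpf Γ (12 * w) θ i * θ ^ i) = 0 := by
        rw [charpoly_identity hθ, nrm, ql_zero, zero_mul]
      rw [nrm_sum _ _ _ h2, Finset.sum_range_succ, cpf_idx, one_mul, hpow] at h3
      have h4 : ∀ i ∈ Finset.range (idx Γ), nrm (idx Γ * w) (cpf Γ (12 * w) θ i * θ ^ i) =
          nrm ((idx Γ - i) * w) (cpf Γ (12 * w) θ i) * nrm w θ ^ i := by
        intro i hi
        have hi' := Finset.mem_range.1 hi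
        have he : idx Γ * w = (idx Γ - i) * w + i * w := by
          rw [← add_mul, Nat.sub_add_cancel hi'.le]
        rw [he, nrm_mul (isMF_cpf hθ i).qg_top (hθq.pow i), hpow]
      rw [Finset.sum_congr rfl h4, add_comm] at h3
      rw [h3]
      exact (map_zero _).symm

instance instAlgJ : Algebra K K⟮jj Γ K⟯ := (K⟮jj Γ K⟯).algebra'

instance instTowerJ : IsScalarTower K K⟮jj Γ K⟯ (FG Γ K) :=
  IntermediateField.isScalarTower_mid' (K⟮jj Γ K⟯)

theorem adjoin_eq_top {t : FG Γ K}
    (ht : ∀ E : IntermediateField K (LaurentSeries K), jqModC K ∈ E → t.1 ∈ E → FG Γ K ≤ E) :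
    IntermediateField.adjoin K⟮jj Γ K⟯ {t} = ⊤ := by
  rw [eq_top_iff]
  intro x _
  let E : IntermediateField K (LaurentSeries K) :=
    ((IntermediateField.adjoin K⟮jj Γ K⟯ {t}).restrictScalars K).map (FG Γ K).val
  have h1 : FG Γ K ≤ E := by
    apply ht
    · refine ⟨jj Γ K, ?_, rfl⟩
      exact (IntermediateField.adjoin K⟮jj Γ K⟯ {t}).algebraMap_mem
        ⟨jj Γ K, IntermediateField.mem_adjoin_simple_self K _⟩
    · exact ⟨t, IntermediateField.mem_adjoin_simple_self _ t, rfl⟩
  obtain ⟨y, hy, hyx⟩ := h1 x.2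
  have : y = x := Subtype.ext hyx
  rw [← this]
  exact hy

include ι in
variable (Γ K) in
theorem finite_and_le : FiniteDimensional K⟮jj Γ K⟯ (FG Γ K) ∧
    Module.finrank K⟮jj Γ K⟯ (FG Γ K) ≤ idx Γ := by
  obtain ⟨t, ht, P, hP, hd, hPt⟩ := exists_generator Γ K ι
  have htop := adjoin_eq_top ht
  have hint : IsIntegral K⟮jj Γ K⟯ t := ⟨P, hP, hPt⟩
  have h1 := IntermediateField.adjoin.finiteDimensional hint
  have h2 := IntermediateField.adjoin.finrank hint
  have e : (IntermediateField.adjoin K⟮jj Γ K⟯ {t}) ≃ₗ[K⟮jj Γ K⟯] FG Γ K :=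
    ((IntermediateField.equivOfEq htop).trans
      (IntermediateField.topEquiv (F := K⟮jj Γ K⟯) (E := FG Γ K))).toLinearEquiv
  refine ⟨Module.Finite.equiv e, ?_⟩
  rw [← e.finrank_eq, h2, ← hd]
  exact Polynomial.natDegree_le_of_dvd (minpoly.dvd _ _ hPt) hP.ne_zero

end K

end

end Fermat.Agent.KumG
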