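import Fermat.Agent.KumG.Full

/-!
# The embeddings of the modular function field in the field of meromorphic quotients
-/

set_option autoImplicit false
set_option linter.unusedSectionVars false
set_option linter.style.haveILetI false

open UpperHalfPlane ModularForm Complex Filter Topology Matrix.SpecialLinearGroup
open scoped MatrixGroups Manifold

namespace Fermat.Agent.KumG

open Fermat.Agent.MFLib Fermat.Agent.Kum Fermat.Agent.KumF ModularCurve Fermat.Agent.X0Genus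
  Fermat.Agent.JFun Fermat.Agent.ModPoly

noncomputable section

local notation "Δ" => ModularForm.discriminant

variable {Γ : Subgroup SL(2, ℤ)} [LvlG Γ] {k l : ℤ} {f g : ℍ → ℂ}

theorem mem_range_inclC {x : LaurentSeries ℂ} (hx : x ∈ MFunG Γ) : x ∈ inclC.fieldRange := by
  obtain ⟨k, f, g, h⟩ := hx
  have h1 : ∀ {f : ℍ → ℂ}, IsMF Γ k f → ql f ∈ inclC.fieldRange := by
    intro f hf
    refine inclC.mem_fieldRange.2 ⟨algebraMap ConvL _ hf.qgG.qw.cv, ?_⟩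
    rw [inclC_algebraMap]
    exact qlw_one
  have hg0 : ql g ≠ 0 := by rw [ne_eq, ql_eq_zero h.mg.qgG]; exact h.g0
  have h2 : x = ql f / ql g := by rw [eq_div_iff hg0, h.eq]
  rw [h2]
  exact div_mem (h1 h.mf) (h1 h.mg)

variable (Γ) in
/-- the modular functions as meromorphic functions -/
def toMF : MFunG Γ →+* MF :=
  ((evM 1).comp invC.toRingHom).comp
    ((Subfield.subtype (MFunG Γ)).codRestrict inclC.fieldRange (fun x => mem_range_inclC x.2))

theorem toMF_rep {x : MFunG Γ} (h : RepF Γ x.1 k f g) :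
    toMF Γ x * algebraMap hol MF ⟨g, h.mg.holo⟩ = algebraMap hol MF ⟨f, h.mf.holo⟩ := by
  obtain ⟨z, hz⟩ := inclC.mem_fieldRange.1 (mem_range_inclC x.2)
  have h1 : toMF Γ x = evM 1 z := by
    have h1 : (⟨x.1, mem_range_inclC x.2⟩ : inclC.fieldRange) =
        ⟨inclC z, inclC.mem_fieldRange.2 ⟨_, rfl⟩⟩ := Subtype.ext hz.symm
    change evM 1 (invC ⟨x.1, mem_range_inclC x.2⟩) = _
    rw [h1, invC_inclC]
  have h2 : z * algebraMap ConvL _ h.mg.qgG.qw.cv = algebraMap ConvL _ h.mf.qgG.qw.cv := by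
    apply inclC.injective
    rw [map_mul, inclC_algebraMap, inclC_algebraMap, hz]
    change x.1 * qlw 1 g = qlw 1 f
    rw [qlw_one, qlw_one, h.eq]
  have h3 := congrArg (evM 1) h2
  rw [map_mul, evM_algebraMap, evM_algebraMap, QW.evPh_cv, QW.evPh_cv, ← h1] at h3
  exact h3

section K

variable {K : Type*} [Field K] [Algebra ℚ K] (ι : K →+* ℂ)

/-- inclusion in the field of modular functions over `ℂ` -/
def inclM : FG Γ K →+* MFunG Γ :=
  ((coeffMap ι).comp (algebraMap (FG Γ K) (LaurentSeries K))).codRestrict (MFunG Γ)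
    fun x => coeffMap_mem_MFunG ι x.2

theorem coe_inclM (x : FG Γ K) : ((inclM ι x : MFunG Γ) : LaurentSeries ℂ) = coeffMap ι x.1 := rfl

/-- `x` is represented by the quotient `f / g`. -/
abbrev RepK (x : FG Γ K) (k : ℤ) (f g : ℍ → ℂ) : Prop := RepF Γ (coeffMap ι x.1) k f g

variable {ι}

theorem exists_RepK (x : FG Γ K) : ∃ k f g, RepK ι x k f g := coeffMap_mem_MFunG ι x.2

theorem coeffMap_ne_zero {x : FG Γ K} (hx : x ≠ 0) : coeffMap ι x.1 ≠ 0 := by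
  rw [ne_eq, map_eq_zero]
  intro h0
  exact hx (Subtype.ext h0)

variable (ι)

/-- The base embedding of the modular function field into `MF`. -/
def phi0 : FG Γ K →+* MF := (toMF Γ).comp (inclM ι)

/-- The embedding attached to `g`. -/
def phiM (g : SL(2, ℤ)) : FG Γ K →+* MF := (act g).comp (phi0 ι)

variable {ι}

theorem phi0_rep {x : FG Γ K} (h : RepK ι x k f g) :
    phi0 ι x * algebraMap hol MF ⟨g, h.mg.holo⟩ = algebraMap hol MF ⟨f, h.mf.holo⟩ :=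
  toMF_rep (x := inclM ι x) h

theorem phiM_rep {x : FG Γ K} (h : RepK ι x k f g) (γ : SL(2, ℤ)) :
    phiM ι γ⁻¹ x * algebraMap hol MF ⟨g ∣[k] γ, holo_slash h.mg.holo k γ⟩ =
      algebraMap hol MF ⟨f ∣[k] γ, holo_slash h.mf.holo k γ⟩ := by
  apply pull_rep h.mf.holo h.mg.holo
  rw [phiM, RingHom.comp_apply]
  have h1 := congrArg (act γ⁻¹) (phi0_rep h)
  rw [map_mul, act_algebraMap, act_algebraMap, inv_inv] at h1
  exact h1

theorem hol_ne_zero {g : ℍ → ℂ} (hg : MDiff g) (hg0 : g ≠ 0) :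
    algebraMap hol MF ⟨g, hg⟩ ≠ 0 := by
  rw [ne_eq, map_eq_zero_iff _ algebraMap_injective_MF]
  intro h
  exact hg0 (congrArg Subtype.val h)

variable (ι)

theorem phi0_const (a : K) :
    phi0 ι (algebraMap K (FG Γ K) a) = algebraMap hol MF (constH (ι a)) := by
  have h0 : coeffMap ι (algebraMap K (FG Γ K) a).1 = HahnSeries.C (ι a) := by
    change coeffMap ι (algebraMap K (LaurentSeries K) a) = _
    rw [algebraMap_laurentSeries_eq_single, coeffMap_single]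
    rfl
  have h1 : RepK ι (algebraMap K (FG Γ K) a) 0 (ι a • 1) 1 := by
    rw [RepK, h0]
    exact RepF.const _
  have h2 := phi0_rep h1
  have e1 : (⟨(1 : ℍ → ℂ), h1.mg.holo⟩ : hol) = 1 := rfl
  have e2 : (⟨ι a • (1 : ℍ → ℂ), h1.mf.holo⟩ : hol) = constH (ι a) := by
    apply Subtype.ext
    funext τ
    simp [constH]
  rw [e1, e2, map_one, mul_one] at h2
  exact h2

theorem phiM_const (g : SL(2, ℤ)) (a : K) :
    phiM ι g (algebraMap K (FG Γ K) a) = algebraMap hol MF (constH (ι a)) := by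
  rw [phiM, RingHom.comp_apply, phi0_const, act_algebraMap, pull_constH]

/-! ### the element `j` -/

theorem repF_j : RepF Γ (jqModC ℂ) 12 ((⇑E₄ : ℍ → ℂ) ^ 3) Δ where
  mf := isMF_E4_cube.mono le_top
  mg := isMF_disc.mono le_top
  g0 := disc_ne_zero
  eq := by
    have h1 : ql Δ = deltaC ℂ := GenusRR.qL_disc
    have h2 : ql ((⇑E₄ : ℍ → ℂ) ^ 3) = eisC ℂ ^ 3 := by
      rw [ql_pow qg_E4]
      exact congrArg (· ^ 3) GenusRR.qL_E4
    rw [h1, h2, jqModC_mul_delta]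

theorem j_mem_FQG : jqModC ℚ ∈ FQG Γ := by
  rw [mem_FQG, coeffMap_jqModC]
  exact ⟨_, _, _, repF_j⟩

theorem j_mem : jqModC K ∈ FG Γ K := by
  have := coeffEmb_mem_laurentBaseChange K (j_mem_FQG (Γ := Γ))
  rwa [coeffEmb, coeffMap_jqModC] at this

variable (Γ K) in
/-- The element `j` of the modular function field. -/
def jj : FG Γ K := ⟨jqModC K, j_mem⟩

theorem coe_jj : ((jj Γ K : FG Γ K) : LaurentSeries K) = jqModC K := rfl

theorem repK_jj : RepK ι (jj Γ K) 12 ((⇑E₄ : ℍ → ℂ) ^ 3) Δ := by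
  rw [RepK, coe_jj, coeffMap_jqModC]
  exact repF_j

theorem phiM_jj (g : SL(2, ℤ)) : phiM ι g (jj Γ K) = algebraMap hol MF jH := by
  have h1 := phiM_rep (repK_jj (Γ := Γ) (K := K) ι) g⁻¹
  rw [inv_inv] at h1
  have e1 : (⟨(Δ : ℍ → ℂ) ∣[(12 : ℤ)] g⁻¹, holo_slash isMF_disc.holo 12 g⁻¹⟩ : hol) =
      ⟨Δ, isMF_disc.holo⟩ := Subtype.ext (isMF_disc.slash _ (Subgroup.mem_top _))
  have e2 : (⟨((⇑E₄ : ℍ → ℂ) ^ 3) ∣[(12 : ℤ)] g⁻¹, holo_slash isMF_E4_cube.holo 12 g⁻¹⟩ : hol) =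
      ⟨_, isMF_E4_cube.holo⟩ := Subtype.ext (isMF_E4_cube.slash _ (Subgroup.mem_top _))
  rw [e1, e2] at h1
  have h2 : algebraMap hol MF jH * algebraMap hol MF ⟨Δ, isMF_disc.holo⟩ =
      algebraMap hol MF ⟨(⇑E₄ : ℍ → ℂ) ^ 3, isMF_E4_cube.holo⟩ := by
    rw [← map_mul]
    congr 1
    apply Subtype.ext
    funext τ
    change jfun τ * Δ τ = E₄ τ ^ 3
    rw [jfun, div_mul_cancel₀ _ (discriminant_ne_zero τ)]
  exact mul_right_cancel₀ (hol_ne_zero isMF_disc.holo disc_ne_zero) (h1.trans h2.symm)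

/-! ### the embeddings indexed by cosets -/

theorem phiM_mul (g h : SL(2, ℤ)) (x : FG Γ K) : phiM ι (g * h) x = act g (phiM ι h x) := by
  rw [phiM, phiM, act_mul]
  rfl

theorem phiM_of_mem {δ : SL(2, ℤ)} (hδ : δ ∈ Γ) : (phiM ι δ : FG Γ K →+* MF) = phi0 ι := by
  apply RingHom.ext
  intro x
  obtain ⟨k, f, g, h⟩ := exists_RepK (ι := ι) x
  have h1 := phiM_rep h δ⁻¹
  have hδ' := inv_mem hδ
  rw [inv_inv] at h1
  have e1 : (⟨g ∣[k] δ⁻¹, holo_slash h.mg.holo k δ⁻¹⟩ : hol) = ⟨g, h.mg.holo⟩ :=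
    Subtype.ext (h.mg.slash _ hδ')
  have e2 : (⟨f ∣[k] δ⁻¹, holo_slash h.mf.holo k δ⁻¹⟩ : hol) = ⟨f, h.mf.holo⟩ :=
    Subtype.ext (h.mf.slash _ hδ')
  rw [e1, e2, ← phi0_rep h] at h1
  exact mul_right_cancel₀ (hol_ne_zero h.mg.holo h.g0) h1

theorem phiM_mul_of_mem (g : SL(2, ℤ)) {δ : SL(2, ℤ)} (hδ : δ ∈ Γ) :
    (phiM ι (g * δ) : FG Γ K →+* MF) = phiM ι g := by
  apply RingHom.ext
  intro x
  rw [phiM_mul, phiM_of_mem ι hδ]
  rfl

variable [RatG Γ]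

theorem mem_of_phiM_eq {δ : SL(2, ℤ)} (h : (phiM ι δ : FG Γ K →+* MF) = phi0 ι) : δ ∈ Γ := by
  obtain ⟨w, θ, hθ, hr, hinj⟩ := exists_gen (Γ := Γ)
  obtain ⟨F, hF, hF'⟩ := nrm_rat hθ hr
  let x : FG Γ K := ⟨coeffEmb K F, coeffEmb_mem_laurentBaseChange K hF⟩
  have hx : RepK ι x (12 * w) θ (Δ ^ w) := by
    have h1 : coeffMap ι x.1 = nrm w θ := by
      rw [← hF']
      exact coeffMap_coeffEmb ι F
    rw [RepK, h1]
    exact ⟨hθ, isMF_disc_pow w, pow_ne_zero'' isMF_disc.holo disc_ne_zero w, by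
      rw [nrm, ql_pow qg_disc, inv_pow, inv_mul_cancel_right₀ (pow_ne_zero _ qlD_ne)]⟩
  have h1 := phiM_rep hx δ⁻¹
  rw [inv_inv, h] at h1
  have e1 : (⟨(Δ ^ w : ℍ → ℂ) ∣[(12 * w : ℤ)] δ⁻¹, holo_slash hx.mg.holo _ δ⁻¹⟩ : hol) =
      ⟨Δ ^ w, hx.mg.holo⟩ := Subtype.ext
    (((isMF_disc.pow w).congr_weight (l := 12 * w) (by ring)).slash _ (Subgroup.mem_top _))
  rw [e1, phi0_rep hx] at h1
  have h2 : θ = θ ∣[(12 * w : ℤ)] δ⁻¹ := congrArg Subtype.val (algebraMap_injective_MF h1)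
  have h3 : conj Γ (12 * w) θ ((1 : SL(2, ℤ)) : SL(2, ℤ) ⧸ Γ) =
      conj Γ (12 * w) θ ((δ : SL(2, ℤ)) : SL(2, ℤ) ⧸ Γ) := by
    rw [conj_one hθ, conj_mk hθ]
    exact h2
  have h4 := hinj h3
  rw [QuotientGroup.eq] at h4
  simpa using h4

theorem phiM_eq_iff (g g' : SL(2, ℤ)) :
    (phiM ι g : FG Γ K →+* MF) = phiM ι g' ↔
      (QuotientGroup.mk g : SL(2, ℤ) ⧸ Γ) = QuotientGroup.mk g' := by
  rw [QuotientGroup.eq]
  constructor
  · intro h
    have h1 : (phiM ι (g'⁻¹ * g) : FG Γ K →+* MF) = phi0 ι := by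
      apply RingHom.ext
      intro x
      rw [phiM_mul, h, ← phiM_mul, inv_mul_cancel, phiM_of_mem ι (one_mem _)]
    have h2 := mem_of_phiM_eq ι h1
    have h3 := inv_mem h2
    rwa [mul_inv_rev, inv_inv] at h3
  · intro h
    have h1 := phiM_mul_of_mem (K := K) ι g h
    rw [mul_inv_cancel_left] at h1
    exact h1.symm

/-- The embedding attached to a coset. -/
def phiX (x : SL(2, ℤ) ⧸ Γ) : FG Γ K →+* MF := phiM ι (Quotient.out x)

theorem phiX_mk (g : SL(2, ℤ)) :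
    (phiX ι (QuotientGroup.mk g : SL(2, ℤ) ⧸ Γ) : FG Γ K →+* MF) = phiM ι g := by
  rw [phiX, phiM_eq_iff]
  exact QuotientGroup.out_eq' _

theorem phiX_injective : Function.Injective (phiX ι : SL(2, ℤ) ⧸ Γ → FG Γ K →+* MF) := by
  intro x y h
  rw [phiX, phiX, phiM_eq_iff] at h
  have h1 : (QuotientGroup.mk (Quotient.out x) : SL(2, ℤ) ⧸ Γ) = x := QuotientGroup.out_eq' _
  have h2 : (QuotientGroup.mk (Quotient.out y) : SL(2, ℤ) ⧸ Γ) = y := QuotientGroup.out_eq' _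
  rw [h1, h2] at h
  exact h

theorem act_comp_phiX (g : SL(2, ℤ)) (x : SL(2, ℤ) ⧸ Γ) :
    (act g).comp (phiX ι x : FG Γ K →+* MF) = phiX ι (g • x) := by
  induction x using QuotientGroup.induction_on with
  | H h =>
    have : g • (QuotientGroup.mk h : SL(2, ℤ) ⧸ Γ) = QuotientGroup.mk (g * h) := rfl
    rw [phiX_mk, this, phiX_mk]
    apply RingHom.ext
    intro x
    rw [phiM_mul]
    rfl

theorem phiX_rep {x : FG Γ K} (h : RepK ι x k f g) (γ : SL(2, ℤ)) :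
    phiX ι (QuotientGroup.mk γ⁻¹ : SL(2, ℤ) ⧸ Γ) x *
      algebraMap hol MF ⟨g ∣[k] γ, holo_slash h.mg.holo k γ⟩ =
      algebraMap hol MF ⟨f ∣[k] γ, holo_slash h.mf.holo k γ⟩ := by
  rw [phiX_mk]
  exact phiM_rep h γ

end K

end

end Fermat.Agent.KumG
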