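import Fermat.Agent.KumG.Gen
import Fermat.Agent.KumF.Full

/-!
# The field of modular functions over `ℂ` is defined over `ℚ`; descent of the field of constants
-/

set_option autoImplicit false
set_option linter.unusedSectionVars false

open UpperHalfPlane ModularForm Complex Filter Topology Matrix.SpecialLinearGroup
open scoped MatrixGroups Manifold
open Finset

namespace Fermat.Agent.KumG

open Fermat.Agent.MFLib Fermat.Agent.Kum Fermat.Agent.KumF ModularCurve

noncomputable section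

local notation "Δ" => ModularForm.discriminant

variable {Γ : Subgroup SL(2, ℤ)} [LvlG Γ] {k l : ℤ} {f g : ℍ → ℂ}

/-- the modular function `f / Δ^n` -/
def nrm (n : ℕ) (f : ℍ → ℂ) : LaurentSeries ℂ := ql f * (ql Δ)⁻¹ ^ n

theorem qlD_ne : ql (Δ : ℍ → ℂ) ≠ 0 := by
  rw [ne_eq, ql_eq_zero qg_disc]
  exact disc_ne_zero

theorem nrm_mul {m n : ℕ} (hf : QG f) (hg : QG g) : nrm (m + n) (f * g) = nrm m f * nrm n g := by
  rw [nrm, nrm, nrm, ql_mul hf hg, pow_add]
  ring

theorem ql_sum {ι : Type*} (s : Finset ι) (F : ι → ℍ → ℂ) (hF : ∀ i ∈ s, QG (F i)) :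
    ql (∑ i ∈ s, F i) = ∑ i ∈ s, ql (F i) := by
  classical
  induction s using Finset.induction_on with
  | empty => simp [ql_zero]
  | insert i s hi ih =>
    rw [Finset.sum_insert hi, Finset.sum_insert hi, ql_add (hF i (Finset.mem_insert_self _ _))
      (QG.sum fun j hj => hF j (Finset.mem_insert_of_mem hj)),
      ih fun j hj => hF j (Finset.mem_insert_of_mem hj)]

theorem nrm_sum {ι : Type*} (n : ℕ) (s : Finset ι) (F : ι → ℍ → ℂ) (hF : ∀ i ∈ s, QG (F i)) :
    nrm n (∑ i ∈ s, F i) = ∑ i ∈ s, nrm n (F i) := by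
  rw [nrm, ql_sum s F hF, Finset.sum_mul]
  rfl

theorem isMF_disc_pow (n : ℕ) : IsMF Γ (12 * n) (Δ ^ n) :=
  ((isMF_disc.mono le_top).pow n).congr_weight (by ring)

/-- rational power series -/
theorem exists_ratPS {p : PowerSeries ℂ} (h : IsRat p) :
    ∃ F : PowerSeries ℚ, F.map (algebraMap ℚ ℂ) = p := by
  choose r hr using h
  refine ⟨PowerSeries.mk r, ?_⟩
  ext n
  rw [PowerSeries.coeff_map, PowerSeries.coeff_mk, hr]
  rfl

theorem exists_ratLS (h : IsRat (qe f)) :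
    ∃ F : LaurentSeries ℚ, coeffMap (algebraMap ℚ ℂ) F = ql f := by
  obtain ⟨F, hF⟩ := exists_ratPS h
  exact ⟨HahnSeries.ofPowerSeries ℤ ℚ F, by rw [coeffMap_ofPowerSeries, hF]; rfl⟩

/-- rational forms give rational functions -/
theorem nrm_rat {n : ℕ} (hf : IsMF Γ (12 * n) f) (hr : IsRat (qe f)) :
    ∃ F : LaurentSeries ℚ, F ∈ FQG Γ ∧ coeffMap (algebraMap ℚ ℂ) F = nrm n f := by
  obtain ⟨F, hF⟩ := exists_ratLS hr
  obtain ⟨D, hD⟩ := exists_ratLS isRat_qe_disc
  have h1 : coeffMap (algebraMap ℚ ℂ) (F * D⁻¹ ^ n) = nrm n f := by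
    rw [map_mul, map_pow, map_inv₀, hF, hD, nrm]
  refine ⟨F * D⁻¹ ^ n, ?_, h1⟩
  rw [mem_FQG, h1]
  refine ⟨12 * n, f, Δ ^ n, hf, isMF_disc_pow n, ?_, ?_⟩
  · exact pow_ne_zero'' isMF_disc.holo disc_ne_zero n
  · rw [nrm, ql_pow qg_disc, inv_pow, inv_mul_cancel_right₀ (pow_ne_zero _ qlD_ne)]

theorem nrm_mem_of_rat {n : ℕ} (hf : IsMF Γ (12 * n) f) (hr : IsRat (qe f)) :
    nrm n f ∈ FG Γ ℂ := by
  obtain ⟨F, hF, h⟩ := nrm_rat hf hr
  rw [← h]
  exact coeffEmb_mem_laurentBaseChange ℂ hF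

theorem C_mem (c : ℂ) : HahnSeries.C c ∈ FG Γ ℂ := by
  have := IntermediateField.algebraMap_mem (FG Γ ℂ) c
  rwa [algebraMap_laurentSeries_eq_single] at this

section generation

variable {T : Subfield (LaurentSeries ℂ)} (hC : ∀ c : ℂ, HahnSeries.C c ∈ T)
  (hL : ∀ (n : ℕ) (f : ℍ → ℂ), IsMF ⊤ (12 * n) f → IsRat (qe f) → nrm n f ∈ T)

include hC hL

omit [LvlG Γ] in
/-- level one forms -/
theorem nrm_mem_levelOne : ∀ (k : ℤ) (f : ℍ → ℂ), IsMF ⊤ k f → ∀ n : ℕ, k = 12 * n →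
    nrm n f ∈ T := by
  apply levelOne_induction
  · intro k n _
    rw [nrm, ql_zero, zero_mul]
    exact zero_mem _
  · intro c n hn
    have hn0 : n = 0 := by omega
    subst hn0
    have h1 : Function.const ℍ c = c • (1 : ℍ → ℂ) := by ext z; simp
    rw [nrm, h1, ql_smul c QG.one, ql_one, pow_zero, mul_one, mul_one]
    exact hC c
  · intro k hk hk2 c g hg ih n hn
    have hE := isMF_E hk
    obtain ⟨n, rfl⟩ : ∃ n' : ℕ, n = n' + 1 := ⟨n - 1, by omega⟩
    have h1 : nrm (n + 1) (c • ⇑(E hk) + Δ * g) =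
        HahnSeries.C c * nrm (n + 1) (E hk) + nrm n g := by
      rw [nrm, ql_add (hE.qg_top.smul c) (qg_disc.mul hg.qg_top), ql_smul c hE.qg_top,
        ql_mul qg_disc hg.qg_top, nrm, nrm, pow_succ]
      have := qlD_ne
      field_simp
    rw [h1]
    refine add_mem (mul_mem (hC c) (hL _ _ ?_ (isRat_qe_E hk hk2))) (ih n ?_)
    · exact hE.congr_weight (by rw [hn])
    · push_cast at hn ⊢
      omega

omit [LvlG Γ] in
theorem nrm_mem_top {n : ℕ} (hf : IsMF ⊤ (12 * n) f) : nrm n f ∈ T :=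
  nrm_mem_levelOne hC hL _ f hf n rfl

variable {w : ℕ} {x : ℍ → ℂ} (hx : IsMF Γ (12 * w) x) (hr : IsRat (qe x))
  (hinj : Function.Injective (conj Γ (12 * w) x)) (hxT : nrm w x ∈ T)

include hx hr hinj hxT

/-- a form of weight `12 n` divided by `Δ^n` -/
theorem nrm_mem_of_gen {n : ℕ} (hf : IsMF Γ (12 * n) f) : nrm n f ∈ T := by
  have hT : ModularGroup.T ∈ Γ := LvlG.T_mem
  have hxq : QG x := hx.qgG
  have hD := isMF_diffl hx
  have hpow : ∀ j : ℕ, nrm (j * w) (x ^ j) = nrm w x ^ j := by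
    intro j
    rw [nrm, nrm, ql_pow hxq, mul_pow, ← pow_mul, mul_comm w j]
  have h1 : nrm (n + (idx Γ - 1) * w) (f * diffl Γ (12 * w) x) ∈ T := by
    have htr : ∀ m : ℕ, IsMF ⊤ (12 * n + m * (12 * w)) (tr Γ (12 * n + m * (12 * w)) (f * x ^ m)) :=
      fun m => isMF_tr (hf.mul (hx.pow m))
    rw [lagrange_form hf hx]
    have hq1 : ∀ j i : ℕ, QG (cpf Γ (12 * w) x i *
        tr Γ (12 * n + ((i - (j + 1) : ℕ) : ℤ) * (12 * w)) (f * x ^ (i - (j + 1)))) :=
      fun j i => (isMF_cpf hx i).qg_top.mul (htr _).qg_top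
    have hq2 : ∀ j : ℕ, QG (∑ i ∈ Icc (j + 1) (idx Γ), cpf Γ (12 * w) x i *
        tr Γ (12 * n + ((i - (j + 1) : ℕ) : ℤ) * (12 * w)) (f * x ^ (i - (j + 1)))) :=
      fun j => QG.sum fun i _ => hq1 j i
    rw [nrm_sum _ _ _ fun j _ => (hxq.pow j).mul (hq2 j)]
    refine sum_mem fun j hj => ?_
    have hj' := Finset.mem_range.1 hj
    have he1 : n + (idx Γ - 1) * w = j * w + (n + (idx Γ - 1 - j) * w) := by
      have : (idx Γ - 1) = j + (idx Γ - 1 - j) := by omega
      conv_lhs => rw [this]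
      ring
    rw [he1, nrm_mul (hxq.pow j) (hq2 j)]
    refine mul_mem ?_ ?_
    · rw [hpow]
      exact pow_mem hxT j
    · rw [nrm_sum _ _ _ fun i _ => hq1 j i]
      refine sum_mem fun i hi => ?_
      rw [Finset.mem_Icc] at hi
      have he2 : n + (idx Γ - 1 - j) * w = (idx Γ - i) * w + (n + (i - (j + 1)) * w) := by
        have : (idx Γ - 1 - j) = (idx Γ - i) + (i - (j + 1)) := by omega
        rw [this]
        ring
      rw [he2, nrm_mul (isMF_cpf hx i).qg_top (htr _).qg_top]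
      refine mul_mem (nrm_mem_top hC hL ((isMF_cpf hx i).congr_weight (by push_cast; ring)))
        (nrm_mem_top hC hL ((htr _).congr_weight (by push_cast; ring)))
  have h2 : nrm ((idx Γ - 1) * w) (diffl Γ (12 * w) x) ∈ T := by
    rw [diffl_eq hx, nrm_sum _ _ _ fun i _ => ((isMF_cpf hx i).qg_top.mul (hxq.pow _)).smul _]
    refine sum_mem fun i hi => ?_
    rcases Nat.eq_zero_or_pos i with rfl | hi0
    · rw [Nat.cast_zero, zero_smul, nrm, ql_zero, zero_mul]
      exact zero_mem _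
    · have hi' := Finset.mem_range.1 hi
      have he : (idx Γ - 1) * w = (idx Γ - i) * w + (i - 1) * w := by
        have : idx Γ - 1 = (idx Γ - i) + (i - 1) := by omega
        rw [this]; ring
      have h3 : nrm ((idx Γ - 1) * w) ((i : ℂ) • (cpf Γ (12 * w) x i * x ^ (i - 1))) =
          HahnSeries.C (i : ℂ) * (nrm ((idx Γ - i) * w) (cpf Γ (12 * w) x i) *
            nrm w x ^ (i - 1)) := by
        rw [← hpow, ← nrm_mul (isMF_cpf hx i).qg_top (hxq.pow _), ← he, nrm, nrm,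
          ql_smul _ ((isMF_cpf hx i).qg_top.mul (hxq.pow _)), mul_assoc]
      rw [h3]
      refine mul_mem (hC _) (mul_mem ?_ (pow_mem hxT _))
      exact hL _ _ ((isMF_cpf hx i).congr_weight (by push_cast; ring))
        (isRat_cpf hx hT hinj hr (by omega))
  rw [nrm_mul hf.qgG hD.qgG] at h1
  have h3 : nrm ((idx Γ - 1) * w) (diffl Γ (12 * w) x) ≠ 0 := by
    rw [nrm]
    refine mul_ne_zero ?_ (pow_ne_zero _ (inv_ne_zero qlD_ne))
    rw [ne_eq, ql_eq_zero hD.qgG]
    exact diffl_ne_zero hx hinj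
  have h4 := div_mem h1 h2
  rwa [mul_div_cancel_right₀ _ h3] at h4

/-- generation of the field of modular functions -/
theorem MFunG_le_of_gen {y : LaurentSeries ℂ} (hy : y ∈ MFunG Γ) : y ∈ T := by
  obtain ⟨k, f, g, h⟩ := hy
  -- reduce to nonnegative weight
  obtain ⟨n, f', g', h'⟩ : ∃ (n : ℕ) (f' g' : ℍ → ℂ), RepF Γ y n f' g' := by
    have h1 : RepF Γ 1 (12 * (-k).toNat) (Δ ^ (-k).toNat) (Δ ^ (-k).toNat) :=
      { mf := isMF_disc_pow _
        mg := isMF_disc_pow _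
        g0 := pow_ne_zero'' isMF_disc.holo disc_ne_zero _
        eq := one_mul _ }
    have h2 := h.mul h1
    rw [mul_one] at h2
    have h3 : k + 12 * ((-k).toNat : ℕ) = ((k + 12 * ((-k).toNat : ℕ)).toNat : ℕ) := by
      omega
    rw [h3] at h2
    exact ⟨_, _, _, h2⟩
  have hq := h'.mg.qgG
  have hfq := h'.mf.qgG
  have e1 : IsMF Γ (12 * n) (f' * g' ^ 11) :=
    (h'.mf.mul (h'.mg.pow 11)).congr_weight (by push_cast; ring)
  have e2 : IsMF Γ (12 * n) (g' ^ 12) := (h'.mg.pow 12).congr_weight (by push_cast; ring)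
  have hg0 : ql g' ≠ 0 := by rw [ne_eq, ql_eq_zero hq]; exact h'.g0
  have hD := qlD_ne
  have h3 : y = nrm n (f' * g' ^ 11) / nrm n (g' ^ 12) := by
    rw [nrm, nrm, ql_mul hfq (hq.pow 11), ql_pow hq, ql_pow hq, ← h'.eq, eq_div_iff
      (mul_ne_zero (pow_ne_zero _ hg0) (pow_ne_zero _ (inv_ne_zero hD)))]
    ring
  rw [h3]
  exact div_mem (nrm_mem_of_gen hC hL hx hr hinj hxT e1)
    (nrm_mem_of_gen hC hL hx hr hinj hxT e2)

end generation

/-- **(R1)** -/
theorem MFunG_le [RatG Γ] {x : LaurentSeries ℂ} (hx : x ∈ MFunG Γ) : x ∈ FG Γ ℂ := by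
  obtain ⟨w, θ, hθ, hr, hinj⟩ := exists_gen (Γ := Γ)
  exact MFunG_le_of_gen (T := (FG Γ ℂ).toSubfield) C_mem
    (fun n f hf hfr => nrm_mem_of_rat (hf.mono le_top) hfr) hθ hr hinj (nrm_mem_of_rat hθ hr) hx

section descent

variable {K : Type*} [Field K] [Algebra ℚ K] (ι : K →+* ℂ)

theorem coeffMap_coeffEmb (z : LaurentSeries ℚ) :
    coeffMap ι (coeffEmb K z) = coeffMap (algebraMap ℚ ℂ) z := by
  rw [coeffEmb, coeffMap_coeffMap]
  congr 2
  exact Subsingleton.elim _ _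

theorem FG_le (S : Subfield (LaurentSeries K))
    (hK : ∀ a : K, algebraMap K (LaurentSeries K) a ∈ S)
    (hj : ∀ z ∈ FQG Γ, coeffEmb K z ∈ S) : ∀ x ∈ FG Γ K, x ∈ S := by
  intro x hx
  rw [mem_laurentBaseChange_iff] at hx
  refine (Subfield.closure_le (t := S)).2 ?_ hx
  rintro y (⟨a, rfl⟩ | ⟨z, hz, rfl⟩)
  · exact hK a
  · exact hj z hz

theorem coeffMap_mem_MFunG {x : LaurentSeries K} (hx : x ∈ FG Γ K) : coeffMap ι x ∈ MFunG Γ := by
  refine FG_le ((MFunG Γ).comap (coeffMap ι)) ?_ ?_ x hx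
  · intro a
    change coeffMap ι _ ∈ MFunG Γ
    rw [algebraMap_laurentSeries_eq_single, coeffMap_single]
    exact const_mem_MFunG _
  · intro z hz
    change coeffMap ι _ ∈ MFunG Γ
    rw [coeffMap_coeffEmb]
    exact hz

theorem const_mem (a : K) : algebraMap K (LaurentSeries K) a ∈ FG Γ K :=
  IntermediateField.algebraMap_mem _ a

/-- coefficientwise functionals map the `ℂ`-algebra spanned by the functions over `K` to
the functions over `K` -/
lemma mapA_mem_of_adjoin {y : LaurentSeries ℂ}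
    (hy : y ∈ Algebra.adjoin ℂ (coeffMap ι '' (FG Γ K : Set (LaurentSeries K)))) :
    ∀ (lam : ℂ →+ K) (_ : ∀ (a : K) (z : ℂ), lam (ι a * z) = a * lam z), mapA lam y ∈ FG Γ K := by
  have h1 : (coeffMap ι '' (FG Γ K : Set (LaurentSeries K))) =
      (((FG Γ K).toSubfield.map (coeffMap ι)).toSubring.toSubmonoid : Set (LaurentSeries ℂ)) := rfl
  rw [h1, ← Subalgebra.mem_toSubmodule, Algebra.adjoin_eq_span, Submonoid.closure_eq, ← h1] at hy
  induction hy using Submodule.span_induction with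
  | mem y hy =>
    intro lam hlam
    obtain ⟨x, hx, rfl⟩ := hy
    have h2 := mapA_mul ι lam hlam x 1
    rw [mul_one] at h2
    rw [h2]
    refine mul_mem hx ?_
    have h3 : mapA lam 1 = algebraMap K (LaurentSeries K) (lam 1) := by
      rw [algebraMap_laurentSeries_eq_single]
      ext n
      rw [mapA_coeff, HahnSeries.coeff_one, HahnSeries.coeff_single]
      split_ifs <;> simp
    rw [h3]
    exact const_mem _
  | zero => intro lam _; rw [mapA_zero]; exact zero_mem _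
  | add a b _ _ ha hb => intro lam hlam; rw [mapA_add]; exact add_mem (ha lam hlam) (hb lam hlam)
  | smul c a _ ha =>
    intro lam hlam
    rw [Algebra.smul_def, algebraMap_laurentSeries_eq_single]
    have h2 : mapA lam (HahnSeries.single 0 c * a) =
        mapA (lam.comp (AddMonoidHom.mulLeft c)) a := by
      ext n
      have h3 : HahnSeries.single 0 c * a = HahnSeries.C c * a := rfl
      rw [mapA_coeff, mapA_coeff, h3, HahnSeries.C_mul_eq_smul, HahnSeries.coeff_smul, smul_eq_mul]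
      rfl
    rw [h2]
    apply ha
    intro x z
    change lam (c * (ι x * z)) = x * lam (c * z)
    rw [← hlam]
    congr 1
    ring

theorem FG_le_adjoin {y : LaurentSeries ℂ} (hy : y ∈ FG Γ ℂ) :
    y ∈ IntermediateField.adjoin ℂ (coeffMap ι '' (FG Γ K : Set (LaurentSeries K))) := by
  refine FG_le (K := ℂ)
    (IntermediateField.adjoin ℂ (coeffMap ι '' (FG Γ K : Set (LaurentSeries K)))).toSubfield
    ?_ ?_ y hy
  · intro a
    exact IntermediateField.algebraMap_mem _ a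
  · intro z hz
    apply IntermediateField.subset_adjoin
    exact ⟨coeffEmb K z, coeffEmb_mem_laurentBaseChange K hz, coeffMap_coeffEmb ι z⟩

/-- descent of the field of constants -/
theorem mem_FG_of_coeffMap_mem {x : LaurentSeries K} (hx : coeffMap ι x ∈ FG Γ ℂ) :
    x ∈ FG Γ K := by
  have h1 := FG_le_adjoin ι hx
  rw [IntermediateField.mem_adjoin_iff_div] at h1
  obtain ⟨r, hr, s, hs, hrs⟩ := h1
  rcases eq_or_ne s 0 with h0 | h0
  · rw [h0, div_zero, map_eq_zero] at hrs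
    rw [hrs]
    exact zero_mem _
  · have h2 : coeffMap ι x * s = r := by rw [hrs, div_mul_cancel₀ _ h0]
    obtain ⟨n, hn⟩ : ∃ n, s.coeff n ≠ 0 := by
      by_contra hcon
      push Not at hcon
      exact h0 (HahnSeries.ext (funext hcon))
    obtain ⟨lam, hlam, hl⟩ := exists_functional ι hn
    have h3 := mapA_mul ι lam hlam x s
    rw [h2] at h3
    have h4 : mapA lam s ≠ 0 := by
      intro h
      apply hl
      have := congrArg (fun y => HahnSeries.coeff y n) h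
      simpa using this
    have h5 : x = mapA lam r / mapA lam s := by
      rw [h3, mul_div_cancel_right₀ _ h4]
    rw [h5]
    exact div_mem (mapA_mem_of_adjoin ι hr lam hlam) (mapA_mem_of_adjoin ι hs lam hlam)

variable [RatG Γ]

theorem mem_FG_of_mem_MFunG {x : LaurentSeries K} (hx : coeffMap ι x ∈ MFunG Γ) :
    x ∈ FG Γ K := mem_FG_of_coeffMap_mem ι (MFunG_le hx)

theorem coeffMap_mem_MFunG_iff {x : LaurentSeries K} :
    coeffMap ι x ∈ MFunG Γ ↔ x ∈ FG Γ K :=
  ⟨mem_FG_of_mem_MFunG ι, fun h => coeffMap_mem_MFunG ι h⟩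

theorem mem_MFunG_iff {x : LaurentSeries ℂ} : x ∈ MFunG Γ ↔ x ∈ FG Γ ℂ := by
  refine ⟨MFunG_le, fun h => ?_⟩
  have := coeffMap_mem_MFunG (RingHom.id ℂ) h
  rwa [coeffMap_id'] at this

theorem exists_FG_of_mem_MFunG {x : LaurentSeries ℂ} (hx : x ∈ MFunG Γ)
    (h : ∀ n, x.coeff n ∈ ι.range) : ∃ y : FG Γ K, coeffMap ι (y : LaurentSeries K) = x := by
  obtain ⟨y, rfl⟩ := exists_coeffMap_eq ι h
  exact ⟨⟨y, mem_FG_of_mem_MFunG ι hx⟩, rfl⟩

/-- Galois conjugates of modular functions -/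
theorem aut_mem_MFunG (σ : ℂ ≃ₐ[ℚ] ℂ) {x : LaurentSeries ℂ} (hx : x ∈ MFunG Γ) :
    coeffMap (σ : ℂ →+* ℂ) x ∈ MFunG Γ := by
  rw [mem_MFunG_iff] at hx ⊢
  exact coeffMap_mem_laurentBaseChange σ hx

end descent

end

end Fermat.Agent.KumG
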