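import Fermat.Agent.KumG.Root

/-!
# A rational form generating the field of modular functions
-/

set_option autoImplicit false
set_option linter.unusedSectionVars false

open UpperHalfPlane ModularForm Complex Filter Topology Matrix.SpecialLinearGroup
open scoped MatrixGroups Manifold

namespace Fermat.Agent.KumG

open Fermat.Agent.MFLib Fermat.Agent.Kum

noncomputable section

local notation "Δ" => ModularForm.discriminant

variable {Γ : Subgroup SL(2, ℤ)} [LvlG Γ] {k l : ℤ} {f g : ℍ → ℂ}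

theorem even_weight (hf : IsMF Γ k f) (hf0 : f ≠ 0) : Even k := by
  have h := neg_one_pow_weight hf hf0
  by_contra h1
  rw [Int.not_even_iff_odd] at h1
  rw [h1.neg_one_zpow] at h
  norm_num at h

theorem E_ne_zero {n : ℕ} (hn : 3 ≤ n) (hn2 : Even n) : (⇑(E hn) : ℍ → ℂ) ≠ 0 := by
  intro h
  have h1 := EisensteinSeries.E_qExpansion_coeff_zero hn hn2
  have h2 : qExpansion 1 (⇑(E hn)) = 0 := by rw [h, qExpansion_zero]
  rw [h2] at h1
  simp at h1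

theorem smul_eq' (c : ℚ) (f : ℍ → ℂ) : c • f = (c : ℂ) • f := by
  funext τ
  simp [Rat.smul_def]

theorem isMF_slash (hf : IsMF Γ k f) {γ : SL(2, ℤ)} (hγ : ∀ δ ∈ Γ, γ * δ * γ⁻¹ ∈ Γ) :
    IsMF Γ k (f ∣[k] γ) where
  toHB := hf.toHB.slash γ
  slash δ hδ := by
    rw [← SlashAction.slash_mul]
    have h1 : γ * δ = (γ * δ * γ⁻¹) * γ := by group
    rw [h1, SlashAction.slash_mul, hf.slash _ (hγ δ hδ)]

variable (Γ) in
/-- forms of weight `k` with rational translates -/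
def ratForms (G : Subgroup SL(2, ℤ)) (hG : ∀ γ ∈ G, ∀ δ ∈ Γ, γ * δ * γ⁻¹ ∈ Γ) (k : ℤ) :
    Submodule ℚ (ℍ → ℂ) where
  carrier := {f | IsMF Γ k f ∧ ∀ δ ∈ G, IsRat (qe (f ∣[k] δ))}
  add_mem' {f g} hf hg := ⟨hf.1.add hg.1, fun δ hδ => by
    rw [SlashAction.add_slash, (isMF_slash hf.1 (hG δ hδ)).qgG.qe_add
      (isMF_slash hg.1 (hG δ hδ)).qgG]
    exact (hf.2 δ hδ).add (hg.2 δ hδ)⟩
  zero_mem' := ⟨IsMF.zero, fun δ _ => by
    have : qe (0 : ℍ → ℂ) = 0 := qExpansion_zero 1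
    rw [SlashAction.zero_slash, this]; exact IsRat.zero⟩
  smul_mem' c f hf := by
    rw [smul_eq']
    refine ⟨hf.1.smul _, fun δ hδ => ?_⟩
    rw [SL_smul_slash, (isMF_slash hf.1 (hG δ hδ)).qgG.qe_smul]
    exact (hf.2 δ hδ).smul c

variable {G : Subgroup SL(2, ℤ)} (hG : ∀ γ ∈ G, ∀ δ ∈ Γ, γ * δ * γ⁻¹ ∈ Γ)

/-- the forms fixed by the change from one conjugate to another -/
def eqForms (k : ℤ) (p q : SL(2, ℤ) ⧸ Γ) : Subspace ℚ (ratForms Γ G hG k) where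
  carrier := {f | conj Γ k f.1 p = conj Γ k f.1 q}
  add_mem' {f g} hf hg := by
    change ((f : ℍ → ℂ) + g) ∣[k] _ = ((f : ℍ → ℂ) + g) ∣[k] _
    change (f : ℍ → ℂ) ∣[k] _ = (f : ℍ → ℂ) ∣[k] _ at hf
    change (g : ℍ → ℂ) ∣[k] _ = (g : ℍ → ℂ) ∣[k] _ at hg
    rw [SlashAction.add_slash, SlashAction.add_slash, hf, hg]
  zero_mem' := by
    change (0 : ℍ → ℂ) ∣[k] _ = (0 : ℍ → ℂ) ∣[k] _
    rw [SlashAction.zero_slash, SlashAction.zero_slash]
  smul_mem' c f hf := by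
    change (c • (f : ℍ → ℂ)) ∣[k] _ = (c • (f : ℍ → ℂ)) ∣[k] _
    change (f : ℍ → ℂ) ∣[k] _ = (f : ℍ → ℂ) ∣[k] _ at hf
    rw [smul_eq', SL_smul_slash, SL_smul_slash, hf]

omit [LvlG Γ] in
theorem slash_congr {γ δ : SL(2, ℤ)} (h : f ∣[k] γ = f ∣[k] δ) : f ∣[k] (γ * δ⁻¹) = f := by
  rw [SlashAction.slash_mul, h, ← SlashAction.slash_mul, mul_inv_cancel, SlashAction.slash_one]

/-- a rational form with distinct conjugates -/
theorem exists_genD (Γ G : Subgroup SL(2, ℤ)) [LvlG Γ] [DiaG Γ G] :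
    ∃ (w : ℕ) (x : ℍ → ℂ), IsMF Γ (12 * w) x ∧
      (∀ δ ∈ G, IsRat (qe (x ∣[(12 * w : ℤ)] δ))) ∧
      Function.Injective (conj Γ (12 * w) x) := by
  classical
  have h1 : ∀ p : (SL(2, ℤ) ⧸ Γ) × (SL(2, ℤ) ⧸ Γ), ∃ (k : ℤ) (f : ℍ → ℂ), IsMF Γ k f ∧
      (∀ δ ∈ G, IsRat (qe (f ∣[k] δ))) ∧ (p.1 ≠ p.2 → conj Γ k f p.1 ≠ conj Γ k f p.2) := by
    intro p
    by_cases h : p.1 = p.2
    · exact ⟨0, 0, IsMF.zero, fun δ _ => by
        have : qe (0 : ℍ → ℂ) = 0 := qExpansion_zero 1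
        rw [SlashAction.zero_slash, this]; exact IsRat.zero, fun h' => absurd h h'⟩
    · obtain ⟨k, f, hf, hr, hne⟩ := DiaG.sep (Γ := Γ) (G := G) ((p.1.out)⁻¹ * p.2.out) (by
        intro hmem
        apply h
        rw [← QuotientGroup.out_eq' p.1, ← QuotientGroup.out_eq' p.2]
        exact QuotientGroup.eq.2 hmem)
      refine ⟨k, f, hf, hr, fun _ h2 => hne ?_⟩
      have := slash_congr (k := k) (f := f) h2
      rwa [inv_inv] at this
  choose wt F hF hFr hFne using h1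
  have hG : ∀ γ ∈ G, ∀ δ ∈ Γ, γ * δ * γ⁻¹ ∈ Γ := DiaG.norm
  let b : ℕ := ∑ p, (wt p).toNat
  let w : ℕ := b + 1
  have hw : ∀ p, wt p + 4 ≤ 12 * (w : ℤ) := by
    intro p
    have h2 : (wt p).toNat ≤ b := Finset.single_le_sum (f := fun p => (wt p).toNat)
      (fun i _ => Nat.zero_le _) (Finset.mem_univ p)
    have : (w : ℤ) = b + 1 := by simp [w]
    omega
  have h2 : ¬ (∃ p : {p : (SL(2, ℤ) ⧸ Γ) × (SL(2, ℤ) ⧸ Γ) // p.1 ≠ p.2},
      eqForms hG (12 * (w : ℤ)) p.1.1 p.1.2 = ⊤) := by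
    rintro ⟨⟨p, hp⟩, htop⟩
    have hF0 : F p ≠ 0 := by
      intro h0
      apply hFne p hp
      rw [h0]
      change (0 : ℍ → ℂ) ∣[wt p] _ = (0 : ℍ → ℂ) ∣[wt p] _
      rw [SlashAction.zero_slash, SlashAction.zero_slash]
    have hev := even_weight (hF p) hF0
    obtain ⟨n, hn⟩ := Int.eq_ofNat_of_zero_le (show 0 ≤ 12 * (w : ℤ) - wt p by
      have := hw p
      omega)
    have hn4 : 3 ≤ n := by
      have := hw p
      omega
    have hn2 : Even n := by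
      rw [← Int.even_coe_nat, ← hn]
      have h12 : Even (12 * (w : ℤ)) := ⟨6 * (w : ℤ), by ring⟩
      exact h12.sub hev
    have hE := isMF_E hn4
    have hwt : wt p + (n : ℤ) = 12 * (w : ℤ) := by omega
    have hFE : F p * ⇑(E hn4) ∈ ratForms Γ G hG (12 * (w : ℤ)) := by
      refine ⟨((hF p).mul (hE.mono le_top)).congr_weight hwt, fun δ hδ => ?_⟩
      rw [← hwt, mul_slash_SL2, hE.slash _ (Subgroup.mem_top _),
        (isMF_slash (hF p) (hG δ hδ)).qgG.qe_mul hE.qg_top]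
      exact (hFr p δ hδ).mul (isRat_qe_E hn4 hn2)
    have h3 : (⟨_, hFE⟩ : ratForms Γ G hG (12 * (w : ℤ))) ∈
        eqForms hG (12 * (w : ℤ)) p.1 p.2 := by rw [htop]; exact Submodule.mem_top
    change (F p * ⇑(E hn4)) ∣[(12 * (w : ℤ))] _ = (F p * ⇑(E hn4)) ∣[(12 * (w : ℤ))] _ at h3
    rw [← hwt, mul_slash_SL2, mul_slash_SL2, hE.slash _ (Subgroup.mem_top _),
      hE.slash _ (Subgroup.mem_top _)] at h3
    apply hFne p hp
    have h4 : (F p ∣[wt p] (p.1.out)⁻¹ - F p ∣[wt p] (p.2.out)⁻¹) * ⇑(E hn4) = 0 := by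
      rw [sub_mul, h3, sub_self]
    rcases (UpperHalfPlane.mul_eq_zero_iff ((holo_slash (hF p).holo _ _).sub
      (holo_slash (hF p).holo _ _)) hE.holo).mp h4 with h5 | h5
    · exact sub_eq_zero.1 h5
    · exact absurd h5 (E_ne_zero hn4 hn2)
  have h3 : (⋃ p : {p : (SL(2, ℤ) ⧸ Γ) × (SL(2, ℤ) ⧸ Γ) // p.1 ≠ p.2},
      (eqForms hG (12 * (w : ℤ)) p.1.1 p.1.2 : Set (ratForms Γ G hG (12 * (w : ℤ))))) ≠
        Set.univ := fun h => h2 (Subspace.exists_eq_top_of_iUnion_eq_univ h)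
  rw [Set.ne_univ_iff_exists_notMem] at h3
  obtain ⟨x, hx⟩ := h3
  refine ⟨w, x.1, x.2.1, x.2.2, fun p q h => ?_⟩
  by_contra hpq
  exact hx (Set.mem_iUnion.2 ⟨⟨(p, q), hpq⟩, h⟩)

theorem diaG_bot [RatG Γ] : DiaG Γ ⊥ where
  norm γ hγ δ hδ := by
    rw [Subgroup.mem_bot] at hγ
    rw [hγ]
    simpa using hδ
  sep γ hγ := by
    obtain ⟨k, f, hf, hr, h⟩ := RatG.sep γ hγ
    refine ⟨k, f, hf, fun δ hδ => ?_, h⟩
    rw [Subgroup.mem_bot] at hδ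
    rwa [hδ, SlashAction.slash_one]

theorem ratG_of_diaG {G : Subgroup SL(2, ℤ)} (h : DiaG Γ G) : RatG Γ where
  sep γ hγ := by
    obtain ⟨k, f, hf, hr, h⟩ := h.sep γ hγ
    refine ⟨k, f, hf, ?_, h⟩
    have := hr 1 (one_mem _)
    rwa [SlashAction.slash_one] at this

theorem exists_gen [RatG Γ] : ∃ (w : ℕ) (x : ℍ → ℂ), IsMF Γ (12 * w) x ∧ IsRat (qe x) ∧
    Function.Injective (conj Γ (12 * w) x) := by
  haveI := diaG_bot (Γ := Γ)
  obtain ⟨w, x, hx, hr, h⟩ := exists_genD Γ ⊥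
  refine ⟨w, x, hx, ?_, h⟩
  have := hr 1 (one_mem _)
  rwa [SlashAction.slash_one] at this

end

end Fermat.Agent.KumG
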