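import Fermat.Agent.KumG.Frob
import Fermat.Agent.GamH.Forms

/-!
# The Hecke algebra of level `Γ_H(N)` acting on integral parabolic homomorphisms
-/

set_option autoImplicit false
set_option linter.unusedSectionVars false
set_option linter.style.haveILetI false

open Matrix.SpecialLinearGroup
open scoped MatrixGroups
open Fermat.Agent.AL Fermat.Agent.ALCoh

namespace Fermat.Agent.KumG

noncomputable section

/-! ### Operators commuting with the Galois action -/

section galComm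

variable (Γ : Subgroup SL(2, ℤ)) [LvlG Γ] [RatG Γ]

variable {K : Type*} [Field K] [Algebra ℚ K] [IsAlgClosed K] [CharZero K] (ι : K →+* ℂ)

/-- the endomorphisms of the lattice commuting with the Galois action on all quotients -/
def galComm : Subalgebra ℤ (Module.End ℤ (LZ Γ)) where
  carrier := {T | ∀ (m : ℕ) [NeZero m] (σ : K ≃ₐ[ℚ] K) (ξ : XL Γ m),
    rhoF ι m σ (actE Γ m T ξ) = actE Γ m T (rhoF ι m σ ξ)}
  mul_mem' := by
    intro S T hS hT m _ σ ξ
    rw [map_mul]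
    change rhoF ι m σ (actE Γ m S (actE Γ m T ξ)) = actE Γ m S (actE Γ m T (rhoF ι m σ ξ))
    rw [hS, hT]
  add_mem' := by
    intro S T hS hT m _ σ ξ
    rw [map_add]
    change rhoF ι m σ (actE Γ m S ξ + actE Γ m T ξ) =
      actE Γ m S (rhoF ι m σ ξ) + actE Γ m T (rhoF ι m σ ξ)
    rw [rhoF_add, hS, hT]
  algebraMap_mem' := by
    intro n m _ σ ξ
    let r : XL Γ m →+ XL Γ m := AddMonoidHom.mk' (rhoF ι m σ) (rhoF_add ι σ)
    have hr : ∀ ξ, rhoF ι m σ ξ = r ξ := fun _ => rfl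
    have h2 : ∀ ξ : XL Γ m, actE Γ m (algebraMap ℤ (Module.End ℤ (LZ Γ)) n) ξ = n • ξ := by
      intro ξ
      have h1 : algebraMap ℤ (Module.End ℤ (LZ Γ)) n = (n : Module.End ℤ (LZ Γ)) := by simp
      rw [h1, map_intCast]
      rfl
    rw [h2, h2, hr, hr, map_zsmul]

variable {Γ}

theorem mem_galComm {T : Module.End ℤ (LZ Γ)} : T ∈ galComm Γ ι ↔
    ∀ (m : ℕ) [NeZero m] (σ : K ≃ₐ[ℚ] K) (ξ : XL Γ m),
      rhoF ι m σ (actE Γ m T ξ) = actE Γ m T (rhoF ι m σ ξ) := Iff.rfl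

end galComm

/-! ### The Hecke algebra -/

section

variable (N : ℕ) [NeZero N] (H : Subgroup (ZMod N)ˣ)

section inst

variable [hH : Fact ((-1 : (ZMod N)ˣ) ∈ H)]

instance instLvlGH : LvlG (GH N H) := lvlG_GH N H hH.out

instance instDiaGH : DiaG (GH N H) (CongruenceSubgroup.Gamma0 N) :=
  GamH.diaG_GH N H hH.out

end inst

variable [hH : Fact ((-1 : (ZMod N)ˣ) ∈ H)] {l l' : ℕ}

/-- the Hecke operator `T_ℓ` -/
def TH (hl : l.Prime) (hlN : ¬ l ∣ N) : Module.End ℤ (LZ (GH N H)) :=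
  opL (fam_rT H hl hlN (exists_adp hl hlN).choose_spec)

/-- the diamond operator `⟨d⟩` -/
def DH (d : (ZMod N)ˣ) : Module.End ℤ (LZ (GH N H)) :=
  opL (fam_diaH H (exists_dd_unit d).choose_spec.1)

variable {N H} {γ : SL(2, ℤ)}

theorem TH_eq (hl : l.Prime) (hlN : ¬ l ∣ N) (hγ : Adp N l γ) :
    TH N H hl hlN = opL (fam_rT H hl hlN hγ) :=
  opL_congr _ _ (fam_rT_op_eq H hl hlN (exists_adp hl hlN).choose_spec hγ)

theorem DH_eq {d : (ZMod N)ˣ} (hγ : γ ∈ GG N) (hd : dd N γ = d) :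
    DH N H d = opL (fam_diaH H hγ) := by
  refine opL_congr _ _ (fam_diaH_op_eq (exists_dd_unit d).choose_spec.1 hγ ?_)
  refine mul_inv_mem_GH (exists_dd_unit d).choose_spec.1 hγ (u := 1) (one_mem _) ?_
  rw [(exists_dd_unit d).choose_spec.2, hd, Units.val_one, one_mul]

theorem DH_mul (d e : (ZMod N)ˣ) : DH N H (d * e) = DH N H d * DH N H e := by
  obtain ⟨γ, hγ, hd⟩ := exists_dd_unit d
  obtain ⟨δ, hδ, he⟩ := exists_dd_unit e
  rw [DH_eq hγ hd, DH_eq hδ he, DH_eq (mul_mem hδ hγ) (d := d * e) (by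
    rw [dd_mul hδ hγ, hd, he, Units.val_mul, mul_comm])]
  refine LinearMap.ext fun φ => Subtype.ext ?_
  change (fam_diaH H (mul_mem hδ hγ)).op ℤ φ.1 = (fam_diaH H hγ).op ℤ ((fam_diaH H hδ).op ℤ φ.1)
  rw [fam_diaH_op_op hδ hγ]

theorem DH_of_mem {d : (ZMod N)ˣ} (hd : d ∈ H) : DH N H d = 1 := by
  obtain ⟨γ, hγ, h⟩ := exists_dd_unit d
  rw [DH_eq hγ h]
  refine LinearMap.ext fun φ => Subtype.ext ?_
  change (fam_diaH H hγ).op ℤ φ.1 = φ.1
  exact fam_diaH_op_of_mem hγ ⟨hγ, d, hd, h.symm⟩ φ.1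

theorem DH_one : DH N H 1 = 1 := DH_of_mem (one_mem H)

theorem TH_TH_comm (hl : l.Prime) (hlN : ¬ l ∣ N) (hl' : l'.Prime) (hlN' : ¬ l' ∣ N) :
    Commute (TH N H hl hlN) (TH N H hl' hlN') :=
  LinearMap.ext fun φ => Subtype.ext
    (rT_rT_comm hl hlN (exists_adp hl hlN).choose_spec hl' hlN'
      (exists_adp hl' hlN').choose_spec φ.1).symm

theorem DH_TH_comm (d : (ZMod N)ˣ) (hl : l.Prime) (hlN : ¬ l ∣ N) :
    Commute (DH N H d) (TH N H hl hlN) :=
  LinearMap.ext fun φ => Subtype.ext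
    (rT_dia_comm hl hlN (exists_adp hl hlN).choose_spec (exists_dd_unit d).choose_spec.1 φ.1)

theorem DH_DH_comm (d e : (ZMod N)ˣ) : Commute (DH N H d) (DH N H e) := by
  change DH N H d * DH N H e = DH N H e * DH N H d
  rw [← DH_mul, ← DH_mul, mul_comm]

variable (N H) (S : Set ℕ)

/-- the generators of the Hecke algebra -/
def genH : Set (Module.End ℤ (LZ (GH N H))) :=
  {T | ∃ (l : ℕ) (hl : l.Prime) (hlN : ¬ l ∣ N), l ∉ S ∧ T = TH N H hl hlN} ∪ Set.range (DH N H)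

/-- the Hecke algebra of level `Γ_H(N)`, generated by `T_ℓ`, `ℓ ∉ S`, and the diamonds -/
def heckeH : Subalgebra ℤ (Module.End ℤ (LZ (GH N H))) := Algebra.adjoin ℤ (genH N H S)

theorem commute_genH {T T' : Module.End ℤ (LZ (GH N H))} (hT : T ∈ genH N H S)
    (hT' : T' ∈ genH N H S) : Commute T T' := by
  rcases hT with ⟨l, hl, hlN, -, rfl⟩ | ⟨d, rfl⟩ <;>
    rcases hT' with ⟨l', hl', hlN', -, rfl⟩ | ⟨e, rfl⟩
  · exact TH_TH_comm hl hlN hl' hlN'
  · exact (DH_TH_comm e hl hlN).symm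
  · exact DH_TH_comm d hl' hlN'
  · exact DH_DH_comm d e

theorem heckeH_mul_comm (a b : heckeH N H S) : a * b = b * a := by
  have : IsMulCommutative (heckeH N H S) :=
    Algebra.isMulCommutative_adjoin ℤ fun _ hT _ hT' => commute_genH N H S hT hT'
  exact this.is_comm.comm a b

/-- the Hecke ring (sealed version of `heckeH`) -/
def TR : Type := ↥(heckeH N H S)

instance : CommRing (TR N H S) :=
  { (inferInstanceAs (Ring ↥(heckeH N H S)) : Ring (TR N H S)) with
    mul_comm := heckeH_mul_comm N H S }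

namespace TR

/-- the inclusion in the endomorphism ring of the lattice -/
def val : TR N H S →+* Module.End ℤ (LZ (GH N H)) := (heckeH N H S).val.toRingHom

variable {N H S}

theorem val_injective : Function.Injective (val N H S) := Subtype.coe_injective

theorem val_mem (a : TR N H S) : val N H S a ∈ heckeH N H S :=
  Subtype.property (p := fun x => x ∈ heckeH N H S) a

theorem exists_val_eq {T : Module.End ℤ (LZ (GH N H))} (hT : T ∈ heckeH N H S) :
    ∃ a, val N H S a = T := ⟨(⟨T, hT⟩ : ↥(heckeH N H S)), rfl⟩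

/-- the Hecke operator -/
def T (hl : l.Prime) (hlN : ¬ l ∣ N) (hlS : l ∉ S) : TR N H S :=
  (⟨TH N H hl hlN, Algebra.subset_adjoin (Or.inl ⟨l, hl, hlN, hlS, rfl⟩)⟩ : ↥(heckeH N H S))

theorem val_T (hl : l.Prime) (hlN : ¬ l ∣ N) (hlS : l ∉ S) :
    val N H S (T hl hlN hlS) = TH N H hl hlN := rfl

variable (N H S) in
/-- the diamond operators -/
def D : (ZMod N)ˣ →* TR N H S where
  toFun d := (⟨DH N H d, Algebra.subset_adjoin (Or.inr ⟨d, rfl⟩)⟩ : ↥(heckeH N H S))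
  map_one' := Subtype.ext DH_one
  map_mul' d e := Subtype.ext (DH_mul d e)

theorem val_D (d : (ZMod N)ˣ) : val N H S (D N H S d) = DH N H d := rfl

theorem D_of_mem {d : (ZMod N)ˣ} (hd : d ∈ H) : D N H S d = 1 :=
  Subtype.ext (DH_of_mem hd)

/-- induction principle -/
theorem induction {P : TR N H S → Prop}
    (hT : ∀ (l : ℕ) (hl : l.Prime) (hlN : ¬ l ∣ N) (hlS : l ∉ S), P (T hl hlN hlS))
    (hD : ∀ d, P (D N H S d)) (hint : ∀ n : ℤ, P n) (hadd : ∀ a b, P a → P b → P (a + b))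
    (hmul : ∀ a b, P a → P b → P (a * b)) (a : TR N H S) : P a := by
  obtain ⟨a, ha⟩ := a
  induction ha using Algebra.adjoin_induction with
  | mem x hx =>
    rcases hx with ⟨l, hl, hlN, hlS, rfl⟩ | ⟨d, rfl⟩
    · exact hT l hl hlN hlS
    · exact hD d
  | algebraMap n =>
    have h1 : (⟨algebraMap ℤ _ n, Subalgebra.algebraMap_mem _ n⟩ : ↥(heckeH N H S)) =
      ((n : ℤ) : TR N H S) := by
      apply val_injective
      rw [map_intCast]
      change algebraMap ℤ (Module.End ℤ (LZ (GH N H))) n = _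
      simp
    rw [h1]
    exact hint n
  | add x y hx hy ihx ihy => exact hadd _ _ ihx ihy
  | mul x y hx hy ihx ihy => exact hmul _ _ ihx ihy

/-- homomorphisms from the Hecke ring are determined by the generators -/
theorem hom_ext {B : Type*} [Ring B] {f g : TR N H S →+* B}
    (hT : ∀ (l : ℕ) (hl : l.Prime) (hlN : ¬ l ∣ N) (hlS : l ∉ S),
      f (T hl hlN hlS) = g (T hl hlN hlS))
    (hD : ∀ d, f (D N H S d) = g (D N H S d)) : f = g := by
  refine RingHom.ext fun a => ?_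
  induction a using TR.induction with
  | hT l hl hlN hlS => exact hT l hl hlN hlS
  | hD d => exact hD d
  | hint n => rw [map_intCast, map_intCast]
  | hadd a b ha hb => rw [map_add, map_add, ha, hb]
  | hmul a b ha hb => rw [map_mul, map_mul, ha, hb]

end TR

variable {N H S}

/-! ### commutation with Galois -/

variable {K : Type*} [Field K] [Algebra ℚ K] [IsAlgClosed K] [CharZero K] (ι : K →+* ℂ)

theorem TH_mem_galComm (hl : l.Prime) (hlN : ¬ l ∣ N) : TH N H hl hlN ∈ galComm (GH N H) ι := by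
  intro m _ σ ξ
  haveI : NeZero l := ⟨hl.ne_zero⟩
  exact rhoF_T ι hl (exists_adp hl hlN).choose_spec.mem _ σ ξ

theorem DH_mem_galComm (d : (ZMod N)ˣ) : DH N H d ∈ galComm (GH N H) ι := by
  intro m _ σ ξ
  exact rhoF_dia ι (exists_dd_unit d).choose_spec.1 σ ξ

variable (N H S) in
theorem heckeH_le_galComm : heckeH N H S ≤ galComm (GH N H) ι := by
  refine Algebra.adjoin_le ?_
  rintro T (⟨l, hl, hlN, -, rfl⟩ | ⟨d, rfl⟩)
  · exact TH_mem_galComm ι hl hlN
  · exact DH_mem_galComm ι d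

theorem TR.mem_galComm (a : TR N H S) : TR.val N H S a ∈ galComm (GH N H) ι :=
  heckeH_le_galComm N H S ι (TR.val_mem a)

variable {m : ℕ} [NeZero m] {A : ValuationSubring K}

/-- **The Eichler–Shimura relation.** -/
theorem rhoF_frobH (G : GoodRedG (GH N H) m A) (hl : l.Prime) (hlN : ¬ l ∣ N)
    {d : (ZMod N)ˣ} (hd : (d : ZMod N) = l) (hA : A.LiesOverPrime l) {σ : K ≃ₐ[ℚ] K}
    (hσ : A.IsFrobeniusAt σ l) (ξ : XL (GH N H) m) :
    rhoF ι m σ (rhoF ι m σ ξ) - actE (GH N H) m (TH N H hl hlN) (rhoF ι m σ ξ)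
      + l • actE (GH N H) m (DH N H d) ξ = 0 := by
  obtain ⟨γ, hγ⟩ := exists_adp hl hlN
  rw [TH_eq hl hlN hγ, DH_eq (d := d) hγ.mem (by rw [hγ.dd, hd])]
  exact rhoF_frob ι G hl hγ.mem (fam_rT H hl hlN hγ) hA hσ ξ

end

end

end Fermat.Agent.KumG
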