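import Fermat.Agent.KumG.Defs
import Fermat.Agent.ALCoh.Comm
import Fermat.Agent.ALCoh.Ident

/-!
# Hecke operators and diamond operators for `Γ_H(N)` on homomorphisms
-/

set_option autoImplicit false
set_option linter.unusedSectionVars false

open Matrix.SpecialLinearGroup
open scoped MatrixGroups
open Fermat.Agent.AL Fermat.Agent.ALCoh

namespace Fermat.Agent.KumG

noncomputable section

variable {N l l' : ℕ} {A : Type*} [AddCommGroup A]

/-- the correcting elements -/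
def aT (l : ℕ) (γ : SL(2, ℤ)) : Option (Fin l) → SL(2, ℤ)
  | none => γ
  | some _ => 1

/-- the representatives of `T_ℓ` at level `Γ_H(N)`; `γ` has lower right entry `ℓ` modulo `N` -/
def rT (l : ℕ) (γ : SL(2, ℤ)) (x : Option (Fin l)) : M2 := (aT l γ x : M2) * dl l x

lemma rT_none (γ : SL(2, ℤ)) : rT l γ none = (γ : M2) * dl l none := rfl

lemma rT_some (γ : SL(2, ℤ)) (j : Fin l) : rT l γ (some j) = dl l (some j) := by
  change ((1 : SL(2, ℤ)) : M2) * _ = _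
  rw [Matrix.SpecialLinearGroup.coe_one, Matrix.one_mul]

lemma det_rT (γ : SL(2, ℤ)) (x : Option (Fin l)) : (rT l γ x).det = l := by
  rw [rT, Matrix.det_mul, (aT l γ x).det_coe, one_mul, det_dl]

lemma det_rT_pos (hl : l.Prime) (γ : SL(2, ℤ)) (x : Option (Fin l)) : 0 < (rT l γ x).det := by
  rw [det_rT]; exact_mod_cast hl.pos

variable {γ γ' δ : SL(2, ℤ)}

/-- `B` has lower row `(0, e)` modulo `N` -/
structure Bot (N : ℕ) (e : ZMod N) (B : M2) : Prop where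
  c : (N : ℤ) ∣ B 1 0
  d : ((B 1 1 : ℤ) : ZMod N) = e

lemma Bot.mul {e e' : ZMod N} {B C : M2} (h : Bot N e B) (h' : Bot N e' C) :
    Bot N (e * e') (B * C) where
  c := by
    rw [Matrix.mul_apply, Fin.sum_univ_two]
    exact dvd_add (Dvd.dvd.mul_right h.c _) (Dvd.dvd.mul_left h'.c _)
  d := by
    rw [Matrix.mul_apply, Fin.sum_univ_two]
    push_cast
    rw [h.d, h'.d, (ZMod.intCast_zmod_eq_zero_iff_dvd _ _).2 h.c]
    ring

lemma bot_one : Bot N 1 (1 : M2) where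
  c := by simp
  d := by simp

/-- lower right entry -/
def dd (N : ℕ) (γ : SL(2, ℤ)) : ZMod N := ((γ 1 1 : ℤ) : ZMod N)

lemma bot_of_mem (h : γ ∈ GG N) : Bot N (dd N γ) (γ : M2) := ⟨dvd_of_mem h, rfl⟩

lemma isUnit_dd (h : γ ∈ GG N) : IsUnit (dd N γ) := by
  have h0 : ((γ 1 0 : ℤ) : ZMod N) = 0 := (ZMod.intCast_zmod_eq_zero_iff_dvd _ _).2 (dvd_of_mem h)
  have h2 := congrArg (Int.cast : ℤ → ZMod N) γ.det_coe
  rw [Matrix.det_fin_two] at h2
  push_cast at h2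
  rw [h0, mul_zero, sub_zero, mul_comm] at h2
  exact IsUnit.of_mul_eq_one _ h2

lemma dd_mul (h : γ ∈ GG N) (h' : δ ∈ GG N) : dd N (γ * δ) = dd N γ * dd N δ := by
  have h1 := ((bot_of_mem h).mul (bot_of_mem h')).d
  rw [← Matrix.SpecialLinearGroup.coe_mul] at h1
  exact h1

lemma dd_one : dd N 1 = 1 := by simp [dd]

lemma dd_inv_mul (h : γ ∈ GG N) : dd N γ⁻¹ * dd N γ = 1 := by
  rw [← dd_mul (inv_mem h) h, inv_mul_cancel, dd_one]

lemma bot_dl_none : Bot N 1 (dl l none) where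
  c := by simp
  d := by simp [dl]

lemma bot_dl_some (j : Fin l) : Bot N (l : ZMod N) (dl l (some j)) where
  c := by simp
  d := by simp [dl]

/-- the element `γ` is adapted to `ℓ` -/
structure Adp (N l : ℕ) (γ : SL(2, ℤ)) : Prop where
  mem : γ ∈ GG N
  dd : dd N γ = l

lemma bot_rT (h : Adp N l γ) (x : Option (Fin l)) : Bot N (l : ZMod N) (rT l γ x) := by
  cases x with
  | none =>
    have := (bot_of_mem h.mem).mul (bot_dl_none (N := N) (l := l))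
    rwa [h.dd, mul_one] at this
  | some j =>
    rw [rT_some]
    exact bot_dl_some j

lemma aT_mem (h : Adp N l γ) (x : Option (Fin l)) : aT l γ x ∈ GG N := by
  cases x with
  | none => exact h.mem
  | some j => exact one_mem _

/-- elements with prescribed lower right entry -/
theorem exists_dd (N : ℕ) {d : ℤ} (hd : IsCoprime d (N : ℤ)) :
    ∃ γ ∈ GG N, dd N γ = d := by
  obtain ⟨u, v, huv⟩ := hd
  refine ⟨mkSL !![u, -v; N, d] ?_, ?_, ?_⟩
  · rw [Matrix.det_fin_two_of]; linear_combination huv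
  · exact mkSL_mem _ (by simp)
  · rw [dd]
    change (((!![u, -v; (N : ℤ), d] : M2) 1 1 : ℤ) : ZMod N) = d
    simp

theorem exists_adp (hl : l.Prime) (hlN : ¬ l ∣ N) : ∃ γ, Adp N l γ := by
  obtain ⟨γ, h1, h2⟩ := exists_dd N (isCoprime_of_not_dvd hl hlN).symm
  exact ⟨γ, h1, by rw [h2]; simp⟩

theorem exists_dd_unit (u : (ZMod N)ˣ) [NeZero N] : ∃ γ ∈ GG N, dd N γ = u := by
  have h1 : IsCoprime (((u : ZMod N).val : ℕ) : ℤ) (N : ℤ) :=
    Nat.isCoprime_iff_coprime.2 (ZMod.val_coe_unit_coprime u)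
  obtain ⟨γ, h2, h3⟩ := exists_dd N h1
  exact ⟨γ, h2, by rw [h3]; simp⟩

lemma coe_mul_inv_mul_SL (g h : SL(2, ℤ)) (X : M2) :
    ((g * h⁻¹ : SL(2, ℤ)) : M2) * ((h : M2) * X) = (g : M2) * X := by
  rw [← Matrix.mul_assoc, ← Matrix.SpecialLinearGroup.coe_mul, inv_mul_cancel_right]

lemma coe_mul_mul_SL (g h : SL(2, ℤ)) (X : M2) :
    ((g * h : SL(2, ℤ)) : M2) * X = (g : M2) * ((h : M2) * X) := by
  rw [Matrix.SpecialLinearGroup.coe_mul, Matrix.mul_assoc]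

/-- the criterion for membership in `Γ_H(N)` -/
theorem mem_GH_of_mul {H : Subgroup (ZMod N)ˣ} {X Y : M2} {g : SL(2, ℤ)} {e : ZMod N}
    {u : (ZMod N)ˣ} (he : IsUnit e) (hX : Bot N (u * e) X) (hu : u ∈ H) (hg : g ∈ GG N)
    (hY : Bot N e Y) (h : X = (g : M2) * Y) : g ∈ GH N H := by
  refine ⟨hg, u, hu, ?_⟩
  have h1 := ((bot_of_mem hg).mul hY).d
  rw [← h, hX.d] at h1
  exact he.mul_right_cancel h1

variable {H : Subgroup (ZMod N)ˣ}

theorem exists_unit_of_mem (h : γ ∈ GH N H) : ∃ u ∈ H, dd N γ = (u : (ZMod N)ˣ) := by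
  obtain ⟨-, u, hu, h⟩ := h
  exact ⟨u, hu, h.symm⟩

theorem isUnit_natCast (hl : l.Prime) (hlN : ¬ l ∣ N) : IsUnit (l : ZMod N) := by
  obtain ⟨γ, h⟩ := exists_adp hl hlN
  rw [← h.dd]
  exact isUnit_dd h.mem

lemma dl_eq_of_rT (hl : l.Prime) {x y : Option (Fin l)} {g : SL(2, ℤ)}
    (h : rT l γ x = (g : M2) * rT l γ y) : x = y := by
  refine dl_eq_of hl (B := (((aT l γ x)⁻¹ * g * aT l γ y : SL(2, ℤ)) : M2)) ?_
  rw [Matrix.SpecialLinearGroup.coe_mul, Matrix.SpecialLinearGroup.coe_mul, Matrix.mul_assoc,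
    Matrix.mul_assoc]
  change _ = _ * ((g : M2) * rT l γ y)
  rw [← h, rT, ← Matrix.mul_assoc, ← Matrix.SpecialLinearGroup.coe_mul, inv_mul_cancel,
    Matrix.SpecialLinearGroup.coe_one, Matrix.one_mul]

/-- **The family of `T_ℓ` at level `Γ_H(N)`.** -/
theorem fam_rT (H : Subgroup (ZMod N)ˣ) (hl : l.Prime) (hlN : ¬ l ∣ N) (hγ : Adp N l γ) :
    Fam (GH N H) (GH N H) (rT l γ) :=
  fam_of_choice (fun x => by rw [det_rT]; exact_mod_cast hl.ne_zero) (fun δ hδ x => by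
    obtain ⟨y, B, hB⟩ := exists_dl_mul hl (δ : M2) x
    have hdet : B.det = 1 := by rw [det_eq_of_dl_mul hl.ne_zero hB, δ.det_coe]
    have hBN : (N : ℤ) ∣ B 1 0 :=
      (dvd_c hB (isCoprime_of_not_dvd hl hlN)).mpr (dvd_of_mem (GH_le N H hδ))
    let b : SL(2, ℤ) := mkSL B hdet
    have hb : b ∈ GG N := mkSL_mem hdet hBN
    let g : SL(2, ℤ) := aT l γ x * b * (aT l γ y)⁻¹
    have hg : g ∈ GG N := mul_mem (mul_mem (aT_mem hγ x) hb) (inv_mem (aT_mem hγ y))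
    have hh : rT l γ x * (δ : M2) = (g : M2) * rT l γ y := by
      rw [rT, Matrix.mul_assoc, hB]
      change _ = ((aT l γ x * b * (aT l γ y)⁻¹ : SL(2, ℤ)) : M2) * ((aT l γ y : M2) * dl l y)
      rw [coe_mul_inv_mul_SL, coe_mul_mul_SL]
      rfl
    obtain ⟨u, hu, hu'⟩ := exists_unit_of_mem hδ
    refine ⟨y, ⟨g, mem_GH_of_mul (isUnit_natCast hl hlN) ?_ hu hg (bot_rT hγ y) hh⟩, hh⟩
    have h1 := (bot_rT hγ x).mul (bot_of_mem (GH_le N H hδ))
    rwa [hu', mul_comm] at h1)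
    (fun x y g h => dl_eq_of_rT hl h)

/-- `T_ℓ` does not depend on the choice of `γ` -/
theorem fam_rT_op_eq (H : Subgroup (ZMod N)ˣ) (hl : l.Prime) (hlN : ¬ l ∣ N) (hγ : Adp N l γ)
    (hγ' : Adp N l γ') : (fam_rT H hl hlN hγ).op A = (fam_rT H hl hlN hγ').op A := by
  refine Fam.op_eq' _ _ (Equiv.refl _) fun x => ?_
  let g : SL(2, ℤ) := aT l γ x * (aT l γ' x)⁻¹
  have hg : g ∈ GG N := mul_mem (aT_mem hγ x) (inv_mem (aT_mem hγ' x))
  have hh : rT l γ x = (g : M2) * rT l γ' x := by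
    change _ = ((aT l γ x * (aT l γ' x)⁻¹ : SL(2, ℤ)) : M2) * ((aT l γ' x : M2) * dl l x)
    rw [coe_mul_inv_mul_SL]
    rfl
  refine ⟨⟨g, mem_GH_of_mul (u := 1) (isUnit_natCast hl hlN) ?_ (one_mem _) hg (bot_rT hγ' x) hh⟩,
    hh⟩
  rw [Units.val_one, one_mul]
  exact bot_rT hγ x

/-- families of diamond operators -/
theorem fam_dia {Γ : Subgroup SL(2, ℤ)} (h : ∀ δ ∈ Γ, γ * δ * γ⁻¹ ∈ Γ) :
    Fam Γ Γ (fun _ : Unit => (γ : M2)) where
  det _ := by rw [γ.det_coe]; exact one_ne_zero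
  tr δ hδ := ⟨1, fun _ => ⟨_, h δ hδ⟩, fun _ => by
    rw [← Matrix.SpecialLinearGroup.coe_mul, ← Matrix.SpecialLinearGroup.coe_mul,
      inv_mul_cancel_right]⟩

theorem conj_mem_GH (hγ : γ ∈ GG N) (δ : SL(2, ℤ)) (hδ : δ ∈ GH N H) :
    γ * δ * γ⁻¹ ∈ GH N H := by
  obtain ⟨u, hu, hu'⟩ := exists_unit_of_mem hδ
  have h1 := GH_le N H hδ
  refine ⟨mul_mem (mul_mem hγ h1) (inv_mem hγ), u, hu, ?_⟩
  change _ = dd N _
  rw [dd_mul (mul_mem hγ h1) (inv_mem hγ), dd_mul hγ h1, hu', mul_comm (dd N γ), mul_assoc,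
    mul_comm (dd N γ), dd_inv_mul hγ, mul_one]

/-- the diamond family of `Γ_H(N)` -/
theorem fam_diaH (H : Subgroup (ZMod N)ˣ) (hγ : γ ∈ GG N) :
    Fam (GH N H) (GH N H) (fun _ : Unit => (γ : M2)) :=
  fam_dia (conj_mem_GH hγ)

theorem fam_diaH_op_apply (hγ : γ ∈ GG N) (φ : Additive (GH N H) →+ A) (δ : GH N H) :
    (fam_diaH H hγ).op A φ (Additive.ofMul δ) =
      φ (Additive.ofMul ⟨γ * δ * γ⁻¹, conj_mem_GH hγ δ δ.2⟩) := by
  rw [Fam.op_apply_of_tr _ _ _ (σ := 1)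
    (g := fun _ => ⟨γ * δ * γ⁻¹, conj_mem_GH hγ δ δ.2⟩) (fun _ => by
      rw [← Matrix.SpecialLinearGroup.coe_mul, ← Matrix.SpecialLinearGroup.coe_mul,
        inv_mul_cancel_right])]
  simp

/-- diamonds only depend on the class of the lower right entry modulo `H` -/
theorem fam_diaH_op_eq (hγ : γ ∈ GG N) (hγ' : γ' ∈ GG N) (h : γ * γ'⁻¹ ∈ GH N H) :
    (fam_diaH H hγ).op A = (fam_diaH H hγ').op A :=
  Fam.op_eq' _ _ (Equiv.refl _) fun _ => ⟨⟨_, h⟩, by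
    rw [← Matrix.SpecialLinearGroup.coe_mul, inv_mul_cancel_right]⟩

theorem mul_inv_mem_GH (hγ : γ ∈ GG N) (hγ' : γ' ∈ GG N) {u : (ZMod N)ˣ} (hu : u ∈ H)
    (h : dd N γ = u * dd N γ') : γ * γ'⁻¹ ∈ GH N H := by
  refine ⟨mul_mem hγ (inv_mem hγ'), u, hu, ?_⟩
  change _ = dd N _
  rw [dd_mul hγ (inv_mem hγ'), h, mul_assoc, mul_comm (dd N γ'), dd_inv_mul hγ', mul_one]

/-- composition of diamonds -/
theorem fam_diaH_op_op (hγ : γ ∈ GG N) (hδ : δ ∈ GG N) (φ : Additive (GH N H) →+ A) :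
    (fam_diaH H hδ).op A ((fam_diaH H hγ).op A φ) = (fam_diaH H (mul_mem hγ hδ)).op A φ := by
  rw [Fam.op_op]
  exact DFunLike.congr_fun (Fam.op_eq' _ _ (Equiv.punitProd Unit) fun _ => ⟨1, by
    simp⟩) φ

theorem fam_diaH_op_of_mem (hγ : γ ∈ GG N) (h : γ ∈ GH N H) (φ : Additive (GH N H) →+ A) :
    (fam_diaH H hγ).op A φ = φ := by
  have h1 := Fam.op_const (fam_diaH H hγ) (fun _ => ⟨⟨γ, h⟩, rfl⟩) φ
  rw [h1]
  simp

end

end Fermat.Agent.KumG
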