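import Fermat.Agent.KumG.Action
import Fermat.Agent.ALCoh.Mult

/-!
# Multiplicative double coset operators on modular functions, general level
-/

set_option autoImplicit false
set_option linter.unusedSectionVars false

open UpperHalfPlane ModularForm Complex Matrix.SpecialLinearGroup
open scoped MatrixGroups Manifold
open Fermat.Agent.AL Fermat.Agent.Kum Fermat.Agent.MFLib Fermat.Agent.HeckeProd ModularCurve
  Fermat.Agent.ALCoh

namespace Fermat.Agent.KumG

noncomputable section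

variable {Γ Γ' Γ'' : Subgroup SL(2, ℤ)} [LvlG Γ] [LvlG Γ'] [LvlG Γ''] {ι κ : Type*} [Fintype ι]
  [Fintype κ] {rep : ι → M2} {rep' : κ → M2} {k l : ℤ} {f g u v : ℍ → ℂ} {B : M2}

theorem isMF_prodSl (hF : Fam Γ Γ' rep) (hdet : ∀ x, 0 < (rep x).det)
    (hf : IsMF Γ k f) : IsMF Γ' ((Fintype.card ι : ℤ) * k) (prodSl k rep f) where
  toHB := hb_prodSl hf.toHB
  slash γ hγ := by
    rw [prodSl_slash_of_tr hdet (hF.tr_elt ⟨γ, hγ⟩) (c := fun _ => 1)
      (fun δ => by rw [hf.slash _ δ.2, one_smul])]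
    simp

open Classical in
/-- The multiplicative operator attached to a family. -/
def mop (Γ : Subgroup SL(2, ℤ)) (rep : ι → M2) (x : LaurentSeries ℂ) : LaurentSeries ℂ :=
  if h : ∃ k f g, RepF Γ x k f g then
    ql (prodSl h.choose rep h.choose_spec.choose) /
      ql (prodSl h.choose rep h.choose_spec.choose_spec.choose)
  else 0

section

variable {x y : LaurentSeries ℂ}

theorem repF_mop (hF : Fam Γ Γ' rep) (hdet : ∀ x, 0 < (rep x).det)
    (h : RepF Γ x k f g) :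
    RepF Γ' (mop Γ rep x) ((Fintype.card ι : ℤ) * k) (prodSl k rep f) (prodSl k rep g) where
  mf := isMF_prodSl hF hdet h.mf
  mg := isMF_prodSl hF hdet h.mg
  g0 := prodSl_ne_zero h.mg.holo h.g0
  eq := by
    have hex : ∃ k f g, RepF Γ x k f g := ⟨k, f, g, h⟩
    have h' : RepF Γ x hex.choose hex.choose_spec.choose hex.choose_spec.choose_spec.choose :=
      hex.choose_spec.choose_spec.choose_spec
    rw [mop, dif_pos hex]
    set k' := hex.choose
    set f' := hex.choose_spec.choose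
    set g' := hex.choose_spec.choose_spec.choose
    have h1 := h.cross h'
    have h2 : prodSl k rep f * prodSl k' rep g' = prodSl k' rep f' * prodSl k rep g := by
      have h3 := prodSl_mul (k := k) (l := k') (f := f) (g := g') hdet
      rw [h1, add_comm k k', prodSl_mul hdet] at h3
      exact (smul_right_injective _ (dc_ne_zero hdet) h3).symm
    have m1 := isMF_prodSl hF hdet h.mf
    have m2 := isMF_prodSl hF hdet h.mg
    have m3 := isMF_prodSl hF hdet h'.mf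
    have m4 := isMF_prodSl hF hdet h'.mg
    have h4 : ql (prodSl k' rep g') ≠ 0 := by
      rw [ne_eq, ql_eq_zero m4.qgG]
      exact prodSl_ne_zero h'.mg.holo h'.g0
    rw [div_mul_eq_mul_div, div_eq_iff h4, ← ql_mul m1.qgG m4.qgG, ← ql_mul m3.qgG m2.qgG, h2]

theorem mop_mem (hF : Fam Γ Γ' rep) (hdet : ∀ x, 0 < (rep x).det) (hx : x ∈ MFunG Γ) :
    mop Γ rep x ∈ MFunG Γ' := by
  obtain ⟨k, f, g, h⟩ := hx
  exact ⟨_, _, _, repF_mop hF hdet h⟩

theorem _root_.Fermat.Agent.KumG.RepF.unique {x y : LaurentSeries ℂ} (h : RepF Γ x k f g)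
    (h' : RepF Γ y k f g) : x = y := by
  have h1 : ql g ≠ 0 := by
    rw [ne_eq, ql_eq_zero h.mg.qgG]
    exact h.g0
  exact mul_right_cancel₀ h1 (h.eq.trans h'.eq.symm)

theorem _root_.Fermat.Agent.KumG.RepF.smul {x : LaurentSeries ℂ} {c : ℂ} (hc : c ≠ 0)
    (h : RepF Γ x k f g) : RepF Γ x k (c • f) (c • g) where
  mf := h.mf.smul c
  mg := h.mg.smul c
  g0 := smul_ne_zero hc h.g0
  eq := by
    rw [ql_smul c h.mg.qgG, ql_smul c h.mf.qgG, ← h.eq]
    ring

theorem _root_.Fermat.Agent.KumG.RepF.congrW {x : LaurentSeries ℂ} (h : RepF Γ x k f g)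
    (e : k = l) : RepF Γ x l f g := e ▸ h

theorem mop_mul (hF : Fam Γ Γ' rep) (hdet : ∀ x, 0 < (rep x).det) (hx : x ∈ MFunG Γ)
    (hy : y ∈ MFunG Γ) : mop Γ rep (x * y) = mop Γ rep x * mop Γ rep y := by
  obtain ⟨k, f, g, h⟩ := hx
  obtain ⟨k', f', g', h'⟩ := hy
  have h1 := repF_mop hF hdet (h.mul h')
  rw [prodSl_mul hdet, prodSl_mul hdet] at h1
  have h2 := (((repF_mop hF hdet h).mul (repF_mop hF hdet h')).smul (dc_ne_zero hdet)).congrW
    (l := (Fintype.card ι : ℤ) * (k + k')) (by ring)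
  exact h1.unique h2

theorem mop_ne_zero (hF : Fam Γ Γ' rep) (hdet : ∀ x, 0 < (rep x).det) (hx : x ∈ MFunG Γ)
    (hx0 : x ≠ 0) : mop Γ rep x ≠ 0 := by
  obtain ⟨k, f, g, h⟩ := hx
  intro h0
  have h1 := (repF_mop hF hdet h).eq
  rw [h0, zero_mul, eq_comm, ql_eq_zero (isMF_prodSl hF hdet h.mf).qgG] at h1
  exact prodSl_ne_zero h.mf.holo (h.f_ne hx0) h1

theorem mop_one (hF : Fam Γ Γ' rep) (hdet : ∀ x, 0 < (rep x).det) :
    mop Γ rep 1 = 1 := by
  have h1 := mop_mul hF hdet (one_mem (MFunG Γ)) (one_mem (MFunG Γ))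
  rw [mul_one] at h1
  have h2 := mop_ne_zero hF hdet (one_mem (MFunG Γ)) one_ne_zero
  exact (mul_left_cancel₀ h2 (by rw [mul_one]; exact h1)).symm

theorem mop_pow (hF : Fam Γ Γ' rep) (hdet : ∀ x, 0 < (rep x).det) (hx : x ∈ MFunG Γ)
    (n : ℕ) : mop Γ rep (x ^ n) = mop Γ rep x ^ n := by
  induction n with
  | zero => rw [pow_zero, pow_zero, mop_one hF hdet]
  | succ n ih => rw [pow_succ, mop_mul hF hdet (pow_mem hx n) hx, ih, pow_succ]

theorem mop_inv (hF : Fam Γ Γ' rep) (hdet : ∀ x, 0 < (rep x).det) (hx : x ∈ MFunG Γ)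
    (hx0 : x ≠ 0) : mop Γ rep x⁻¹ = (mop Γ rep x)⁻¹ := by
  have h1 := mop_mul hF hdet hx (inv_mem hx)
  rw [mul_inv_cancel₀ hx0, mop_one hF hdet] at h1
  exact eq_inv_of_mul_eq_one_right h1.symm

variable {m : ℕ} [NeZero m] {φ : Additive Γ →+ ZMod m}

/-- The multiplicative operator on Kummer classes. -/
theorem repU_mop (hF : Fam Γ Γ' rep) (hdet : ∀ x, 0 < (rep x).det)
    (h : RepU Γ x φ k u g) :
    RepU Γ' (mop Γ rep x) (hF.op (ZMod m) φ) ((Fintype.card ι : ℤ) * k) (prodSl k rep u)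
      (prodSl k rep g) where
  hu := hb_prodSl h.hu
  u0 := prodSl_ne_zero h.hu.holo h.u0
  hs γ := by
    rw [prodSl_slash_of_tr hdet (hF.tr_elt γ) (c := fun δ => ech (φ (Additive.ofMul δ)))
      (fun δ => h.hs δ), ← ech_sum]
    rfl
  hg := isMF_prodSl hF hdet h.hg
  g0 := prodSl_ne_zero h.hg.holo h.g0
  eq := by
    obtain ⟨c, hc, hcp⟩ := prodSl_pow (k := k) hdet m (NeZero.pos m)
    have h1 := (repF_mop hF hdet h.repF).eq
    have h2 : prodSl k rep g ^ m = c⁻¹ • prodSl (m * k) rep (g ^ m) := by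
      rw [hcp, smul_smul, inv_mul_cancel₀ hc, one_smul]
    have h3 : prodSl k rep u ^ m = c⁻¹ • prodSl (m * k) rep (u ^ m) := by
      rw [hcp, smul_smul, inv_mul_cancel₀ hc, one_smul]
    rw [← ql_pow (isMF_prodSl hF hdet h.hg).qgG, h2, h3,
      ql_smul _ (isMF_prodSl hF hdet (h.hg.pow m)).qgG, ql_smul _ (isMF_prodSl hF hdet h.pow_mf).qgG,
      ← h1]
    ring

/-- **The multiplicative operator represents the additive one.** -/
theorem rep_mop (hF : Fam Γ Γ' rep) (hdet : ∀ x, 0 < (rep x).det)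
    (h : Rep Γ x φ) : Rep Γ' (mop Γ rep x) (hF.op (ZMod m) φ) := by
  obtain ⟨k, u, g, h⟩ := h
  exact ⟨_, _, _, repU_mop hF hdet h⟩

end

end

end Fermat.Agent.KumG
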