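import Fermat.Agent.KumG.Mult
import Fermat.Agent.KumG.HeckeFam

/-!
# Operators on Kummer classes
-/

set_option autoImplicit false
set_option linter.unusedSectionVars false

open UpperHalfPlane ModularForm Complex Matrix.SpecialLinearGroup
open scoped MatrixGroups Manifold
open Fermat.Agent.AL Fermat.Agent.Kum Fermat.Agent.MFLib Fermat.Agent.HeckeProd ModularCurve
  Fermat.Agent.ALCoh

namespace Fermat.Agent.KumG

noncomputable section

variable {Γ : Subgroup SL(2, ℤ)} [LvlG Γ] {ι κ : Type*} [Fintype ι]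
  [Fintype κ] {rep : ι → M2} {rep' : κ → M2} {k : ℤ} {f g u v : ℍ → ℂ} {B : M2}

/-- the operator on integral parabolic homomorphisms -/
def opL (hF : Fam Γ Γ rep) : Module.End ℤ (LZ Γ) :=
  AddMonoidHom.toIntLinearMap
    { toFun := fun φ => ⟨hF.op ℤ φ.1, isParabolicHom_op hF φ.2⟩
      map_zero' := Subtype.ext (map_zero (hF.op ℤ))
      map_add' := fun φ ψ => Subtype.ext (map_add (hF.op ℤ) φ.1 ψ.1) }

theorem opL_coe (hF : Fam Γ Γ rep) (φ : LZ Γ) : (opL hF φ).1 = hF.op ℤ φ.1 := rfl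

theorem opL_congr (hF : Fam Γ Γ rep) (hF' : Fam Γ Γ rep') (h : hF.op ℤ = hF'.op ℤ) :
    opL hF = opL hF' := LinearMap.ext fun φ => Subtype.ext (DFunLike.congr_fun h φ.1)

variable {m : ℕ}

/-- endomorphisms of the lattice act on the quotient -/
def mapX (m : ℕ) (T : Module.End ℤ (LZ Γ)) : XL Γ m →+ XL Γ m :=
  QuotientAddGroup.map (mL Γ m) (mL Γ m) T.toAddMonoidHom (by
    rintro _ ⟨φ, rfl⟩
    exact ⟨T φ, (map_nsmul T m φ).symm⟩)

theorem mapX_mkX (T : Module.End ℤ (LZ Γ)) (φ : LZ Γ) : mapX m T (mkX φ) = mkX (T φ) := rfl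

variable [NeZero m]

variable (Γ m) in
/-- the action of the endomorphism ring of the lattice -/
def actE : Module.End ℤ (LZ Γ) →+* AddMonoid.End (XL Γ m) where
  toFun T := mapX m T
  map_one' := by
    refine AddMonoidHom.ext fun ξ => ?_
    obtain ⟨φ, rfl⟩ := mkX_surjective ξ
    rfl
  map_mul' s t := by
    refine AddMonoidHom.ext fun ξ => ?_
    obtain ⟨φ, rfl⟩ := mkX_surjective ξ
    rfl
  map_zero' := by
    refine AddMonoidHom.ext fun ξ => ?_
    obtain ⟨φ, rfl⟩ := mkX_surjective ξ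
    rfl
  map_add' s t := by
    refine AddMonoidHom.ext fun ξ => ?_
    obtain ⟨φ, rfl⟩ := mkX_surjective ξ
    rfl

theorem actE_mkX (T : Module.End ℤ (LZ Γ)) (φ : LZ Γ) : actE Γ m T (mkX φ) = mkX (T φ) := rfl

theorem redI_opL (hF : Fam Γ Γ rep) (φ : LZ Γ) :
    redI m (opL hF φ) = hF.op (ZMod m) (redI m φ) := by
  rw [redI, opL_coe, Fam.comp_op]
  rfl

section

variable {K : Type*} [Field K] [Algebra ℚ K] [IsAlgClosed K] [CharZero K] (j : K →+* ℂ) [RatG Γ]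

/-- **The class of the image under a multiplicative operator.** -/
theorem good_op (hF : Fam Γ Γ rep) (hdet : ∀ x, 0 < (rep x).det) {x y : FG Γ K}
    (hx : KD (6 * wd Γ * (m * tb Γ)) x) (hy : coeffMap j y.1 = mop Γ rep (coeffMap j x.1)) :
    Good m y := by
  obtain ⟨φ, hφ, h⟩ := hx.exists_rep j
  apply KD_of_rep j (φ := hF.op _ φ) (isParabolicHom_op hF hφ)
  rw [hy]
  exact rep_mop hF hdet h

theorem cls_op (hF : Fam Γ Γ rep) (hdet : ∀ x, 0 < (rep x).det) {x y : FG Γ K}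
    (hx : KD (6 * wd Γ * (m * tb Γ)) x) (hy : coeffMap j y.1 = mop Γ rep (coeffMap j x.1)) :
    cls j m y = actE Γ m (opL hF) (cls j m x) := by
  have hx' : Good m x := hx.of_dvd (Dvd.intro_left (6 * wd Γ) rfl)
  obtain ⟨φ, hφ⟩ := hx'.exists_mk j
  rw [cls_eq j hx' hφ, actE_mkX]
  apply cls_eq j (good_op j hF hdet hx hy)
  rw [redI_opL, hy]
  exact rep_mop hF hdet hφ

/-- **The Galois action commutes with the operator.** -/
theorem rhoF_op (hF : Fam Γ Γ rep) (hdet : ∀ x, 0 < (rep x).det) {Φ : FG Γ K → FG Γ K}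
    (hΦ : ∀ x, coeffMap j (Φ x).1 = mop Γ rep (coeffMap j x.1))
    (hgal : ∀ (σ : K ≃ₐ[ℚ] K) x, galK σ (Φ x) = Φ (galK σ x)) (σ : K ≃ₐ[ℚ] K) (ξ : XL Γ m) :
    rhoF j m σ (actE Γ m (opL hF) ξ) = actE Γ m (opL hF) (rhoF j m σ ξ) := by
  obtain ⟨x, hx, rfl⟩ := exists_cls_eq (K := K) j ξ (6 * wd Γ)
  have hx' : Good m x := hx.of_dvd (dvd_mul_right _ _)
  rw [mul_comm] at hx
  rw [← cls_op j hF hdet hx (hΦ x), rhoF_cls j σ (good_op j hF hdet hx (hΦ x)), rhoF_cls j σ hx',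
    hgal, cls_op j hF hdet (hx.gal σ) (hΦ _)]

end

end

end Fermat.Agent.KumG
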