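import Fermat.Agent.KumG.Exist

/-!
# Integral parabolic homomorphisms
-/

set_option autoImplicit false
set_option linter.unusedSectionVars false

open Matrix.SpecialLinearGroup
open scoped MatrixGroups
open ModularCurve ModularCurve.Period

namespace Fermat.Agent.KumG

noncomputable section

variable (Γ : Subgroup SL(2, ℤ))

/-- parabolic homomorphisms with values in `ℤ` -/
abbrev LZ : Type := ↥(parabolicHoms ℤ Γ ℤ)

/-- the set of parabolic elements (and `±1`) -/
def parSet : Set Γ :=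
  {γ | ((γ : SL(2, ℤ)) : Matrix (Fin 2) (Fin 2) ℤ).trace ^ 2 = 4}

/-- `Γ^ab` modulo parabolic elements -/
abbrev QP : Type :=
  Abelianization Γ ⧸ Subgroup.closure (Abelianization.of '' parSet Γ)

/-- projection -/
def prQ : Γ →* QP Γ := (QuotientGroup.mk' _).comp Abelianization.of

lemma prQ_surjective : Function.Surjective (prQ Γ) := by
  intro x
  obtain ⟨y, rfl⟩ := QuotientGroup.mk'_surjective _ x
  obtain ⟨z, rfl⟩ := QuotientGroup.mk_surjective y
  exact ⟨z, rfl⟩

lemma prQ_eq_one {γ : Γ} (h : γ ∈ parSet Γ) : prQ Γ γ = 1 := by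
  change ((Abelianization.of γ : Abelianization Γ) : QP Γ) = 1
  rw [QuotientGroup.eq_one_iff]
  exact Subgroup.subset_closure ⟨γ, h, rfl⟩

/-- `QP` as an additive group -/
abbrev QA : Type := Additive (QP Γ)

instance finite_QA [Γ.FiniteIndex] : Module.Finite ℤ (QA Γ) := by
  have h1 := fg_of_finiteIndex (Γ := Γ)
  have h2 : Group.FG (QP Γ) := Group.fg_of_surjective (prQ_surjective Γ)
  have h3 : AddGroup.FG (QA Γ) := inferInstance
  exact Module.Finite.iff_addGroup_fg.mpr h3

variable {Γ}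

/-- the factorisation of a parabolic homomorphism -/
def fac {A : Type*} [AddCommGroup A] (φ : Additive Γ →+ A)
    (hφ : IsParabolicHom Γ φ) : QA Γ →+ A :=
  MonoidHom.toAdditiveLeft (QuotientGroup.lift _
    (Abelianization.lift (AddMonoidHom.toMultiplicativeRight φ)) (by
      rw [Subgroup.closure_le]
      rintro _ ⟨γ, hγ, rfl⟩
      exact congrArg Multiplicative.ofAdd (hφ γ hγ)))

lemma fac_apply {A : Type*} [AddCommGroup A] (φ : Additive Γ →+ A)
    (hφ : IsParabolicHom Γ φ) (γ : Γ) :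
    fac φ hφ (Additive.ofMul (prQ Γ γ)) = φ (Additive.ofMul γ) := rfl

/-- the parabolic homomorphism attached to a homomorphism on `Q` -/
def unfac {A : Type*} [AddCommGroup A] (u : QA Γ →+ A) : Additive Γ →+ A :=
  u.comp (MonoidHom.toAdditive (prQ Γ))

lemma unfac_apply {A : Type*} [AddCommGroup A] (u : QA Γ →+ A) (γ : Γ) :
    unfac u (Additive.ofMul γ) = u (Additive.ofMul (prQ Γ γ)) := rfl

lemma isParabolicHom_unfac {A : Type*} [AddCommGroup A] (u : QA Γ →+ A) :
    IsParabolicHom Γ (unfac u) := by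
  intro γ hγ
  rw [unfac_apply, prQ_eq_one Γ hγ, ofMul_one, map_zero]

variable (Γ)

/-- the torsion-free quotient -/
abbrev FQ : Type := QA Γ ⧸ Submodule.torsion ℤ (QA Γ)

variable [Γ.FiniteIndex]

instance free_FQ : Module.Free ℤ (FQ Γ) := Module.free_of_finite_type_torsion_free'

instance finite_LZ : Module.Finite ℤ (LZ Γ) := by
  let e : LZ Γ →ₗ[ℤ] (QA Γ →ₗ[ℤ] ℤ) :=
    { toFun := fun φ => (fac φ.1 φ.2).toIntLinearMap
      map_add' := fun φ ψ => by
        ext x
        obtain ⟨x, rfl⟩ := Additive.ofMul.surjective x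
        obtain ⟨γ, rfl⟩ := prQ_surjective Γ x
        rfl
      map_smul' := fun n φ => by
        ext x
        obtain ⟨x, rfl⟩ := Additive.ofMul.surjective x
        obtain ⟨γ, rfl⟩ := prQ_surjective Γ x
        rfl }
  refine Module.Finite.of_injective e fun φ ψ h => ?_
  apply Subtype.ext
  ext γ
  obtain ⟨γ, rfl⟩ := Additive.ofMul.surjective γ
  exact LinearMap.congr_fun h (Additive.ofMul (prQ Γ γ))

omit [Γ.FiniteIndex] in
instance torsionFree_LZ : IsAddTorsionFree (LZ Γ) where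
  nsmul_right_injective n hn φ ψ h := by
    apply Subtype.ext
    ext γ
    have h1 := congrArg (fun χ : LZ Γ => χ.1 γ) h
    have h2 : (n : ℤ) * φ.1 γ = n * ψ.1 γ := by
      have h3 : ∀ χ : LZ Γ, (n • χ).1 γ = (n : ℤ) * χ.1 γ := fun χ => by
        rw [← nsmul_eq_mul]; rfl
      rw [← h3, ← h3]; exact h1
    exact mul_left_cancel₀ (by exact_mod_cast hn) h2

instance free_LZ : Module.Free ℤ (LZ Γ) := Module.free_of_finite_type_torsion_free'

/-- parabolic homomorphisms with values in `ℂ` -/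
abbrev LC : Type := ↥(parabolicHoms ℂ Γ ℂ)

omit [Γ.FiniteIndex] in
/-- extension of scalars -/
def castP : LZ Γ →ₗ[ℤ] LC Γ where
  toFun φ := ⟨(Int.castAddHom ℂ).comp φ.1, fun γ hγ => by
    change ((φ.1 (Additive.ofMul γ) : ℤ) : ℂ) = 0
    rw [φ.2 γ hγ, Int.cast_zero]⟩
  map_add' φ ψ := by
    apply Subtype.ext
    ext γ
    exact Int.cast_add _ _
  map_smul' n φ := by
    apply Subtype.ext
    ext γ
    change ((n • φ.1 γ : ℤ) : ℂ) = n • ((φ.1 γ : ℤ) : ℂ)
    rw [smul_eq_mul, Int.cast_mul, zsmul_eq_mul]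

/-- every complex parabolic homomorphism is a combination of integral ones -/
theorem span_castP : Submodule.span ℂ (Set.range (castP Γ)) = ⊤ := by
  rw [eq_top_iff]
  rintro φ -
  let u : QA Γ →ₗ[ℤ] ℂ := (fac φ.1 φ.2).toIntLinearMap
  have hu : Submodule.torsion ℤ (QA Γ) ≤ LinearMap.ker u := by
    intro x hx
    rw [Submodule.mem_torsion_iff] at hx
    obtain ⟨a, ha⟩ := hx
    rw [LinearMap.mem_ker]
    have h1 : (a : ℤ) • u x = 0 := by
      rw [← map_smul]
      have : (a : ℤ) • x = 0 := ha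
      rw [this, map_zero]
    rcases smul_eq_zero.mp h1 with h | h
    · exact absurd h (nonZeroDivisors.coe_ne_zero a)
    · exact h
  let v : FQ Γ →ₗ[ℤ] ℂ := Submodule.liftQ _ u hu
  let b := Module.Free.chooseBasis ℤ (FQ Γ)
  let ψ : Module.Free.ChooseBasisIndex ℤ (FQ Γ) → LZ Γ := fun i =>
    ⟨unfac ((b.coord i ∘ₗ Submodule.mkQ _).toAddMonoidHom), isParabolicHom_unfac _⟩
  have key : φ = ∑ i, v (b i) • castP Γ (ψ i) := by
    apply Subtype.ext
    refine AddMonoidHom.ext fun γ => ?_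
    obtain ⟨γ, rfl⟩ := Additive.ofMul.surjective γ
    have h1 : φ.1 (Additive.ofMul γ) = v (Submodule.Quotient.mk (Additive.ofMul (prQ Γ γ))) := rfl
    have h2 : (Submodule.Quotient.mk (Additive.ofMul (prQ Γ γ)) : FQ Γ) =
      ∑ i, b.repr (Submodule.Quotient.mk (Additive.ofMul (prQ Γ γ))) i • b i := (b.sum_repr _).symm
    rw [h1, h2, map_sum]
    rw [AddSubmonoidClass.coe_finset_sum, AddMonoidHom.finset_sum_apply]
    refine Finset.sum_congr rfl fun i _ => ?_
    rw [map_smul, zsmul_eq_mul, mul_comm]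
    rfl
  rw [key]
  exact Submodule.sum_mem _ fun i _ => Submodule.smul_mem _ _ (Submodule.subset_span ⟨_, rfl⟩)

end

end Fermat.Agent.KumG
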