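import Fermat.Agent.KumG.HeckeAlg
import Fermat.Agent.Period.Inj
import Fermat.Agent.HeckeHom.Equiv
import Fermat.Agent.AL.QCoeff

/-!
# The period map in weight two, general level
-/

set_option autoImplicit false
set_option linter.unusedSectionVars false
set_option linter.style.haveILetI false

open UpperHalfPlane hiding I
open ModularForm Complex Filter Topology Matrix.SpecialLinearGroup
open scoped MatrixGroups Manifold
open Fermat.Agent.AL Fermat.Agent.MFLib Fermat.Agent.ALCoh ModularCurve ModularCurve.Period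
  Fermat.Agent.Period ModularFormClass

namespace Fermat.Agent.KumG

noncomputable section

variable {Γ : Subgroup SL(2, ℤ)} {f g : ℍ → ℂ}

/-- `φ` is the period homomorphism of `f` -/
def IsPer (Γ : Subgroup SL(2, ℤ)) (f : ℍ → ℂ) (φ : Additive Γ →+ ℂ) : Prop :=
  ∃ F : ℍ → ℂ, (∀ τ : ℍ, HasDerivAt (F ∘ ofComplex) (f τ) τ) ∧
    ∀ (γ : Γ) (z : ℍ), F ((γ : SL(2, ℤ)) • z) - F z = φ (Additive.ofMul γ)

theorem isPer_of_primitive {F : ℍ → ℂ} (hF : ∀ τ : ℍ, HasDerivAt (F ∘ ofComplex) (f τ) τ)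
    (hc : ∀ γ ∈ Γ, ∃ c : ℂ, ∀ z : ℍ, F (γ • z) - F z = c) :
    ∃ φ : Additive Γ →+ ℂ, IsPer Γ f φ ∧
      ∀ (γ : Γ) (z : ℍ), F ((γ : SL(2, ℤ)) • z) - F z = φ (Additive.ofMul γ) := by
  choose c hc using fun γ : Γ => hc γ γ.2
  have key : ∀ γ δ : Γ, c (γ * δ) = c γ + c δ := fun γ δ => by
    rw [← hc (γ * δ) UpperHalfPlane.I, ← hc γ ((δ : SL(2, ℤ)) • UpperHalfPlane.I),
      ← hc δ UpperHalfPlane.I, Subgroup.coe_mul, mul_smul]
    ring
  exact ⟨AddMonoidHom.mk' (fun γ => c (Additive.toMul γ)) fun γ δ => key _ _,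
    ⟨F, hF, fun γ z => hc γ z⟩, fun γ z => hc γ z⟩

theorem exists_isPer [Γ.FiniteIndex] (hf : IsCF Γ 2 f) : ∃ φ : LC Γ, IsPer Γ f φ.1 := by
  obtain ⟨F, hF, -, hc, M, hM, hq⟩ := exists_primitive_form hf
  obtain ⟨φ, hφ, hφ'⟩ := isPer_of_primitive hF hc
  refine ⟨⟨φ, fun γ hγ => ?_⟩, hφ⟩
  obtain ⟨δ, m, hδ⟩ := exists_conj_T_zpow (γ : SL(2, ℤ)) hγ
  obtain ⟨L, hL⟩ := (hq δ).tendsto hM
  have h1 : Tendsto (fun w : ℍ => F (δ • (ModularGroup.T ^ m • w)) - F (δ • w)) atImInfty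
      (𝓝 (L - L)) := (hL.comp (tendsto_T_zpow_smul m)).sub hL
  have h2 : ∀ w : ℍ, F (δ • (ModularGroup.T ^ m • w)) - F (δ • w) = φ (Additive.ofMul γ) := by
    intro w
    rw [← hδ w]
    exact hφ' γ (δ • w)
  rw [sub_self] at h1
  exact tendsto_nhds_unique ((tendsto_const_nhds).congr fun w => (h2 w).symm) h1

theorem IsPer.unique {φ ψ : Additive Γ →+ ℂ} (h : IsPer Γ f φ) (h' : IsPer Γ f ψ) : φ = ψ := by
  obtain ⟨F, hF, h1⟩ := h
  obtain ⟨G, hG, h2⟩ := h'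
  obtain ⟨c, hc⟩ := sub_const_of_hasDerivAt hF hG
  refine AddMonoidHom.ext fun γ => ?_
  obtain ⟨γ, rfl⟩ := Additive.ofMul.surjective γ
  rw [← h1 γ UpperHalfPlane.I, ← h2 γ UpperHalfPlane.I, hc, hc]
  ring

theorem IsPer.add {φ ψ : Additive Γ →+ ℂ} (h : IsPer Γ f φ) (h' : IsPer Γ g ψ) :
    IsPer Γ (f + g) (φ + ψ) := by
  obtain ⟨F, hF, h1⟩ := h
  obtain ⟨G, hG, h2⟩ := h'
  refine ⟨F + G, fun τ => (hF τ).add (hG τ), fun γ z => ?_⟩
  rw [AddMonoidHom.add_apply, ← h1 γ z, ← h2 γ z]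
  simp only [Pi.add_apply]
  ring

theorem IsPer.smul (c : ℂ) {φ : Additive Γ →+ ℂ} (h : IsPer Γ f φ) :
    IsPer Γ (c • f) (c • φ) := by
  obtain ⟨F, hF, h1⟩ := h
  refine ⟨c • F, fun τ => (hF τ).const_mul c, fun γ z => ?_⟩
  rw [AddMonoidHom.smul_apply, ← h1 γ z]
  simp only [Pi.smul_apply, smul_eq_mul]
  ring

theorem IsPer.eq_zero [Γ.FiniteIndex] (hf : IsCF Γ 2 f) (h : IsPer Γ f 0) : f = 0 := by
  obtain ⟨F, hF, -, hc, M, hM, hq⟩ := exists_primitive_form hf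
  obtain ⟨φ, hφ, hφ'⟩ := isPer_of_primitive hF hc
  have hφ0 := hφ.unique h
  obtain ⟨c, hc⟩ := eq_const_of_norm_invariant (Γ := Γ) (E := F) (fun γ hγ z => by
    have h1 := hφ' ⟨γ, hγ⟩ z
    rw [hφ0, AddMonoidHom.zero_apply, sub_eq_zero] at h1
    rw [h1]) hM hq
  funext τ
  have h1 : HasDerivAt (F ∘ ofComplex) 0 (τ : ℂ) := by
    have h2 : F ∘ ofComplex = fun _ => c := by
      funext z
      exact hc _
    rw [h2]
    exact hasDerivAt_const _ _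
  exact (hF τ).unique h1

/-- forms with equal periods are equal -/
theorem IsPer.inj [Γ.FiniteIndex] (hf : IsCF Γ 2 f) (hg : IsCF Γ 2 g) {φ : Additive Γ →+ ℂ}
    (h : IsPer Γ f φ) (h' : IsPer Γ g φ) : f = g := by
  have h1 : IsCF Γ 2 (f - g) := by
    have h2 := (HC.of_isCF hf).sub (HC.of_isCF hg)
    refine ⟨⟨h2.hb, fun γ hγ => ?_⟩, h2.zero⟩
    rw [sub_eq_add_neg, SlashAction.add_slash, SlashAction.neg_slash, hf.slash γ hγ,
      hg.slash γ hγ]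
  have h2 : IsPer Γ (f - g) 0 := by
    have h3 := h.add (h'.smul (-1))
    have e1 : f + (-1 : ℂ) • g = f - g := by rw [neg_one_smul, sub_eq_add_neg]
    have e2 : φ + (-1 : ℂ) • φ = 0 := by rw [neg_one_smul, add_neg_cancel]
    rwa [e1, e2] at h3
  exact sub_eq_zero.mp (h2.eq_zero h1)

section fam

variable {ι : Type*} [Fintype ι] {rep : ι → M2} {Γ' : Subgroup SL(2, ℤ)}

theorem IsPer.op (hF : Fam Γ Γ' rep) (hdet : ∀ x, 0 < (rep x).det) {φ : Additive Γ →+ ℂ}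
    (h : IsPer Γ f φ) : IsPer Γ' (∑ x, sl 2 (rep x) f) (hF.op ℂ φ) := by
  obtain ⟨F, hFd, h1⟩ := h
  refine ⟨fun w => ∑ x, F (toGL (rep x) • w), fun τ => ?_, fun γ z => ?_⟩
  · have h2 : ((fun w : ℍ => ∑ x, F (toGL (rep x) • w)) ∘ ofComplex) =
        ∑ x, ((fun w : ℍ => F (toGL (rep x) • w)) ∘ ofComplex) := by
      funext z
      simp only [Function.comp_apply, Finset.sum_apply]
    rw [h2, Finset.sum_apply]
    refine HasDerivAt.sum fun x _ => ?_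
    refine HeckeHom.hasDerivAt_comp_smul_GL hFd (toGL (rep x)) ?_ τ
    rw [← Matrix.GeneralLinearGroup.val_det_apply, det_toGL (hdet x).ne']
    exact_mod_cast hdet x
  · rw [hF.op_apply_of_tr φ γ (hF.tr_elt γ)]
    have h4 : ∑ x, F (toGL (rep x) • z) = ∑ x, F (toGL (rep (hF.perm γ x)) • z) :=
      (Equiv.sum_comp (hF.perm γ) (fun x => F (toGL (rep x) • z))).symm
    change ∑ x, F (toGL (rep x) • ((γ : SL(2, ℤ)) • z)) - ∑ x, F (toGL (rep x) • z) = _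
    rw [h4, ← Finset.sum_sub_distrib]
    refine Finset.sum_congr rfl fun x _ => ?_
    rw [← h1 (hF.elt γ x) (toGL (rep (hF.perm γ x)) • z)]
    have h5 : toGL (rep x) • ((γ : SL(2, ℤ)) • z) =
        ((hF.elt γ x : Γ) : SL(2, ℤ)) • (toGL (rep (hF.perm γ x)) • z) := by
      have h6 : toGL (rep x) • ((γ : SL(2, ℤ)) • z) =
          (toGL (rep x) * mapGL ℝ (γ : SL(2, ℤ))) • z := by
        rw [mul_smul]; rfl
      rw [h6, ← toGL_SL, ← toGL_mul (hdet x).ne' (by rw [(γ : SL(2, ℤ)).det_coe]; exact one_ne_zero),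
        hF.tr_elt γ x, toGL_mul (by rw [(hF.elt γ x : SL(2, ℤ)).det_coe]; exact one_ne_zero)
          (hdet _).ne', toGL_SL, mul_smul]
      rfl
    rw [h5]

theorem isCF_op (hF : Fam Γ Γ' rep) {k : ℤ} (hf : IsCF Γ k f) :
    IsCF Γ' k (∑ x, sl k (rep x) f) := by
  have h1 : HC k (∑ x, sl k (rep x) f) := HC.sum fun x _ => (HC.of_isCF hf).sl _
  refine ⟨⟨h1.hb, fun γ hγ => ?_⟩, h1.zero⟩
  obtain ⟨σ, g, hg⟩ := hF.tr γ hγ
  rw [← sl_SL, sl_sum, ← Equiv.sum_comp σ (fun x => sl k (rep x) f)]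
  refine Finset.sum_congr rfl fun x _ => ?_
  rw [← sl_mul (hF.det x) (by rw [γ.det_coe]; exact one_ne_zero), hg x,
    sl_mul (by rw [(g x : SL(2, ℤ)).det_coe]; exact one_ne_zero) (hF.det _), sl_SL,
    hf.slash _ (g x).2]

end fam

end

end Fermat.Agent.KumG
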