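import Fermat.Agent.KumG.Val

/-!
# Kummer classes and characters of `Γ`
-/

set_option autoImplicit false
set_option linter.unusedSectionVars false

open UpperHalfPlane ModularForm Complex Filter Topology Matrix.SpecialLinearGroup
open scoped MatrixGroups Manifold

namespace Fermat.Agent.KumG

open Fermat.Agent.MFLib Fermat.Agent.Kum

noncomputable section

variable {Γ : Subgroup SL(2, ℤ)} [LvlG Γ] {m : ℕ} [NeZero m] {k l : ℤ} {f g u : ℍ → ℂ}

variable (Γ) in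
/-- `x` is the `m`-th power of the "function" `u / g` with character `φ`. -/
structure RepU (x : LaurentSeries ℂ) (φ : Additive Γ →+ ZMod m) (k : ℤ) (u g : ℍ → ℂ) :
    Prop where
  hu : HB k u
  u0 : u ≠ 0
  hs : ∀ γ : Γ, u ∣[k] (γ : SL(2, ℤ)) = ech (φ (Additive.ofMul γ)) • u
  hg : IsMF Γ k g
  g0 : g ≠ 0
  eq : x * ql g ^ m = ql (u ^ m)

variable (Γ) in
/-- The Kummer class of `x` corresponds to the character `φ`. -/
def Rep (x : LaurentSeries ℂ) (φ : Additive Γ →+ ZMod m) : Prop :=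
  ∃ k u g, RepU Γ x φ k u g

namespace RepU

variable {x y : LaurentSeries ℂ} {φ ψ : Additive Γ →+ ZMod m}

theorem pow_mf (h : RepU Γ x φ k u g) : IsMF Γ (m * k) (u ^ m) where
  toHB := h.hu.pow m
  slash γ hγ := by
    rw [pow_slash_SL, h.hs ⟨γ, hγ⟩, smul_pow', ech_pow, one_smul]

theorem repF (h : RepU Γ x φ k u g) : RepF Γ x (m * k) (u ^ m) (g ^ m) where
  mf := h.pow_mf
  mg := h.hg.pow m
  g0 := pow_ne_zero'' h.hg.holo h.g0 m
  eq := by rw [ql_pow h.hg.qgG, h.eq]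

theorem ne_zero (h : RepU Γ x φ k u g) : x ≠ 0 := by
  rintro rfl
  have h1 := h.eq
  rw [zero_mul, eq_comm, ql_eq_zero h.pow_mf.qgG] at h1
  exact pow_ne_zero'' h.hu.holo h.u0 m h1

theorem mul {u' g' : ℍ → ℂ} (h : RepU Γ x φ k u g) (h' : RepU Γ y ψ l u' g') :
    RepU Γ (x * y) (φ + ψ) (k + l) (u * u') (g * g') where
  hu := h.hu.mul h'.hu
  u0 := mul_ne_zero' h.hu.holo h'.hu.holo h.u0 h'.u0
  hs γ := by
    rw [mul_slash_SL2, h.hs, h'.hs, AddMonoidHom.add_apply, ech_add]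
    funext τ
    simp only [Pi.mul_apply, Pi.smul_apply, smul_eq_mul]
    ring
  hg := h.hg.mul h'.hg
  g0 := mul_ne_zero' h.hg.holo h'.hg.holo h.g0 h'.g0
  eq := by
    rw [ql_mul h.hg.qgG h'.hg.qgG, mul_pow (u : ℍ → ℂ), ql_mul h.pow_mf.qgG h'.pow_mf.qgG, ← h.eq,
      ← h'.eq]
    ring

/-- the inverse -/
theorem inv (h : RepU Γ x φ k u g) :
    RepU Γ x⁻¹ (-φ) (m * k) (g * u ^ (m - 1)) (u ^ m) where
  hu := (h.hg.toHB.mul (h.hu.pow (m - 1))).congr_weight (by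
    have : (m : ℤ) = ((m - 1 : ℕ) : ℤ) + 1 := by
      have := NeZero.pos m
      omega
    rw [this]; ring)
  u0 := mul_ne_zero' h.hg.holo (h.hu.pow (m - 1)).holo h.g0 (pow_ne_zero'' h.hu.holo h.u0 _)
  hs γ := by
    have hm : (m : ℤ) = ((m - 1 : ℕ) : ℤ) + 1 := by
      have := NeZero.pos m
      omega
    have hk : (m : ℤ) * k = k + ((m - 1 : ℕ) : ℤ) * k := by rw [hm]; ring
    rw [hk, mul_slash_SL2, pow_slash_SL, h.hs, h.hg.slash _ γ.2, smul_pow']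
    have h1 : ech (φ (Additive.ofMul γ)) ^ (m - 1) = ech ((-φ) (Additive.ofMul γ)) := by
      rw [← ech_nsmul]
      congr 1
      rw [AddMonoidHom.neg_apply, eq_neg_iff_add_eq_zero, ← succ_nsmul,
        Nat.sub_add_cancel (NeZero.pos m)]
      simp
    rw [h1]
    funext τ
    simp only [Pi.mul_apply, Pi.smul_apply, smul_eq_mul]
    ring
  hg := h.pow_mf
  g0 := pow_ne_zero'' h.hu.holo h.u0 m
  eq := by
    have hx := h.ne_zero
    have e1 : (g * u ^ (m - 1)) ^ m = g ^ m * (u ^ m) ^ (m - 1) := by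
      rw [mul_pow, ← pow_mul, ← pow_mul, mul_comm m]
    have e2 : ql ((u ^ m) ^ (m - 1)) = ql (u ^ m) ^ (m - 1) := ql_pow h.pow_mf.qgG _
    have e3 : IsMF Γ (((m - 1 : ℕ) : ℤ) * (m * k)) ((u ^ m) ^ (m - 1)) := h.pow_mf.pow _
    rw [e1, ql_mul (h.hg.pow m).qgG e3.qgG, e2, ql_pow h.hg.qgG]
    have e4 : ql (u ^ m) ^ m = ql (u ^ m) ^ (m - 1) * ql (u ^ m) := by
      rw [← pow_succ, Nat.sub_add_cancel (NeZero.pos m)]
    rw [e4, ← h.eq]
    field_simp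

/-- the character of a modular function that is an `m`-th power is trivial -/
theorem eq_zero_of_pow {z : LaurentSeries ℂ} (h : RepU Γ (z ^ m) φ k u g) (hz : z ∈ MFunG Γ) :
    φ = 0 := by
  obtain ⟨l, f', g', h'⟩ := hz
  have hz0 : z ≠ 0 := by
    rintro rfl
    exact h.ne_zero (zero_pow (NeZero.ne m))
  have h1 : ql ((u * g') ^ m) = ql ((f' * g) ^ m) := by
    rw [mul_pow, mul_pow, ql_mul h.pow_mf.qgG (h'.mg.pow m).qgG,
      ql_mul (h'.mf.pow m).qgG (h.hg.pow m).qgG, ql_pow h'.mg.qgG, ql_pow h'.mf.qgG,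
      ql_pow h.hg.qgG, ← h.eq, ← h'.eq]
    ring
  have h2 : (u * g') ^ m = (f' * g) ^ m := by
    rw [mul_pow, mul_pow, ql_inj (h.pow_mf.mul (h'.mg.pow m)).qgG
      ((h'.mf.pow m).mul (h.hg.pow m)).qgG] at h1
    rw [mul_pow, mul_pow, h1]
  obtain ⟨c, hc, h3⟩ := exists_eq_smul_of_pow_eq (NeZero.pos m)
    (h.hu.holo.mul h'.mg.holo) (h'.mf.holo.mul h.hg.holo) h2
  suffices key : ∀ γ : Γ, φ (Additive.ofMul γ) = 0 from
    AddMonoidHom.ext fun γ' => key (Additive.toMul γ')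
  intro γ
  have h4 : (u * g') ∣[k + l] (γ : SL(2, ℤ)) = u * g' := by
    rw [h3, SL_smul_slash, add_comm k l, mul_slash_SL2, h'.mf.slash _ γ.2, h.hg.slash _ γ.2]
  rw [mul_slash_SL2, h.hs, h'.mg.slash _ γ.2] at h4
  have h5 : (ech (φ (Additive.ofMul γ)) - 1) • (u * g') = 0 := by
    rw [sub_smul, one_smul, sub_eq_zero, ← smul_mul_assoc, h4]
  rw [smul_eq_zero] at h5
  rcases h5 with h5 | h5
  · apply ech_injective
    rw [ech_zero]
    exact sub_eq_zero.1 h5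
  · exact absurd h5 (mul_ne_zero' h.hu.holo h'.mg.holo h.u0 h'.g0)

/-- a modular function with trivial character is an `m`-th power -/
theorem exists_pow (h : RepU Γ x (0 : Additive Γ →+ ZMod m) k u g) : ∃ z ∈ MFunG Γ, x = z ^ m := by
  have hu : IsMF Γ k u := by
    refine ⟨h.hu, fun γ hγ => ?_⟩
    rw [h.hs ⟨γ, hγ⟩, AddMonoidHom.zero_apply, ech_zero, one_smul]
  refine ⟨ql u / ql g, ⟨k, u, g, hu, h.hg, h.g0, ?_⟩, ?_⟩
  · rw [div_mul_cancel₀]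
    rw [ne_eq, ql_eq_zero h.hg.qgG]
    exact h.g0
  · have hg0 : ql g ≠ 0 := by
      rw [ne_eq, ql_eq_zero h.hg.qgG]
      exact h.g0
    rw [div_pow, eq_div_iff (pow_ne_zero _ hg0), h.eq, ql_pow hu.qgG]

end RepU

variable {x y : LaurentSeries ℂ} {φ ψ : Additive Γ →+ ZMod m}

theorem Rep.ne_zero (h : Rep Γ x φ) : x ≠ 0 := by
  obtain ⟨k, u, g, h⟩ := h
  exact h.ne_zero

theorem Rep.mem (h : Rep Γ x φ) : x ∈ MFunG Γ := by
  obtain ⟨k, u, g, h⟩ := h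
  exact ⟨_, _, _, h.repF⟩

theorem Rep.mul (h : Rep Γ x φ) (h' : Rep Γ y ψ) : Rep Γ (x * y) (φ + ψ) := by
  obtain ⟨k, u, g, h⟩ := h
  obtain ⟨k', u', g', h'⟩ := h'
  exact ⟨_, _, _, h.mul h'⟩

theorem Rep.inv (h : Rep Γ x φ) : Rep Γ x⁻¹ (-φ) := by
  obtain ⟨k, u, g, h⟩ := h
  exact ⟨_, _, _, h.inv⟩

theorem rep_pow {z : LaurentSeries ℂ} (hz : z ∈ MFunG Γ) (hz0 : z ≠ 0) :
    Rep Γ (z ^ m) (0 : Additive Γ →+ ZMod m) := by
  obtain ⟨l, f', g', h'⟩ := hz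
  refine ⟨l, f', g', h'.mf.toHB, h'.f_ne hz0, fun γ => ?_, h'.mg, h'.g0, ?_⟩
  · rw [h'.mf.slash _ γ.2, AddMonoidHom.zero_apply, ech_zero, one_smul]
  · rw [ql_pow h'.mf.qgG, ← h'.eq, mul_pow]

theorem Rep.pow (h : Rep Γ x φ) (n : ℕ) : Rep Γ (x ^ n) (n • φ) := by
  induction n with
  | zero =>
    have := rep_pow (Γ := Γ) (m := m) (z := 1) (one_mem _) one_ne_zero
    simpa using this
  | succ n ih => rw [pow_succ, succ_nsmul]; exact ih.mul h

theorem Rep.eq_zero_of_pow {z : LaurentSeries ℂ} (h : Rep Γ (z ^ m) φ) (hz : z ∈ MFunG Γ) :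
    φ = 0 := by
  obtain ⟨k, u, g, h⟩ := h
  exact h.eq_zero_of_pow hz

/-- `Rep` is a function -/
theorem Rep.unique (h : Rep Γ x φ) (h' : Rep Γ x ψ) : φ = ψ := by
  have h1 := h.mul h'.inv
  rw [mul_inv_cancel₀ h.ne_zero] at h1
  have h2 : Rep Γ ((1 : LaurentSeries ℂ) ^ m) (φ + -ψ) := by rwa [one_pow]
  have := h2.eq_zero_of_pow (one_mem _)
  rwa [add_neg_eq_zero] at this

theorem Rep.exists_pow (h : Rep Γ x (0 : Additive Γ →+ ZMod m)) : ∃ z ∈ MFunG Γ, x = z ^ m := by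
  obtain ⟨k, u, g, h⟩ := h
  exact h.exists_pow

end

end Fermat.Agent.KumG
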