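import Fermat.Agent.KumG.Rep
import Fermat.Agent.Period.Parab

/-!
# Functions all of whose orders are divisible by `m` are represented by parabolic characters
-/

set_option autoImplicit false
set_option linter.unusedSectionVars false

open UpperHalfPlane ModularForm Complex Filter Topology Matrix.SpecialLinearGroup
open scoped MatrixGroups Manifold

namespace Fermat.Agent.KumG

open Fermat.Agent.MFLib ModularCurve Fermat.Agent.Kum

noncomputable section

variable {Γ : Subgroup SL(2, ℤ)} [LvlG Γ] {m : ℕ} [NeZero m] {k l : ℤ} {f g u : ℍ → ℂ}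

lemma neg_one_pow_weight (hg : IsMF Γ k g) (hg0 : g ≠ 0) : (-1 : ℂ) ^ k = 1 := by
  have h := hg.slash _ LvlG.neg_mem
  rw [slash_neg_one] at h
  exact eq_zero_of_smul_eq hg0 (by rw [h, one_smul])

theorem exists_rep_of_dvd {x : LaurentSeries ℂ} (hx : x ∈ MFunG Γ) (hx0 : x ≠ 0)
    (h1 : ∀ τ : ℍ, (m : ℤ) ∣ (ptVal Γ τ).val x)
    (h2 : ∀ (w : ℕ) (hw : 0 < w) (δ : SL(2, ℤ)) (hδ : δ * ModularGroup.T ^ w * δ⁻¹ ∈ Γ),
      (m : ℤ) ∣ (cuspVal hw δ hδ).val x) :
    ∃ φ : Additive Γ →+ ZMod m, Period.IsParabolicHom Γ φ ∧ Rep Γ x φ := by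
  obtain ⟨k, f, g, hfg⟩ := hx
  have hm : 0 < m := NeZero.pos m
  have hf0 := hfg.f_ne hx0
  set U : ℍ → ℂ := f * g ^ (m - 1) with hU
  have hk : k + ((m - 1 : ℕ) : ℤ) * k = m * k := by
    have : (m : ℤ) = ((m - 1 : ℕ) : ℤ) + 1 := by omega
    rw [this]; ring
  have hUmf : IsMF Γ (m * k) U := (hfg.mf.mul (hfg.mg.pow (m - 1))).congr_weight hk
  have hgm0 : g ^ (m - 1) ≠ 0 := pow_ne_zero'' hfg.mg.holo hfg.g0 _
  have hgm : MDiff (g ^ (m - 1)) := (hfg.mg.pow (m - 1)).holo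
  have hU0 : U ≠ 0 := mul_ne_zero' hfg.mf.holo hgm hf0 hgm0
  -- the root
  obtain ⟨u, hu, huU⟩ : ∃ u : ℍ → ℂ, MDiff u ∧ ∀ τ, u τ ^ m = U τ := by
    apply Kum3.exists_root hUmf.holo hU0 hm
    intro τ
    have h3 := h1 τ
    rw [(ptVal Γ τ).val_eq hx0 hfg] at h3
    change (m : ℤ) ∣ (oAt τ f : ℤ) - oAt τ g at h3
    obtain ⟨c, hc⟩ := h3
    have h4 : oAt τ U = oAt τ f + (m - 1) * oAt τ g := by
      rw [hU, oAt_mul hfg.mf.holo hgm hf0 hgm0, oAt_pow hfg.mg.holo hfg.g0]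
    have h5 : (oAt τ U : ℤ) = m * (c + oAt τ g) := by
      rw [h4]
      push_cast
      rw [Nat.cast_sub hm]
      push_cast
      linear_combination hc
    have h6 : 0 ≤ c + oAt τ g := by
      by_contra hlt
      push Not at hlt
      have : (m : ℤ) * (c + oAt τ g) < 0 := mul_neg_of_pos_of_neg (by exact_mod_cast hm) hlt
      omega
    obtain ⟨e, he⟩ := Int.eq_ofNat_of_zero_le h6
    refine ⟨e, ?_⟩
    rw [← coe_oAt hUmf.holo hU0]
    rw [he] at h5
    exact_mod_cast h5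
  have huU' : u ^ m = U := funext huU
  have hu0 : u ≠ 0 := by
    rintro rfl
    apply hU0
    rw [← huU', zero_pow hm.ne']
  have hslash : ∀ δ : SL(2, ℤ), (u ∣[k] δ) ^ m = U ∣[(m * k : ℤ)] δ := by
    intro δ
    rw [← pow_slash_SL, huU']
  have huHB : HB k u := by
    refine ⟨hu, fun δ => ?_⟩
    have h3 := hUmf.bdd δ
    rw [← hslash] at h3
    rw [UpperHalfPlane.isBoundedAtImInfty_iff] at h3 ⊢
    obtain ⟨M, A, h3⟩ := h3
    refine ⟨max M 1, A, fun z hz => ?_⟩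
    by_contra hlt
    push Not at hlt
    have h4 := h3 z hz
    rw [Pi.pow_apply, norm_pow] at h4
    have h5 : (1 : ℝ) ≤ ‖(u ∣[k] δ) z‖ := (le_max_right _ _).trans hlt.le
    have h6 : ‖(u ∣[k] δ) z‖ ≤ ‖(u ∣[k] δ) z‖ ^ m := le_self_pow₀ h5 hm.ne'
    have h7 := (le_max_left M 1).trans_lt hlt
    linarith
  -- the character
  have hex : ∀ γ : Γ, ∃ a : ZMod m, u ∣[k] (γ : SL(2, ℤ)) = ech a • u := by
    intro γ
    obtain ⟨c, hc, h3⟩ := exists_eq_smul_of_pow_eq hm (u := u ∣[k] (γ : SL(2, ℤ))) (v := u)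
      (holo_slash hu k γ) hu (by rw [hslash, hUmf.slash _ γ.2, huU'])
    obtain ⟨a, rfl⟩ := exists_ech_eq hc
    exact ⟨a, h3⟩
  choose a ha using hex
  let φ : Additive Γ →+ ZMod m :=
    AddMonoidHom.mk' (fun γ => a (Additive.toMul γ)) (by
      intro γ δ
      apply ech_injective
      apply eq_zero_of_smul_eq hu0
      rw [← ha, toMul_add, Subgroup.coe_mul, SlashAction.slash_mul, ha, SL_smul_slash, ha, smul_smul,
        ech_add])
  have hφ : ∀ γ : Γ, φ (Additive.ofMul γ) = a γ := fun γ => rfl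
  refine ⟨φ, ?_, k, u, g, huHB, hu0, fun γ => by rw [hφ]; exact ha γ, hfg.mg, hfg.g0, ?_⟩
  · -- parabolic elements
    intro γ hγ
    -- positive translations
    have kpos : ∀ (n : ℕ) (hn : 0 < n) (δ : SL(2, ℤ)) (c : ℂ), c ^ m = 1 →
        δ * ModularGroup.T ^ n * δ⁻¹ ∈ Γ → u ∣[k] (δ * ModularGroup.T ^ n * δ⁻¹) = c • u →
        c = 1 := by
      intro n hn δ c hc hmem hsl
      refine const_eq_one_of_root (m := m) hn (v := u ∣[k] δ) (V := U ∣[(m * k : ℤ)] δ)
        (holo_slash hu k δ) (qw_slash hmem hUmf) ?_ (hslash δ) ?_ hc ?_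
      · rw [ne_eq, slash_eq_zero_iff]; exact hU0
      · have h3 := h2 n hn δ hmem
        rw [(cuspVal hn δ hmem).val_eq hx0 hfg] at h3
        change (m : ℤ) ∣ (oQ n (f ∣[k] δ) : ℤ) - oQ n (g ∣[k] δ) at h3
        have hfδ : f ∣[k] δ ≠ 0 := by rw [ne_eq, slash_eq_zero_iff]; exact hf0
        have hgδ : g ∣[k] δ ≠ 0 := by rw [ne_eq, slash_eq_zero_iff]; exact hfg.g0
        have h4 : oQ n (U ∣[(m * k : ℤ)] δ) = oQ n (f ∣[k] δ) + (m - 1) * oQ n (g ∣[k] δ) := by
          rw [← hk, hU, mul_slash_SL2, pow_slash_SL,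
            oQ_mul hn (qw_slash hmem hfg.mf) ((qw_slash hmem hfg.mg).pow _) hfδ
              (pow_ne_zero'' (holo_slash hfg.mg.holo k δ) hgδ _),
            oQ_pow hn (qw_slash hmem hfg.mg) hgδ]
        have h5 : (oQ n (U ∣[(m * k : ℤ)] δ) : ℤ) =
            (oQ n (f ∣[k] δ) - oQ n (g ∣[k] δ)) + m * oQ n (g ∣[k] δ) := by
          rw [h4]
          push_cast
          rw [Nat.cast_sub hm]
          push_cast
          ring
        have h6 : (m : ℤ) ∣ (oQ n (U ∣[(m * k : ℤ)] δ) : ℤ) := by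
          rw [h5]; exact dvd_add h3 (dvd_mul_right _ _)
        exact_mod_cast h6
      · intro z
        rw [← slash_T_pow (u ∣[k] δ) k, ← SlashAction.slash_mul]
        have h3 : δ * ModularGroup.T ^ n = (δ * ModularGroup.T ^ n * δ⁻¹) * δ := by group
        rw [h3, SlashAction.slash_mul, hsl, SL_smul_slash]
        rfl
    have kall : ∀ (n : ℤ) (δ : SL(2, ℤ)) (c : ℂ), c ^ m = 1 →
        δ * ModularGroup.T ^ n * δ⁻¹ ∈ Γ → u ∣[k] (δ * ModularGroup.T ^ n * δ⁻¹) = c • u →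
        c = 1 := by
      intro n δ c hc hmem hsl
      rcases lt_trichotomy n 0 with hn | rfl | hn
      · obtain ⟨p, hp⟩ := Int.eq_ofNat_of_zero_le (neg_nonneg.2 hn.le)
        have hp0 : 0 < p := by omega
        have h3 : (δ * ModularGroup.T ^ n * δ⁻¹)⁻¹ = δ * ModularGroup.T ^ p * δ⁻¹ := by
          have : n = -(p : ℤ) := by omega
          rw [this]
          group
        have hc0 : c ≠ 0 := by
          rintro rfl
          rw [zero_pow hm.ne'] at hc
          exact zero_ne_one hc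
        have h4 := kpos p hp0 δ c⁻¹ (by rw [inv_pow, hc, inv_one]) (by
          rw [← h3]; exact inv_mem hmem) (by
          rw [← h3]
          have h5 : (u ∣[k] (δ * ModularGroup.T ^ n * δ⁻¹)) ∣[k] (δ * ModularGroup.T ^ n * δ⁻¹)⁻¹
              = u := by
            rw [← SlashAction.slash_mul, mul_inv_cancel, SlashAction.slash_one]
          rw [hsl, SL_smul_slash] at h5
          rw [eq_comm, inv_smul_eq_iff₀ hc0]
          exact h5.symm)
        rwa [inv_eq_one] at h4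
      · rw [zpow_zero, mul_one, mul_inv_cancel, SlashAction.slash_one] at hsl
        exact (eq_zero_of_smul_eq hu0 (by rw [one_smul]; exact hsl)).symm
      · obtain ⟨p, rfl⟩ := Int.eq_ofNat_of_zero_le hn.le
        simp only [zpow_natCast] at hmem hsl
        exact kpos p (by omega) δ c hc hmem hsl
    rw [hφ]
    apply ech_injective
    rw [ech_zero]
    obtain ⟨δ, n, h3⟩ := exists_conj_parab γ hγ
    rcases h3 with h3 | h3
    · refine kall n δ _ (ech_pow _) (by rw [← h3]; exact γ.2) ?_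
      rw [← h3]; exact ha γ
    · have h4 : δ * ModularGroup.T ^ n * δ⁻¹ = (-1 : SL(2, ℤ)) * γ := by rw [h3]; simp
      refine kall n δ _ (ech_pow (a γ)) (by rw [h4]; exact mul_mem LvlG.neg_mem γ.2) ?_
      rw [h4, SlashAction.slash_mul, slash_neg_one, neg_one_pow_weight hfg.mg hfg.g0, one_smul]
      exact ha γ
  · rw [huU', hU, ql_mul hfg.mf.qgG (hfg.mg.pow _).qgG, ql_pow hfg.mg.qgG, ← hfg.eq, mul_assoc,
      ← pow_succ', Nat.sub_add_cancel hm]

end

end Fermat.Agent.KumG
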