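import Fermat.Agent.KumG.Defs
import Fermat.Agent.Kum.Root

/-!
# Analytic valuations on the field of modular functions
-/

set_option autoImplicit false
set_option linter.unusedSectionVars false

open UpperHalfPlane ModularForm Complex Filter Topology Matrix.SpecialLinearGroup
open scoped MatrixGroups Manifold

namespace Fermat.Agent.KumG

open Fermat.Agent.MFLib ModularCurve AlgebraicCurve Fermat.Agent.ModPoly Fermat.Agent.Curve
  Fermat.Agent.Kum

noncomputable section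

variable {Γ : Subgroup SL(2, ℤ)} [LvlG Γ] {k l : ℤ} {f g : ℍ → ℂ}

variable (Γ) in
/-- an additive valuation on modular forms of level `N` -/
structure FVal where
  O : ℤ → (ℍ → ℂ) → ℤ
  mul : ∀ {k l : ℤ} {f g : ℍ → ℂ}, IsMF Γ k f → IsMF Γ l g → f ≠ 0 → g ≠ 0 →
    O (k + l) (f * g) = O k f + O l g
  add : ∀ {k : ℤ} {f g : ℍ → ℂ}, IsMF Γ k f → IsMF Γ k g → f ≠ 0 → g ≠ 0 → f + g ≠ 0 →
    min (O k f) (O k g) ≤ O k (f + g)
  const : ∀ c : ℂ, c ≠ 0 → O 0 (c • 1) = 0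

namespace FVal

variable (V : FVal Γ)

open Classical in
/-- the valuation on modular functions -/
def val (x : LaurentSeries ℂ) : ℤ :=
  if h : ∃ k f g, RepF Γ x k f g then
    V.O h.choose h.choose_spec.choose - V.O h.choose h.choose_spec.choose_spec.choose
  else 0

theorem val_eq {x : LaurentSeries ℂ} (hx : x ≠ 0) (h : RepF Γ x k f g) :
    V.val x = V.O k f - V.O k g := by
  have hex : ∃ k f g, RepF Γ x k f g := ⟨k, f, g, h⟩
  rw [val, dif_pos hex]
  have key : ∀ k' f' g', RepF Γ x k' f' g' → V.O k' f' - V.O k' g' = V.O k f - V.O k g := by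
    intro k' f' g' h'
    have h1 := h.cross h'
    have h2 := V.mul h.mf h'.mg (h.f_ne hx) h'.g0
    have h3 := V.mul h'.mf h.mg (h'.f_ne hx) h.g0
    rw [h1, add_comm k k'] at h2
    omega
  exact key _ _ _ hex.choose_spec.choose_spec.choose_spec

theorem val_mul {x y : LaurentSeries ℂ} (hx : x ∈ MFunG Γ) (hy : y ∈ MFunG Γ) (hx0 : x ≠ 0)
    (hy0 : y ≠ 0) : V.val (x * y) = V.val x + V.val y := by
  obtain ⟨k, f, g, h⟩ := hx
  obtain ⟨l, f', g', h'⟩ := hy
  rw [V.val_eq (mul_ne_zero hx0 hy0) (h.mul h'), V.val_eq hx0 h, V.val_eq hy0 h',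
    V.mul h.mf h'.mf (h.f_ne hx0) (h'.f_ne hy0), V.mul h.mg h'.mg h.g0 h'.g0]
  ring

theorem val_add {x y : LaurentSeries ℂ} (hx : x ∈ MFunG Γ) (hy : y ∈ MFunG Γ) (hx0 : x ≠ 0)
    (hy0 : y ≠ 0) (hxy : x + y ≠ 0) : min (V.val x) (V.val y) ≤ V.val (x + y) := by
  obtain ⟨k, f, g, h⟩ := hx
  obtain ⟨l, f', g', h'⟩ := hy
  rw [V.val_eq hxy (h.add h'), V.val_eq hx0 h, V.val_eq hy0 h',
    V.mul h.mg h'.mg h.g0 h'.g0]
  have h1 := V.mul h.mf h'.mg (h.f_ne hx0) h'.g0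
  have h2 := V.mul h.mg h'.mf h.g0 (h'.f_ne hy0)
  have h3 := V.add (h.mf.mul h'.mg) (h.mg.mul h'.mf)
    (Kum.mul_ne_zero' h.mf.holo h'.mg.holo (h.f_ne hx0) h'.g0)
    (Kum.mul_ne_zero' h.mg.holo h'.mf.holo h.g0 (h'.f_ne hy0)) ((h.add h').f_ne hxy)
  rw [h1, h2] at h3
  rcases le_total (V.O k f - V.O k g) (V.O l f' - V.O l g') with h4 | h4
  · rw [min_eq_left h4]
    rw [min_eq_left (by omega)] at h3
    omega
  · rw [min_eq_right h4]
    rw [min_eq_right (by omega)] at h3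
    omega

theorem val_const (c : ℂ) (hc : c ≠ 0) : V.val (HahnSeries.C c) = 0 := by
  have h0 : (HahnSeries.C c : LaurentSeries ℂ) ≠ 0 := by
    rw [ne_eq, map_eq_zero]
    exact hc
  have h1 : (1 : ℍ → ℂ) = (1 : ℂ) • 1 := by simp
  rw [V.val_eq h0 (RepF.const (Γ := Γ) c), V.const c hc]
  conv_lhs => rw [h1, V.const 1 one_ne_zero]
  rfl

end FVal

variable (Γ) in
/-- the valuation at a point of the upper half plane -/
def ptVal (τ : ℍ) : FVal Γ where
  O _ f := oAt τ f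
  mul hf hg hf0 hg0 := by
    rw [oAt_mul hf.holo hg.holo hf0 hg0]
    push_cast
    rfl
  add hf hg hf0 hg0 hfg := by
    have := oAt_add hf.holo hg.holo hf0 hg0 hfg τ
    exact_mod_cast this
  const c hc := by rw [oAt_smul_one hc]; rfl

/-- `q_w`-expansions of translates of forms -/
theorem qw_slash {w : ℕ} {δ : SL(2, ℤ)} (hδ : δ * ModularGroup.T ^ w * δ⁻¹ ∈ Γ)
    (hf : IsMF Γ k f) : QW w (f ∣[k] δ) where
  per := by
    apply periodic_of_slash_T_pow (k := k)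
    have h1 : δ * ModularGroup.T ^ w = (δ * ModularGroup.T ^ w * δ⁻¹) * δ := by group
    rw [← SlashAction.slash_mul, h1, SlashAction.slash_mul, hf.slash _ hδ]
  holo := holo_slash hf.holo k δ
  bdd := hf.bdd δ

/-- the valuation at a cusp `δ ∞`, in terms of `q_w` -/
def cuspVal {w : ℕ} (hw : 0 < w) (δ : SL(2, ℤ)) (hδ : δ * ModularGroup.T ^ w * δ⁻¹ ∈ Γ) :
    FVal Γ where
  O k f := oQ w (f ∣[k] δ)
  mul hf hg hf0 hg0 := by
    rw [mul_slash_SL2, oQ_mul hw (qw_slash hδ hf) (qw_slash hδ hg)]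
    · push_cast; rfl
    · rwa [ne_eq, slash_eq_zero_iff]
    · rwa [ne_eq, slash_eq_zero_iff]
  add {k f g} hf hg hf0 hg0 hfg := by
    have h1 : (f ∣[k] δ) + (g ∣[k] δ) = (f + g) ∣[k] δ := (SlashAction.add_slash _ _ _ _).symm
    have h2 := oQ_add hw (qw_slash hδ hf) (qw_slash hδ hg) (by rwa [ne_eq, slash_eq_zero_iff])
      (by rwa [ne_eq, slash_eq_zero_iff]) (by rwa [h1, ne_eq, slash_eq_zero_iff])
    rw [h1] at h2
    exact_mod_cast h2
  const c hc := by
    have h1 : (c • (1 : ℍ → ℂ)) ∣[(0 : ℤ)] δ = c • 1 := by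
      have := is_invariant_const δ c
      have h2 : (c • (1 : ℍ → ℂ)) = Function.const ℍ c := by ext; simp
      rw [h2]; exact this
    rw [h1, oQ_const hw hc]; rfl

end

end Fermat.Agent.KumG
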